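/-
S53 sub-task T4 (helper5): plumbing between the prelude's `GaloisRepAdic` / `ResidualGaloisRep`
(abstract free modules, tensor-product base change) and matrix valued homomorphisms.
Proves the statements of `Lib/H7/S53IfaceT4.lean` under the same names.
-/
import Mathlib
import Fermat.Agent.Lib.H7.S53Defs

set_option autoImplicit false

open IsLocalRing
open scoped TensorProduct

noncomputable section

namespace Fermat.Agent.S53Lib

namespace T4

/-- Coordinates of elements of `I • ⊤` lie in `I`. -/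
theorem repr_mem_of_mem_smul_top {A V ι : Type} [CommRing A] [AddCommGroup V] [Module A V]
    (b : Module.Basis ι A V) (I : Ideal A) {x : V} (hx : x ∈ I • (⊤ : Submodule A V)) (i : ι) :
    b.repr x i ∈ I := by
  refine Submodule.smul_induction_on (p := fun x => b.repr x i ∈ I) hx ?_ ?_
  · intro a ha w _
    rw [map_smul, Finsupp.smul_apply, smul_eq_mul]
    exact Ideal.mul_mem_right _ _ ha
  · intro x y hx hy
    rw [map_add, Finsupp.add_apply]
    exact Ideal.add_mem _ hx hy

/-- The matrix valued homomorphism attached to a basis. -/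
def matOfBasis {A : Type} [CommRing A] [IsLocalRing A] (ρA : GaloisRepAdic A)
    (b : Module.Basis (Fin 2) A ρA.V) : GQ →* Matrix (Fin 2) (Fin 2) A :=
  ((LinearMap.toMatrixAlgEquiv b : Module.End A ρA.V ≃ₐ[A] Matrix (Fin 2) (Fin 2) A) :
    Module.End A ρA.V →* Matrix (Fin 2) (Fin 2) A).comp ρA.ρ

theorem matOfBasis_apply {A : Type} [CommRing A] [IsLocalRing A] (ρA : GaloisRepAdic A)
    (b : Module.Basis (Fin 2) A ρA.V) (σ : GQ) (i j : Fin 2) :
    matOfBasis ρA b σ i j = b.repr (ρA.ρ σ (b j)) i := by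
  show LinearMap.toMatrixAlgEquiv b (ρA.ρ σ) i j = _
  rw [LinearMap.toMatrixAlgEquiv_apply]

theorem matOfBasis_matCont {A : Type} [CommRing A] [IsLocalRing A] (ρA : GaloisRepAdic A)
    (b : Module.Basis (Fin 2) A ρA.V) : MatCont A (matOfBasis ρA b) := by
  intro n
  obtain ⟨L, hL, h⟩ := ρA.isAdicContinuous n
  refine ⟨L, hL, fun σ hσ i j => ?_⟩
  have key : (matOfBasis ρA b σ - 1) i j = b.repr (ρA.ρ σ (b j) - b j) i := by
    rw [Matrix.sub_apply, matOfBasis_apply, map_sub, Finsupp.sub_apply, Module.Basis.repr_self,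
      Matrix.one_apply, Finsupp.single_apply]
    simp only [eq_comm]
  rw [key]
  exact repr_mem_of_mem_smul_top b _ (h σ hσ (b j)) i

/-- The equivalence with the matrix representation attached to a basis. -/
def equivMatOfBasis {A : Type} [CommRing A] [IsLocalRing A] (ρA : GaloisRepAdic A)
    (b : Module.Basis (Fin 2) A ρA.V) :
    GaloisRepAdic.Equiv ρA (matRep A (matOfBasis ρA b) (matOfBasis_matCont ρA b)) where
  toLinearEquiv := b.equivFun
  map_apply := fun σ x => by
    show b.equivFun (ρA.ρ σ x) = (LinearMap.toMatrix b b (ρA.ρ σ)).mulVec (b.equivFun x)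
    have := LinearMap.toMatrix_mulVec_repr b b (ρA.ρ σ) x
    ext i
    rw [Module.Basis.equivFun_apply]
    exact (congrFun this i).symm

/-- The matrix valued homomorphism attached to a basis, residual version. -/
def resMatOfBasis {k : Type} [Field k] (ρ : ResidualGaloisRep k)
    (b : Module.Basis (Fin 2) k ρ.V) : GQ →* Matrix (Fin 2) (Fin 2) k :=
  ((LinearMap.toMatrixAlgEquiv b : Module.End k ρ.V ≃ₐ[k] Matrix (Fin 2) (Fin 2) k) :
    Module.End k ρ.V →* Matrix (Fin 2) (Fin 2) k).comp ρ.ρ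

theorem resMatOfBasis_resMatCont {k : Type} [Field k] (ρ : ResidualGaloisRep k)
    (b : Module.Basis (Fin 2) k ρ.V) : ResMatCont k (resMatOfBasis ρ b) := by
  obtain ⟨L, hL, h⟩ := ρ.factorsThroughFiniteLevel
  refine ⟨L, hL, fun σ hσ => ?_⟩
  show LinearMap.toMatrixAlgEquiv b (ρ.ρ σ) = 1
  rw [h σ hσ, map_one]

/-- The equivalence with the matrix representation attached to a basis, residual version. -/
def equivResMatOfBasis {k : Type} [Field k] (ρ : ResidualGaloisRep k)
    (b : Module.Basis (Fin 2) k ρ.V) :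
    ResidualGaloisRep.Equiv ρ (resMatRep k (resMatOfBasis ρ b) (resMatOfBasis_resMatCont ρ b)) where
  toLinearEquiv := b.equivFun
  map_apply := fun σ x => by
    show b.equivFun (ρ.ρ σ x) = (LinearMap.toMatrix b b (ρ.ρ σ)).mulVec (b.equivFun x)
    have := LinearMap.toMatrix_mulVec_repr b b (ρ.ρ σ) x
    ext i
    rw [Module.Basis.equivFun_apply]
    exact (congrFun this i).symm

/-- A linear automorphism of `R²` intertwining `M` and `M'` gives a conjugating unit matrix. -/
theorem exists_conj_of_linearEquiv {R : Type} [CommRing R] {ι : Type} 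
    (M M' : ι → Matrix (Fin 2) (Fin 2) R) (e : (Fin 2 → R) ≃ₗ[R] (Fin 2 → R))
    (he : ∀ (s : ι) (x : Fin 2 → R), e ((M s).mulVec x) = (M' s).mulVec (e x)) :
    ∃ P : Matrix (Fin 2) (Fin 2) R, IsUnit P ∧ ∀ s : ι, P * M s = M' s * P := by
  refine ⟨LinearMap.toMatrix' (e : (Fin 2 → R) →ₗ[R] (Fin 2 → R)), ?_, fun s => ?_⟩
  · refine ⟨⟨LinearMap.toMatrix' (e : (Fin 2 → R) →ₗ[R] (Fin 2 → R)),
      LinearMap.toMatrix' (e.symm : (Fin 2 → R) →ₗ[R] (Fin 2 → R)), ?_, ?_⟩, rfl⟩
    · rw [← LinearMap.toMatrix'_comp, LinearEquiv.comp_coe, LinearEquiv.symm_trans_self,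
        LinearEquiv.refl_toLinearMap, LinearMap.toMatrix'_id]
    · rw [← LinearMap.toMatrix'_comp, LinearEquiv.comp_coe, LinearEquiv.self_trans_symm,
        LinearEquiv.refl_toLinearMap, LinearMap.toMatrix'_id]
  · apply Matrix.toLin'.injective
    refine LinearMap.ext fun x => ?_
    rw [Matrix.toLin'_mul, Matrix.toLin'_mul, Matrix.toLin'_toMatrix', LinearMap.comp_apply,
      LinearMap.comp_apply, Matrix.toLin'_apply, Matrix.toLin'_apply]
    exact he s x

/-- A conjugating unit matrix gives a linear automorphism of `R²`. -/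
theorem exists_linearEquiv_of_conj {R : Type} [CommRing R] {ι : Type}
    (M M' : ι → Matrix (Fin 2) (Fin 2) R) (P : Matrix (Fin 2) (Fin 2) R) (hP : IsUnit P)
    (h : ∀ s : ι, P * M s = M' s * P) :
    ∃ e : (Fin 2 → R) ≃ₗ[R] (Fin 2 → R),
      ∀ (s : ι) (x : Fin 2 → R), e ((M s).mulVec x) = (M' s).mulVec (e x) := by
  obtain ⟨u, rfl⟩ := hP
  refine ⟨LinearEquiv.ofLinearMap (Matrix.toLin' (u : Matrix (Fin 2) (Fin 2) R))
    (Matrix.toLin' ((u⁻¹ : (Matrix (Fin 2) (Fin 2) R)ˣ) : Matrix (Fin 2) (Fin 2) R)) ?_ ?_,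
    fun s x => ?_⟩
  · rw [← Matrix.toLin'_mul, Units.mul_inv, Matrix.toLin'_one]
  · rw [← Matrix.toLin'_mul, Units.inv_mul, Matrix.toLin'_one]
  · show Matrix.toLin' (u : Matrix (Fin 2) (Fin 2) R) ((M s).mulVec x) =
      (M' s).mulVec (Matrix.toLin' (u : Matrix (Fin 2) (Fin 2) R) x)
    rw [Matrix.toLin'_apply, Matrix.toLin'_apply, Matrix.mulVec_mulVec, Matrix.mulVec_mulVec, h s]

/-- The standard identification `B ⊗[A] A² ≃ B²` intertwines the base change of a matrix with
its entrywise image. -/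
theorem piScalarRight_baseChange {A B : Type} [CommRing A] [CommRing B] [Algebra A B]
    (M : Matrix (Fin 2) (Fin 2) A) (x : B ⊗[A] (Fin 2 → A)) :
    TensorProduct.piScalarRight A B B (Fin 2) ((Matrix.toLin' M).baseChange B x) =
      (M.map (algebraMap A B)).mulVec (TensorProduct.piScalarRight A B B (Fin 2) x) := by
  induction x using TensorProduct.induction_on with
  | zero => simp only [map_zero, Matrix.mulVec_zero]
  | tmul b v =>
    rw [LinearMap.baseChange_tmul, TensorProduct.piScalarRight_apply,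
      TensorProduct.piScalarRightHom_tmul, TensorProduct.piScalarRight_apply,
      TensorProduct.piScalarRightHom_tmul]
    ext i
    simp only [Matrix.toLin'_apply, Matrix.mulVec, dotProduct, Matrix.map_apply, Algebra.smul_def,
      map_sum, map_mul, Finset.sum_mul, mul_assoc]
  | add x y hx hy => simp only [map_add, hx, hy, Matrix.mulVec_add]

/-- Irreducibility is invariant under equivalence. -/
theorem isIrreducible_of_equiv {k : Type} [Field k] {ρ ρ' : ResidualGaloisRep k}
    (e : ResidualGaloisRep.Equiv ρ ρ') (h : ρ.IsIrreducible) : ρ'.IsIrreducible := by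
  intro W hW
  have hst : ∀ σ : GQ, ∀ x ∈ W.comap (e.toLinearEquiv : ρ.V →ₗ[k] ρ'.V),
      ρ.ρ σ x ∈ W.comap (e.toLinearEquiv : ρ.V →ₗ[k] ρ'.V) := by
    intro σ x hx
    rw [Submodule.mem_comap] at hx ⊢
    rw [LinearEquiv.coe_coe, e.map_apply]
    exact hW σ _ hx
  rcases h _ hst with h0 | h1
  · left
    rw [eq_bot_iff]
    intro y hy
    have : e.toLinearEquiv.symm y ∈ W.comap (e.toLinearEquiv : ρ.V →ₗ[k] ρ'.V) := by
      rw [Submodule.mem_comap, LinearEquiv.coe_coe, LinearEquiv.apply_symm_apply]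
      exact hy
    rw [h0, Submodule.mem_bot] at this
    rw [Submodule.mem_bot]
    simpa using congrArg e.toLinearEquiv this
  · right
    rw [eq_top_iff]
    intro y _
    have : e.toLinearEquiv.symm y ∈ W.comap (e.toLinearEquiv : ρ.V →ₗ[k] ρ'.V) := by
      rw [h1]; exact Submodule.mem_top
    rw [Submodule.mem_comap, LinearEquiv.coe_coe, LinearEquiv.apply_symm_apply] at this
    exact this

/-- Base change of an equivalence along an algebra. -/
def equivBaseChange {k : Type} [Field k] (k' : Type) [Field k'] [Algebra k k']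
    {ρ₁ ρ₂ : ResidualGaloisRep k} (e : ResidualGaloisRep.Equiv ρ₁ ρ₂) :
    ResidualGaloisRep.Equiv (ρ₁.baseChange k') (ρ₂.baseChange k') :=
  { toLinearEquiv := e.toLinearEquiv.baseChange k k' ρ₁.V ρ₂.V
    map_apply := fun σ x => by
      show e.toLinearEquiv.baseChange k k' ρ₁.V ρ₂.V ((ρ₁.ρ σ).baseChange k' x) =
        (ρ₂.ρ σ).baseChange k' (e.toLinearEquiv.baseChange k k' ρ₁.V ρ₂.V x)
      induction x using TensorProduct.induction_on with
      | zero => simp only [map_zero]
      | tmul b v =>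
        rw [LinearMap.baseChange_tmul, LinearEquiv.baseChange_tmul, LinearEquiv.baseChange_tmul,
          LinearMap.baseChange_tmul, e.map_apply]
      | add x y hx hy => simp only [map_add, hx, hy] }

/-- Coordinates of `1 ⊗ x` with respect to a basis reducing to the standard one. -/
theorem apply_one_tmul_eq {A V : Type} [CommRing A] [IsLocalRing A] [AddCommGroup V] [Module A V]
    (b : Module.Basis (Fin 2) A V)
    (E : (ResidueField A ⊗[A] V) →ₗ[ResidueField A] (Fin 2 → ResidueField A))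
    (hE : ∀ j, E ((1 : ResidueField A) ⊗ₜ[A] b j) = Pi.single j 1) (x : V) (i : Fin 2) :
    E ((1 : ResidueField A) ⊗ₜ[A] x) i = IsLocalRing.residue A (b.repr x i) := by
  have hterm : ∀ j : Fin 2, E ((1 : ResidueField A) ⊗ₜ[A] (b.repr x j • b j)) i =
      if j = i then IsLocalRing.residue A (b.repr x j) else 0 := by
    intro j
    have h1 : (1 : ResidueField A) ⊗ₜ[A] (b.repr x j • b j) =
        (IsLocalRing.residue A (b.repr x j)) • ((1 : ResidueField A) ⊗ₜ[A] b j) := by
      rw [TensorProduct.tmul_smul, TensorProduct.smul_tmul', TensorProduct.smul_tmul',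
        Algebra.smul_def, IsLocalRing.ResidueField.algebraMap_eq, smul_eq_mul]
    rw [h1, map_smul, hE, Pi.smul_apply, Pi.single_apply, smul_eq_mul]
    split_ifs with h1 h2 h2
    · rw [mul_one]
    · exact absurd h1.symm h2
    · exact absurd h2.symm h1
    · rw [mul_zero]
  conv_lhs => rw [← b.sum_repr x]
  rw [TensorProduct.tmul_sum, map_sum, Finset.sum_apply, Finset.sum_congr rfl fun j _ => hterm j,
    Finset.sum_ite_eq' Finset.univ i]
  simp

end T4

/-- T4a: every `GaloisRepAdic` is equivalent to a matrix one (choose a basis). -/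
theorem exists_matRep_equiv (A : Type) [CommRing A] [IsLocalRing A] (ρA : GaloisRepAdic A) :
    ∃ (r : GQ →* Matrix (Fin 2) (Fin 2) A) (hr : MatCont A r), ρA.IsEquiv (matRep A r hr) :=
  ⟨_, _, ⟨T4.equivMatOfBasis ρA (Module.finBasisOfFinrankEq A ρA.V ρA.finrank_eq)⟩⟩

/-- T4b: equivalences of matrix representations are conjugations. -/
theorem matRep_isEquiv_iff (A : Type) [CommRing A] [IsLocalRing A]
    (r r' : GQ →* Matrix (Fin 2) (Fin 2) A) (hr : MatCont A r) (hr' : MatCont A r') :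
    (matRep A r hr).IsEquiv (matRep A r' hr') ↔
      ∃ P : Matrix (Fin 2) (Fin 2) A, IsUnit P ∧ ∀ σ : GQ, P * r σ = r' σ * P := by
  constructor
  · rintro ⟨e⟩
    exact T4.exists_conj_of_linearEquiv (fun σ => r σ) (fun σ => r' σ) e.toLinearEquiv
      (fun σ x => e.map_apply σ x)
  · rintro ⟨P, hP, h⟩
    obtain ⟨e, he⟩ := T4.exists_linearEquiv_of_conj (fun σ => r σ) (fun σ => r' σ) P hP h
    exact ⟨⟨e, fun σ x => he σ x⟩⟩

/-- T4c: continuity is preserved by local homomorphisms. -/
theorem MatCont.map {A B : Type} [CommRing A] [IsLocalRing A] [CommRing B] [IsLocalRing B]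
    (φ : A →+* B) (hφ : IsLocalHom φ) {r : GQ →* Matrix (Fin 2) (Fin 2) A} (hr : MatCont A r) :
    MatCont B (mapMat φ r) := by
  intro n
  obtain ⟨L, hL, h⟩ := hr n
  refine ⟨L, hL, fun σ hσ i j => ?_⟩
  have hmap : (IsLocalRing.maximalIdeal A ^ n).map φ ≤ IsLocalRing.maximalIdeal B ^ n := by
    rw [Ideal.map_pow]
    exact Ideal.pow_right_mono (Ideal.map_le_iff_le_comap.mpr fun a ha =>
      Ideal.mem_comap.mpr (haveI := hφ; map_nonunit φ a ha)) n
  have key : (mapMat φ r σ - 1) i j = φ ((r σ - 1) i j) := by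
    rw [Matrix.sub_apply, Matrix.sub_apply, mapMat_apply, map_sub, Matrix.one_apply,
      Matrix.one_apply]
    split_ifs <;> simp
  rw [key]
  exact hmap (Ideal.mem_map_of_mem φ (h σ hσ i j))

/-- T4d: base change of a matrix representation is the matrix representation of the image. -/
theorem matRep_baseChangeAlong (A B : Type) [CommRing A] [IsLocalRing A] [CommRing B]
    [IsLocalRing B] (φ : A →+* B) (hφ : IsLocalHom φ) (r : GQ →* Matrix (Fin 2) (Fin 2) A)
    (hr : MatCont A r) :
    ((matRep A r hr).baseChangeAlong φ hφ).IsEquiv (matRep B (mapMat φ r) (hr.map φ hφ)) := by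
  let _ : Algebra A B := φ.toAlgebra
  exact ⟨⟨TensorProduct.piScalarRight A B B (Fin 2), fun σ x =>
    T4.piScalarRight_baseChange (r σ) x⟩⟩

/-- T4e: the residual matrices of a continuous matrix representation factor through a finite
level. -/
theorem MatCont.residue {A : Type} [CommRing A] [IsLocalRing A]
    {r : GQ →* Matrix (Fin 2) (Fin 2) A} (hr : MatCont A r) :
    ResMatCont (ResidueField A) (mapMat (IsLocalRing.residue A) r) := by
  obtain ⟨L, hL, h⟩ := hr 1
  refine ⟨L, hL, fun σ hσ => ?_⟩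
  ext i j
  have h1 := h σ hσ i j
  rw [pow_one, ← IsLocalRing.residue_eq_zero_iff, Matrix.sub_apply, map_sub, sub_eq_zero] at h1
  rw [mapMat_apply, h1, Matrix.one_apply, Matrix.one_apply]
  split_ifs <;> simp

/-- T4f: the residual representation of a matrix representation is the matrix representation of
the residues. -/
theorem residual_matRep (A : Type) [CommRing A] [IsLocalRing A]
    (r : GQ →* Matrix (Fin 2) (Fin 2) A) (hr : MatCont A r) :
    (matRep A r hr).residual.IsEquiv
      (resMatRep (ResidueField A) (mapMat (IsLocalRing.residue A) r) hr.residue) :=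
  ⟨⟨TensorProduct.piScalarRight A (ResidueField A) (ResidueField A) (Fin 2), fun σ x =>
    T4.piScalarRight_baseChange (r σ) x⟩⟩

/-- T4g: every `ResidualGaloisRep` is equivalent to a matrix one (choose a basis). -/
theorem exists_resMatRep_equiv (k : Type) [Field k] (ρ : ResidualGaloisRep k) :
    ∃ (r : GQ →* Matrix (Fin 2) (Fin 2) k) (hr : ResMatCont k r),
      ρ.IsEquiv (resMatRep k r hr) :=
  ⟨_, _, ⟨T4.equivResMatOfBasis ρ (Module.finBasisOfFinrankEq k ρ.V ρ.finrank_eq)⟩⟩

/-- T4h: finite-level continuity is preserved by field homomorphisms. -/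
theorem ResMatCont.map {k k' : Type} [Field k] [Field k'] (ψ : k →+* k')
    {r : GQ →* Matrix (Fin 2) (Fin 2) k} (hr : ResMatCont k r) :
    ResMatCont k' (mapMat ψ r) := by
  obtain ⟨L, hL, h⟩ := hr
  refine ⟨L, hL, fun σ hσ => ?_⟩
  ext i j
  rw [mapMat_apply, h σ hσ, Matrix.one_apply, Matrix.one_apply]
  split_ifs <;> simp

/-- T4i: base change of a residual matrix representation. -/
theorem resMatRep_baseChangeAlong (k k' : Type) [Field k] [Field k'] (ψ : k →+* k')
    (r : GQ →* Matrix (Fin 2) (Fin 2) k) (hr : ResMatCont k r) :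
    ((resMatRep k r hr).baseChangeAlong ψ).IsEquiv (resMatRep k' (mapMat ψ r) (hr.map ψ)) := by
  let _ : Algebra k k' := ψ.toAlgebra
  exact ⟨⟨TensorProduct.piScalarRight k k' k' (Fin 2), fun σ x =>
    T4.piScalarRight_baseChange (r σ) x⟩⟩

/-- T4j: equivalences of residual matrix representations are conjugations. -/
theorem resMatRep_isEquiv_iff (k : Type) [Field k]
    (r r' : GQ →* Matrix (Fin 2) (Fin 2) k) (hr : ResMatCont k r) (hr' : ResMatCont k r') :
    (resMatRep k r hr).IsEquiv (resMatRep k r' hr') ↔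
      ∃ P : Matrix (Fin 2) (Fin 2) k, IsUnit P ∧ ∀ σ : GQ, P * r σ = r' σ * P := by
  constructor
  · rintro ⟨e⟩
    exact T4.exists_conj_of_linearEquiv (fun σ => r σ) (fun σ => r' σ) e.toLinearEquiv
      (fun σ x => e.map_apply σ x)
  · rintro ⟨P, hP, h⟩
    obtain ⟨e, he⟩ := T4.exists_linearEquiv_of_conj (fun σ => r σ) (fun σ => r' σ) P hP h
    exact ⟨⟨e, fun σ x => he σ x⟩⟩

/-- T4k: absolute irreducibility is invariant under equivalence. -/
theorem isAbsolutelyIrreducible_of_isEquiv {k : Type} [Field k] {ρ ρ' : ResidualGaloisRep k}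
    (h : ρ.IsEquiv ρ') (habs : ρ.IsAbsolutelyIrreducible) : ρ'.IsAbsolutelyIrreducible := by
  obtain ⟨e⟩ := h
  exact T4.isIrreducible_of_equiv (T4.equivBaseChange (AlgebraicClosure k) e) habs

/-- T4l: continuity is preserved by conjugation. -/
theorem MatCont.conj {A : Type} [CommRing A] [IsLocalRing A]
    {r r' : GQ →* Matrix (Fin 2) (Fin 2) A} (hr : MatCont A r)
    (P : Matrix (Fin 2) (Fin 2) A) (hP : IsUnit P) (h : ∀ σ : GQ, P * r σ = r' σ * P) :
    MatCont A r' := by
  obtain ⟨u, rfl⟩ := hP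
  intro n
  obtain ⟨L, hL, hL'⟩ := hr n
  refine ⟨L, hL, fun σ hσ i j => ?_⟩
  have key : r' σ - 1 = (u : Matrix (Fin 2) (Fin 2) A) * (r σ - 1) *
      ((u⁻¹ : (Matrix (Fin 2) (Fin 2) A)ˣ) : Matrix (Fin 2) (Fin 2) A) := by
    rw [mul_sub, sub_mul, h σ, mul_one, mul_assoc, Units.mul_inv, mul_one]
  rw [key, Matrix.mul_apply]
  refine Ideal.sum_mem _ fun a _ => Ideal.mul_mem_right _ _ ?_
  rw [Matrix.mul_apply]
  exact Ideal.sum_mem _ fun c _ => Ideal.mul_mem_left _ _ (hL' σ hσ c a)

/-- T4m (= M3): a `GaloisRepAdic` over a local `𝒪`-algebra whose residual representation is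
`ρbar` is equivalent to the matrix representation of a lift of `rt`. -/
theorem exists_lift_of_residual_isEquiv (𝒪 : Type) [CommRing 𝒪] [IsLocalRing 𝒪]
    (A : Type) [CommRing A] [IsLocalRing A] [Algebra 𝒪 A] [IsLocalHom (algebraMap 𝒪 A)]
    (ρbar : ResidualGaloisRep (ResidueField 𝒪))
    (rb : GQ →* Matrix (Fin 2) (Fin 2) (ResidueField 𝒪)) (hrb : ResMatCont (ResidueField 𝒪) rb)
    (hρ : ρbar.IsEquiv (resMatRep (ResidueField 𝒪) rb hrb))
    (rt : GQ → Matrix (Fin 2) (Fin 2) 𝒪)
    (hrt : ∀ (σ : GQ) (i j : Fin 2), IsLocalRing.residue 𝒪 (rt σ i j) = rb σ i j)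
    (ρA : GaloisRepAdic A)
    (h : ρA.residual.IsEquiv
      (ρbar.baseChangeAlong (IsLocalRing.ResidueField.map (algebraMap 𝒪 A)))) :
    ∃ (r : GQ →* Matrix (Fin 2) (Fin 2) A) (hr : MatCont A r),
      IsLift rt A r ∧ ρA.IsEquiv (matRep A r hr) := by
  obtain ⟨e1⟩ := h
  obtain ⟨e2⟩ := hρ
  obtain ⟨e3⟩ := resMatRep_baseChangeAlong (ResidueField 𝒪) (ResidueField A)
    (IsLocalRing.ResidueField.map (algebraMap 𝒪 A)) rb hrb
  have E : ResidualGaloisRep.Equiv ρA.residual (resMatRep (ResidueField A)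
      (mapMat (IsLocalRing.ResidueField.map (algebraMap 𝒪 A)) rb)
      (hrb.map (IsLocalRing.ResidueField.map (algebraMap 𝒪 A)))) :=
    (e1.trans (e2.baseChangeAlong (IsLocalRing.ResidueField.map (algebraMap 𝒪 A)))).trans e3
  let EL : (ResidueField A ⊗[A] ρA.V) ≃ₗ[ResidueField A] (Fin 2 → ResidueField A) :=
    E.toLinearEquiv
  have hEL : ∀ (σ : GQ) (v : ρA.V), EL ((1 : ResidueField A) ⊗ₜ[A] (ρA.ρ σ v)) =
      (mapMat (IsLocalRing.ResidueField.map (algebraMap 𝒪 A)) rb σ).mulVec
        (EL ((1 : ResidueField A) ⊗ₜ[A] v)) := fun σ v => E.map_apply σ (1 ⊗ₜ[A] v)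
  let w : Module.Basis (Fin 2) (ResidueField A) (ResidueField A ⊗[A] ρA.V) :=
    (Pi.basisFun (ResidueField A) (Fin 2)).map EL.symm
  obtain ⟨v, hv⟩ := (TensorProduct.mk_surjective A ρA.V (ResidueField A)
    Ideal.Quotient.mk_surjective).comp_left w
  replace hv : ⇑(TensorProduct.mk A (ResidueField A) ρA.V 1) ∘ v = ⇑w := hv
  let b : Module.Basis (Fin 2) A ρA.V :=
    Module.Basis.mk (Module.IsLocalRing.linearIndependent_of_flat v (hv ▸ w.linearIndependent))
      (IsLocalRing.span_eq_top_of_tmul_eq_basis v w (congr_fun hv)).ge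
  have hELb : ∀ j, EL ((1 : ResidueField A) ⊗ₜ[A] b j) = Pi.single j 1 := by
    intro j
    have h1 : (1 : ResidueField A) ⊗ₜ[A] b j = w j := by
      rw [Module.Basis.mk_apply]
      exact congr_fun hv j
    rw [h1, Module.Basis.map_apply, LinearEquiv.apply_symm_apply, Pi.basisFun_apply]
  refine ⟨T4.matOfBasis ρA b, T4.matOfBasis_matCont ρA b, ?_, ⟨T4.equivMatOfBasis ρA b⟩⟩
  intro σ i j
  rw [← IsLocalRing.residue_eq_zero_iff, map_sub, sub_eq_zero, T4.matOfBasis_apply,
    ← T4.apply_one_tmul_eq b (EL : (ResidueField A ⊗[A] ρA.V) →ₗ[ResidueField A]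
      (Fin 2 → ResidueField A)) hELb, LinearEquiv.coe_coe, hEL, hELb, Matrix.mulVec_single_one,
    Matrix.col_apply, mapMat_apply, ← hrt, IsLocalRing.ResidueField.map_residue]

/-- T4n (= M4): the matrix representation of a lift of `rt` has residual representation
`ρbar`. -/
theorem residual_isEquiv_of_isLift (𝒪 : Type) [CommRing 𝒪] [IsLocalRing 𝒪]
    (A : Type) [CommRing A] [IsLocalRing A] [Algebra 𝒪 A] [IsLocalHom (algebraMap 𝒪 A)]
    (ρbar : ResidualGaloisRep (ResidueField 𝒪))
    (rb : GQ →* Matrix (Fin 2) (Fin 2) (ResidueField 𝒪)) (hrb : ResMatCont (ResidueField 𝒪) rb)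
    (hρ : ρbar.IsEquiv (resMatRep (ResidueField 𝒪) rb hrb))
    (rt : GQ → Matrix (Fin 2) (Fin 2) 𝒪)
    (hrt : ∀ (σ : GQ) (i j : Fin 2), IsLocalRing.residue 𝒪 (rt σ i j) = rb σ i j)
    (r : GQ →* Matrix (Fin 2) (Fin 2) A) (hr : MatCont A r) (hl : IsLift rt A r) :
    (matRep A r hr).residual.IsEquiv
      (ρbar.baseChangeAlong (IsLocalRing.ResidueField.map (algebraMap 𝒪 A))) := by
  obtain ⟨e1⟩ := residual_matRep A r hr
  have hEq : ∀ σ : GQ, mapMat (IsLocalRing.residue A) r σ =
      mapMat (IsLocalRing.ResidueField.map (algebraMap 𝒪 A)) rb σ := by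
    intro σ
    ext i j
    rw [mapMat_apply, mapMat_apply, ← hrt, IsLocalRing.ResidueField.map_residue, ← sub_eq_zero,
      ← map_sub, IsLocalRing.residue_eq_zero_iff]
    exact hl σ i j
  obtain ⟨e2⟩ := (resMatRep_isEquiv_iff (ResidueField A) _ _ hr.residue
    (hrb.map (IsLocalRing.ResidueField.map (algebraMap 𝒪 A)))).mpr
    ⟨1, isUnit_one, fun σ => by rw [one_mul, mul_one, hEq]⟩
  obtain ⟨e3⟩ := resMatRep_baseChangeAlong (ResidueField 𝒪) (ResidueField A)
    (IsLocalRing.ResidueField.map (algebraMap 𝒪 A)) rb hrb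
  obtain ⟨e4⟩ := hρ
  exact ⟨((e1.trans e2).trans e3.symm).trans
    (e4.symm.baseChangeAlong (IsLocalRing.ResidueField.map (algebraMap 𝒪 A)))⟩

end Fermat.Agent.S53Lib

end
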