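/-
S53 integration sub-task IntD (helper5): maps out of a `ProRepData` ring (pure commutative
algebra).  Proves the IntD statements of `Lib/H7/S53IfaceInt.lean` under the same names.
-/
import Mathlib
import Fermat.Agent.Lib.H7.S53ProRepDefs

set_option autoImplicit false

noncomputable section

namespace Fermat.Agent.S53Lib

open IsLocalRing

namespace IntD

/-- Congruence modulo `I ^ n • ⊤` in the ring itself is membership of the difference. -/
theorem smodEq_iff {A : Type} [CommRing A] (I : Ideal A) (n : ℕ) (x y : A) :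
    x ≡ y [SMOD (I ^ n • ⊤ : Submodule A A)] ↔ x - y ∈ I ^ n := by
  rw [SModEq.sub_mem, smul_eq_mul, Ideal.mul_top]

/-- An element lying in all powers of the ideal of a Hausdorff ring is zero. -/
theorem eq_zero_of_forall_mem_pow {A : Type} [CommRing A] (I : Ideal A) [IsHausdorff I A]
    (x : A) (h : ∀ n : ℕ, x ∈ I ^ n) : x = 0 := by
  refine IsHausdorff.haus' (I := I) x fun n => ?_
  rw [smodEq_iff, sub_zero]
  exact h n

/-- A local homomorphism maps powers of the maximal ideal into powers of the maximal ideal. -/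
theorem map_mem_pow_of_isLocalHom {R A : Type} [CommRing R] [IsLocalRing R] [CommRing A]
    [IsLocalRing A] (φ : R →+* A) (hφ : IsLocalHom φ) {n : ℕ} {x : R}
    (hx : x ∈ maximalIdeal R ^ n) : φ x ∈ maximalIdeal A ^ n := by
  have h1 : (maximalIdeal R).map φ ≤ maximalIdeal A :=
    ((IsLocalRing.local_hom_TFAE φ).out 0 2).mp hφ
  have h2 : (maximalIdeal R ^ n).map φ ≤ maximalIdeal A ^ n := by
    rw [Ideal.map_pow]
    exact Ideal.pow_right_mono h1 n
  exact h2 (Ideal.mem_map_of_mem φ hx)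

end IntD

section IntD

variable {𝒪 : Type} [CommRing 𝒪] [IsLocalRing 𝒪] {U : Type} [CommRing U] [Algebra 𝒪 U]
variable {𝓘 : Set (Ideal U)}

/-- IntD1: an algebra map `α : U → A` to a complete local ring all of whose "levels"
`α⁻¹(𝔪_A^(n+1))` lie in the family extends (uniquely, see `lift_unique`) to a local algebra
map `R → A`. -/
theorem ProRepData.exists_lift (P : ProRepData 𝒪 U 𝓘) (A : Type) [CommRing A] [IsLocalRing A]
    [Algebra 𝒪 A] [IsAdicComplete (maximalIdeal A) A] (α : U →ₐ[𝒪] A)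
    (hα : ∀ n : ℕ, (maximalIdeal A ^ (n + 1)).comap α.toRingHom ∈ 𝓘) :
    ∃ φ : P.R →ₐ[𝒪] A, IsLocalHom (φ : P.R →+* A) ∧ φ.comp P.Θ = α := by
  -- the levels
  have hN : ∀ n : ℕ, ∃ N : ℕ, 1 ≤ N ∧
      ∀ w : U, P.Θ w ∈ maximalIdeal P.R ^ N → α w ∈ maximalIdeal A ^ (n + 1) := by
    intro n
    obtain ⟨N, hN⟩ := P.cofinal _ (hα n)
    refine ⟨N + 1, Nat.le_add_left 1 N, fun w hw => ?_⟩
    have h1 : w ∈ (maximalIdeal P.R ^ N).comap P.Θ.toRingHom :=
      Ideal.mem_comap.mpr (Ideal.pow_le_pow_right (Nat.le_succ N) hw)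
    exact Ideal.mem_comap.mp (hN h1)
  choose N hN1 hN using hN
  choose u hu using fun (r : P.R) (n : ℕ) => P.dense (N n) r
  -- the approximating sequences are Cauchy
  have hcauchy : ∀ (r : P.R) {m n : ℕ}, m ≤ n →
      α (u r m) ≡ α (u r n) [SMOD (maximalIdeal A ^ m • ⊤ : Submodule A A)] := by
    intro r m n hmn
    rw [IntD.smodEq_iff, ← map_sub]
    have hΘ : P.Θ (u r m - u r n) = (r - P.Θ (u r n)) - (r - P.Θ (u r m)) := by
      rw [map_sub]; ring
    rcases le_total (N m) (N n) with hle | hle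
    · have h1 : P.Θ (u r m - u r n) ∈ maximalIdeal P.R ^ N m := by
        rw [hΘ]
        exact Ideal.sub_mem _ (Ideal.pow_le_pow_right hle (hu r n)) (hu r m)
      exact Ideal.pow_le_pow_right (Nat.le_succ m) (hN m _ h1)
    · have h1 : P.Θ (u r m - u r n) ∈ maximalIdeal P.R ^ N n := by
        rw [hΘ]
        exact Ideal.sub_mem _ (hu r n) (Ideal.pow_le_pow_right hle (hu r m))
      exact Ideal.pow_le_pow_right (hmn.trans (Nat.le_succ n)) (hN n _ h1)
  choose φ hφ using fun r : P.R =>
    IsPrecomplete.prec' (I := maximalIdeal A) (fun n => α (u r n)) (hcauchy r)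
  -- characterisation of `φ`
  have key : ∀ (r : P.R) (n : ℕ) (w : U), r - P.Θ w ∈ maximalIdeal P.R ^ N n →
      φ r - α w ∈ maximalIdeal A ^ n := by
    intro r n w hw
    have h1 : α (u r n) - φ r ∈ maximalIdeal A ^ n := (IntD.smodEq_iff _ _ _ _).mp (hφ r n)
    have h2 : P.Θ (u r n - w) ∈ maximalIdeal P.R ^ N n := by
      have : P.Θ (u r n - w) = (r - P.Θ w) - (r - P.Θ (u r n)) := by rw [map_sub]; ring
      rw [this]
      exact Ideal.sub_mem _ hw (hu r n)
    have h3 : α (u r n - w) ∈ maximalIdeal A ^ n :=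
      Ideal.pow_le_pow_right (Nat.le_succ n) (hN n _ h2)
    have : φ r - α w = α (u r n - w) - (α (u r n) - φ r) := by rw [map_sub]; ring
    rw [this]
    exact Ideal.sub_mem _ h3 h1
  have hzero : ∀ x : A, (∀ n : ℕ, x ∈ maximalIdeal A ^ n) → x = 0 :=
    fun x hx => IntD.eq_zero_of_forall_mem_pow (maximalIdeal A) x hx
  have hΘ : ∀ w : U, φ (P.Θ w) = α w := by
    intro w
    rw [← sub_eq_zero]
    refine hzero _ fun n => key _ n w ?_
    rw [sub_self]
    exact Ideal.zero_mem _
  have hone : φ 1 = 1 := by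
    have := hΘ 1
    rwa [map_one, map_one] at this
  have hadd : ∀ r s : P.R, φ (r + s) = φ r + φ s := by
    intro r s
    rw [← sub_eq_zero]
    refine hzero _ fun n => ?_
    have h1 : (r + s) - P.Θ (u r n + u s n) ∈ maximalIdeal P.R ^ N n := by
      have : (r + s) - P.Θ (u r n + u s n) = (r - P.Θ (u r n)) + (s - P.Θ (u s n)) := by
        rw [map_add]; ring
      rw [this]
      exact Ideal.add_mem _ (hu r n) (hu s n)
    have h2 := key (r + s) n _ h1
    have h3 := key r n _ (hu r n)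
    have h4 := key s n _ (hu s n)
    have : φ (r + s) - (φ r + φ s) =
        (φ (r + s) - α (u r n + u s n)) - (φ r - α (u r n)) - (φ s - α (u s n)) := by
      rw [map_add]; ring
    rw [this]
    exact Ideal.sub_mem _ (Ideal.sub_mem _ h2 h3) h4
  have hmul : ∀ r s : P.R, φ (r * s) = φ r * φ s := by
    intro r s
    rw [← sub_eq_zero]
    refine hzero _ fun n => ?_
    have h1 : (r * s) - P.Θ (u r n * u s n) ∈ maximalIdeal P.R ^ N n := by
      have : (r * s) - P.Θ (u r n * u s n) =
          r * (s - P.Θ (u s n)) + (r - P.Θ (u r n)) * P.Θ (u s n) := by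
        rw [map_mul]; ring
      rw [this]
      exact Ideal.add_mem _ (Ideal.mul_mem_left _ _ (hu s n)) (Ideal.mul_mem_right _ _ (hu r n))
    have h2 := key (r * s) n _ h1
    have h3 := key r n _ (hu r n)
    have h4 := key s n _ (hu s n)
    have : φ (r * s) - φ r * φ s =
        (φ (r * s) - α (u r n * u s n)) - φ r * (φ s - α (u s n)) -
          (φ r - α (u r n)) * α (u s n) := by
      rw [map_mul]; ring
    rw [this]
    exact Ideal.sub_mem _ (Ideal.sub_mem _ h2 (Ideal.mul_mem_left _ _ h4))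
      (Ideal.mul_mem_right _ _ h3)
  have hzero' : φ 0 = 0 := by
    have := hΘ 0
    rwa [map_zero, map_zero] at this
  have hcomm : ∀ c : 𝒪, φ (algebraMap 𝒪 P.R c) = algebraMap 𝒪 A c := by
    intro c
    have := hΘ (algebraMap 𝒪 U c)
    rwa [P.Θ.commutes, α.commutes] at this
  let Φ : P.R →ₐ[𝒪] A :=
    { toFun := φ
      map_one' := hone
      map_mul' := hmul
      map_zero' := hzero'
      map_add' := hadd
      commutes' := hcomm }
  have hΦ : ∀ r : P.R, Φ r = φ r := fun r => rfl
  refine ⟨Φ, ?_, ?_⟩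
  · refine ((IsLocalRing.local_hom_TFAE (Φ : P.R →+* A)).out 3 0).mp ?_
    intro r hr
    rw [Ideal.mem_comap]
    show φ r ∈ maximalIdeal A
    -- approximate at level `1`
    have h1 : φ r - α (u r 1) ∈ maximalIdeal A := by
      have := key r 1 _ (hu r 1)
      rwa [pow_one] at this
    have h2 : P.Θ (u r 1) ∈ maximalIdeal P.R := by
      have h3 : r - P.Θ (u r 1) ∈ maximalIdeal P.R := by
        have := Ideal.pow_le_pow_right (hN1 1) (hu r 1)
        rwa [pow_one] at this
      have : P.Θ (u r 1) = r - (r - P.Θ (u r 1)) := by ring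
      rw [this]
      exact Ideal.sub_mem _ hr h3
    have h4 : α (u r 1) ^ N 1 ∈ maximalIdeal A := by
      have h5 : P.Θ (u r 1 ^ N 1) ∈ maximalIdeal P.R ^ N 1 := by
        rw [map_pow]
        exact Ideal.pow_mem_pow h2 _
      have h6 := hN 1 _ h5
      rw [map_pow] at h6
      exact Ideal.pow_le_self (by norm_num) h6
    have h7 : α (u r 1) ∈ maximalIdeal A :=
      (IsLocalRing.maximalIdeal.isMaximal A).isPrime.mem_of_pow_mem _ h4
    have : φ r = (φ r - α (u r 1)) + α (u r 1) := by ring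
    rw [this]
    exact Ideal.add_mem _ h1 h7
  · ext w
    exact hΘ w

/-- IntD2: local algebra maps out of `R` to a Hausdorff local ring are determined by their
restriction to `U` (density of `Θ`). -/
theorem ProRepData.lift_unique (P : ProRepData 𝒪 U 𝓘) (A : Type) [CommRing A] [IsLocalRing A]
    [Algebra 𝒪 A] [IsHausdorff (maximalIdeal A) A] (φ φ' : P.R →ₐ[𝒪] A)
    (hφ : IsLocalHom (φ : P.R →+* A)) (hφ' : IsLocalHom (φ' : P.R →+* A))
    (h : φ.comp P.Θ = φ'.comp P.Θ) : φ = φ' := by
  ext r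
  rw [← sub_eq_zero]
  refine IntD.eq_zero_of_forall_mem_pow (maximalIdeal A) _ fun n => ?_
  obtain ⟨w, hw⟩ := P.dense n r
  have h1 : φ (P.Θ w) = φ' (P.Θ w) := congrArg (fun F : U →ₐ[𝒪] A => F w) h
  have h2 : φ r - φ' r = φ (r - P.Θ w) - φ' (r - P.Θ w) := by
    rw [map_sub, map_sub, h1]; ring
  rw [h2]
  exact Ideal.sub_mem _ (IntD.map_mem_pow_of_isLocalHom (φ : P.R →+* A) hφ hw)
    (IntD.map_mem_pow_of_isLocalHom (φ' : P.R →+* A) hφ' hw)

end IntD

end Fermat.Agent.S53Lib

end
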