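/-
S53 integration sub-task IntE (helper5): the representation over a `ProRepData` ring for the
family `FamI`.  Proves the IntE statements of `Lib/H7/S53IfaceInt.lean` under the same names.
-/
import Mathlib
import Fermat.Agent.Lib.H7.S53Family
import Fermat.Agent.Lib.H7.S53ProRepDefs
import Fermat.Agent.Lib.S53.S53T4

set_option autoImplicit false

noncomputable section

namespace Fermat.Agent.S53Lib

open IsLocalRing

namespace IntE

/-- Entries of `mapMat φ r σ - 1` are the images of the entries of `r σ - 1`. -/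
theorem mapMat_sub_one_apply {A B : Type} [CommRing A] [CommRing B] (φ : A →+* B)
    (r : GQ →* Matrix (Fin 2) (Fin 2) A) (σ : GQ) (i j : Fin 2) :
    (mapMat φ r σ - 1) i j = φ (r σ i j - (1 : Matrix (Fin 2) (Fin 2) A) i j) := by
  rw [Matrix.sub_apply, mapMat_apply, map_sub, Matrix.one_apply, Matrix.one_apply]
  split_ifs <;> simp

/-- The maximal ideal of an Artinian local ring is nilpotent. -/
theorem exists_maximalIdeal_pow_eq_bot (B : Type) [CommRing B] [IsLocalRing B]
    [IsArtinianRing B] : ∃ n : ℕ, maximalIdeal B ^ n = ⊥ := by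
  have h := IsArtinianRing.isNilpotent_jacobson_bot (R := B)
  rw [IsLocalRing.jacobson_eq_maximalIdeal (⊥ : Ideal B) bot_ne_top] at h
  obtain ⟨n, hn⟩ := h
  exact ⟨n, hn⟩

end IntE

section IntE

variable {𝒪 : Type} [CommRing 𝒪] [IsLocalRing 𝒪]
variable {ρbar : ResidualGaloisRep (ResidueField 𝒪)} {D : RigidData 𝒪 ρbar}
variable {𝒟 : ∀ ⦃A : Type⦄ [CommRing A] [IsLocalRing A] [Algebra 𝒪 A], GaloisRepAdic A → Prop}

/-- IntE1: `Θ` pulls the maximal ideal of `R` back to `mChi`. -/
theorem comap_theta_maximalIdeal (P : ProRepData 𝒪 (Univ D.sl) (FamI D 𝒟)) :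
    (maximalIdeal P.R).comap P.Θ.toRingHom = mChi D := by
  have h1 : (maximalIdeal P.R).comap P.Θ.toRingHom ≤ mChi D := by
    have := P.comap_mem 0
    rw [zero_add, pow_one] at this
    exact famI_le this
  have hker : (maximalIdeal P.R).comap P.Θ.toRingHom =
      RingHom.ker ((IsLocalRing.residue P.R).comp P.Θ.toRingHom) := by
    ext u
    rw [Ideal.mem_comap, RingHom.mem_ker, RingHom.comp_apply, IsLocalRing.residue_eq_zero_iff]
  have hsurj : Function.Surjective ((IsLocalRing.residue P.R).comp P.Θ.toRingHom) := by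
    intro x
    obtain ⟨c, hc⟩ := P.residue_surjective x
    refine ⟨algebraMap 𝒪 (Univ D.sl) c, ?_⟩
    have h2 : P.Θ.toRingHom (algebraMap 𝒪 (Univ D.sl) c) = algebraMap 𝒪 P.R c := P.Θ.commutes c
    rw [RingHom.comp_apply, h2]
    exact hc
  have hmax : ((maximalIdeal P.R).comap P.Θ.toRingHom).IsMaximal := by
    rw [hker]
    exact RingHom.ker_isMaximal_of_surjective _ hsurj
  exact hmax.eq_of_le (mChi_isMaximal D).ne_top h1

/-- IntE2: the image of the tautological representation in `R` is continuous. -/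
theorem matCont_theta (P : ProRepData 𝒪 (Univ D.sl) (FamI D 𝒟)) :
    MatCont P.R (mapMat (P.Θ : Univ D.sl →+* P.R) (tautU D.sl)) := by
  intro n
  have hK := P.comap_mem n
  obtain ⟨L, hL, h⟩ := hK.2.2.2.1
  refine ⟨L, hL, fun σ hσ i j => ?_⟩
  have h1 := (tautJ_eq_one_iff σ).mp (h σ hσ) i j
  rw [IntE.mapMat_sub_one_apply]
  exact Ideal.pow_le_pow_right (Nat.le_succ n) (Ideal.mem_comap.mp h1)

/-- IntE3: the image of the tautological representation in `R` lifts `rt`. -/
theorem isLift_theta (P : ProRepData 𝒪 (Univ D.sl) (FamI D 𝒟)) :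
    IsLift D.rt P.R (mapMat (P.Θ : Univ D.sl →+* P.R) (tautU D.sl)) := by
  intro σ i j
  have h1 := tautU_sub_mem_mChi D σ i j
  rw [← comap_theta_maximalIdeal P, Ideal.mem_comap] at h1
  have h2 : P.Θ.toRingHom (tautU D.sl σ i j - algebraMap 𝒪 (Univ D.sl) (D.rt σ i j)) =
      mapMat (P.Θ : Univ D.sl →+* P.R) (tautU D.sl) σ i j - algebraMap 𝒪 P.R (D.rt σ i j) := by
    rw [map_sub, mapMat_apply]
    congr 1
    exact P.Θ.commutes _
  rw [h2] at h1
  exact h1

/-- IntE4: the representation over `R` satisfies the deformation condition. -/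
theorem isOfType_theta (h𝒟 : GaloisRep.IsDeformationCondition 𝒪 𝒟)
    (P : ProRepData 𝒪 (Univ D.sl) (FamI D 𝒟))
    (hc : MatCont P.R (mapMat (P.Θ : Univ D.sl →+* P.R) (tautU D.sl))) :
    𝒟 (matRep P.R (mapMat (P.Θ : Univ D.sl →+* P.R) (tautU D.sl)) hc) := by
  refine (h𝒟.iff_forall_surjective inferInstance P.residue_surjective _).mpr ?_
  intro B _ _ _ hB q hq hqs
  have : IsArtinianRing B := hB.isArtinian
  obtain ⟨n, hn⟩ := IntE.exists_maximalIdeal_pow_eq_bot B
  -- the kernel of `q ∘ Θ`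
  set f : Univ D.sl →ₐ[𝒪] B := q.comp P.Θ with hf
  set K : Ideal (Univ D.sl) := RingHom.ker f.toRingHom with hKdef
  have hmem : ∀ u : Univ D.sl, u ∈ mChi D → f u ∈ maximalIdeal B := by
    intro u hu
    rw [← comap_theta_maximalIdeal P, Ideal.mem_comap] at hu
    have h3 : maximalIdeal P.R ≤ (maximalIdeal B).comap (q : P.R →+* B) :=
      ((IsLocalRing.local_hom_TFAE (q : P.R →+* B)).out 0 3).mp hq
    exact h3 hu
  have hKle : K ≤ mChi D := by
    intro u hu
    rw [← comap_theta_maximalIdeal P, Ideal.mem_comap]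
    by_contra hnot
    have hunit : IsUnit (P.Θ.toRingHom u) := by
      by_contra h'
      exact hnot h'
    have h0 : (q : P.R →+* B) (P.Θ.toRingHom u) = 0 := hu
    have := hunit.map (q : P.R →+* B)
    rw [h0] at this
    exact not_isUnit_zero this
  have hpow : (maximalIdeal P.R ^ (n + 1)).comap P.Θ.toRingHom ≤ K := by
    intro u hu
    rw [Ideal.mem_comap] at hu
    have h1 : (q : P.R →+* B) (P.Θ.toRingHom u) ∈ (maximalIdeal P.R ^ (n + 1)).map (q : P.R →+* B) :=
      Ideal.mem_map_of_mem _ hu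
    have h2 : (maximalIdeal P.R ^ (n + 1)).map (q : P.R →+* B) ≤ maximalIdeal B ^ (n + 1) := by
      rw [Ideal.map_pow]
      have h5 : (maximalIdeal P.R).map (q : P.R →+* B) ≤ maximalIdeal B :=
        ((IsLocalRing.local_hom_TFAE (q : P.R →+* B)).out 0 2).mp hq
      exact Ideal.pow_right_mono h5 (n + 1)
    have h3 : maximalIdeal B ^ (n + 1) = ⊥ := by
      rw [pow_succ, hn, Ideal.bot_mul]
    have h4 := h2 h1
    rw [h3, Ideal.mem_bot] at h4
    exact h4
  have hKmem : K ∈ FamI D 𝒟 := famI_up h𝒟 (P.comap_mem n) hpow hKle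
  have := famI_isLocalRing hKmem
  have := famI_finite hKmem
  -- the induced injective map `U ⧸ K → B`
  let ι : (Univ D.sl ⧸ K) →ₐ[𝒪] B := Ideal.Quotient.liftₐ K f (fun a ha => ha)
  have hι_mk : ∀ u : Univ D.sl, ι (Ideal.Quotient.mk K u) = f u := fun u => rfl
  have hι : IsLocalHom (ι : (Univ D.sl ⧸ K) →+* B) := by
    refine ⟨fun a ha => ?_⟩
    by_contra hna
    have hmem' : a ∈ maximalIdeal (Univ D.sl ⧸ K) := hna
    obtain ⟨u, rfl⟩ := Ideal.Quotient.mk_surjective a
    rw [mk_mem_maximalIdeal_quot_iff (mChi D) hKle] at hmem'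
    exact hmem u hmem' ha
  have hr' : MatCont B (mapMat (q : P.R →+* B) (mapMat (P.Θ : Univ D.sl →+* P.R) (tautU D.sl))) :=
    hc.map (q : P.R →+* B) hq
  have hmap : mapMat (ι : (Univ D.sl ⧸ K) →+* B) (tautJ D K) =
      mapMat (q : P.R →+* B) (mapMat (P.Θ : Univ D.sl →+* P.R) (tautU D.sl)) := by
    ext σ i j
    rfl
  have h1 : 𝒟 (matRep B (mapMat (q : P.R →+* B)
      (mapMat (P.Θ : Univ D.sl →+* P.R) (tautU D.sl))) hr') :=
    D_map 𝒟 h𝒟 (isArtinianTestAlgebra_quot D hKle) hB ι hι (famI_matCont hKmem) hr' hmap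
      (famI_D hKmem (famI_matCont hKmem))
  exact D_baseChange_of 𝒟 h𝒟 hB (q : P.R →+* B) hq hc hr' rfl h1

end IntE

end Fermat.Agent.S53Lib

end
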