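/-
S53 integration sub-task IntF (helper3): the levels of the classifying map of a slice lift
satisfying the deformation condition lie in the family `FamI`.
-/
import Mathlib
import Fermat.Agent.Lib.H7.S53Family
import Fermat.Agent.Lib.S53.S53T4

set_option autoImplicit false

noncomputable section

namespace Fermat.Agent.S53Lib

open IsLocalRing

namespace IntF

variable {𝒪 : Type} [CommRing 𝒪] [IsLocalRing 𝒪]
variable {ρbar : ResidualGaloisRep (ResidueField 𝒪)} {D : RigidData 𝒪 ρbar}

/-- The classifying map of a lift reduces to the residual character. -/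
theorem residue_classify (A : Type) [CommRing A] [IsLocalRing A] [Algebra 𝒪 A]
    [IsLocalHom (algebraMap 𝒪 A)] (r : GQ →* Matrix (Fin 2) (Fin 2) A) (hl : IsLift D.rt A r)
    (hs : InSlice D.sl A r) (u : Univ D.sl) :
    residue A (classify D.sl A r hs u) = ResidueField.map (algebraMap 𝒪 A) (chi D u) := by
  have key : (residue A).comp (classify D.sl A r hs : Univ D.sl →+* A)
      = (ResidueField.map (algebraMap 𝒪 A)).comp (chi D : Univ D.sl →+* ResidueField 𝒪) := by
    apply univ_ringHom_ext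
    · intro c
      simp only [RingHom.comp_apply, RingHom.coe_coe, AlgHom.commutes]
      rw [IsLocalRing.ResidueField.algebraMap_eq, IsLocalRing.ResidueField.map_residue]
    · intro σ i j
      simp only [RingHom.comp_apply, RingHom.coe_coe]
      rw [classify_tautU, chi_tautU, ← D.res_rt, IsLocalRing.ResidueField.map_residue]
      have := hl σ i j
      rwa [← residue_eq_zero_iff, map_sub, sub_eq_zero] at this
  exact congrArg (fun f : Univ D.sl →+* ResidueField A => f u) key

/-- The classifying map of a lift pulls the maximal ideal back to `mChi`. -/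
theorem classify_mem_maximalIdeal_iff (A : Type) [CommRing A] [IsLocalRing A] [Algebra 𝒪 A]
    [IsLocalHom (algebraMap 𝒪 A)] (r : GQ →* Matrix (Fin 2) (Fin 2) A) (hl : IsLift D.rt A r)
    (hs : InSlice D.sl A r) (u : Univ D.sl) :
    classify D.sl A r hs u ∈ maximalIdeal A ↔ u ∈ mChi D := by
  rw [← residue_eq_zero_iff, residue_classify A r hl hs u, map_eq_zero, mem_mChi]

/-- Quotients of a Noetherian local ring with finite residue field by powers of the maximal ideal
are finite. -/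
theorem finite_quot_pow (A : Type) [CommRing A] [IsLocalRing A] [IsNoetherianRing A]
    [Finite (ResidueField A)] (m : ℕ) : Finite (A ⧸ maximalIdeal A ^ m) := by
  have : Finite (A ⧸ maximalIdeal A) := ‹Finite (ResidueField A)›
  exact Ideal.finite_quotient_pow (IsNoetherian.noetherian _) m

end IntF

section IntF

variable {𝒪 : Type} [CommRing 𝒪] [IsLocalRing 𝒪]
variable {ρbar : ResidualGaloisRep (ResidueField 𝒪)} {D : RigidData 𝒪 ρbar}
variable {𝒟 : ∀ ⦃A : Type⦄ [CommRing A] [IsLocalRing A] [Algebra 𝒪 A], GaloisRepAdic A → Prop}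

/-- IntF: the levels of the classifying map of a slice lift satisfying `𝒟` lie in the
family. -/
theorem comap_classify_mem_famI [Finite (ResidueField 𝒪)]
    (h𝒟 : GaloisRep.IsDeformationCondition 𝒪 𝒟)
    (A : Type) [CommRing A] [IsLocalRing A] [IsNoetherianRing A]
    [IsAdicComplete (maximalIdeal A) A] [Algebra 𝒪 A] [IsLocalHom (algebraMap 𝒪 A)]
    (hsurj : Function.Surjective (IsLocalRing.residue A ∘ algebraMap 𝒪 A))
    (r : GQ →* Matrix (Fin 2) (Fin 2) A) (hr : MatCont A r) (hl : IsLift D.rt A r)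
    (hs : InSlice D.sl A r) (h : 𝒟 (matRep A r hr)) (n : ℕ) :
    (maximalIdeal A ^ (n + 1)).comap (classify D.sl A r hs).toRingHom ∈ FamI D 𝒟 := by
  classical
  have hmem := IntF.classify_mem_maximalIdeal_iff A r hl hs
  have hpowle : maximalIdeal A ^ (n + 1) ≤ maximalIdeal A := Ideal.pow_le_self n.succ_ne_zero
  -- (1) `K ≤ mChi`
  have hK_le : (maximalIdeal A ^ (n + 1)).comap (classify D.sl A r hs).toRingHom ≤ mChi D :=
    fun u hu => (hmem u).mp (hpowle hu)
  -- (3) `mChi ^ (n + 1) ≤ K`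
  have hpow : mChi D ^ (n + 1)
      ≤ (maximalIdeal A ^ (n + 1)).comap (classify D.sl A r hs).toRingHom := by
    have h1 : mChi D ≤ (maximalIdeal A).comap (classify D.sl A r hs).toRingHom :=
      fun u hu => (hmem u).mpr hu
    exact (Ideal.pow_right_mono h1 _).trans (Ideal.le_comap_pow _ _)
  -- finiteness of `A ⧸ 𝔪 ^ (n + 1)`
  have hfinres : Finite (ResidueField A) := by
    refine Finite.of_surjective (ResidueField.map (algebraMap 𝒪 A)) ?_
    intro x
    obtain ⟨o, ho⟩ := hsurj x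
    exact ⟨residue 𝒪 o, by rw [IsLocalRing.ResidueField.map_residue]; exact ho⟩
  have hfinB : Finite (A ⧸ maximalIdeal A ^ (n + 1)) := IntF.finite_quot_pow A (n + 1)
  -- the injection `ι : U ⧸ K → A ⧸ 𝔪 ^ (n + 1)`
  let ι : (Univ D.sl ⧸ (maximalIdeal A ^ (n + 1)).comap (classify D.sl A r hs).toRingHom)
      →ₐ[𝒪] (A ⧸ maximalIdeal A ^ (n + 1)) :=
    Ideal.quotientMapₐ (maximalIdeal A ^ (n + 1)) (classify D.sl A r hs) le_rfl
  have hι_mk : ∀ u : Univ D.sl, ι (Ideal.Quotient.mk _ u)
      = Ideal.Quotient.mk (maximalIdeal A ^ (n + 1)) (classify D.sl A r hs u) := fun u => rfl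
  have hι_inj : Function.Injective ι := by
    rw [injective_iff_map_eq_zero]
    intro x hx
    obtain ⟨u, rfl⟩ := Ideal.Quotient.mk_surjective x
    rw [hι_mk, Ideal.Quotient.eq_zero_iff_mem] at hx
    exact Ideal.Quotient.eq_zero_iff_mem.mpr hx
  -- (2) finiteness of `U ⧸ K`
  have hfinK : Finite (Univ D.sl ⧸
      (maximalIdeal A ^ (n + 1)).comap (classify D.sl A r hs).toRingHom) :=
    Finite.of_injective ι hι_inj
  -- (4) finite-level triviality
  have htriv : TautTrivial D ((maximalIdeal A ^ (n + 1)).comap (classify D.sl A r hs).toRingHom) := by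
    obtain ⟨L, hL, hL'⟩ := hr (n + 1)
    refine ⟨L, hL, fun σ hσ => (tautJ_eq_one_iff σ).mpr fun i j => ?_⟩
    show classify D.sl A r hs (tautU D.sl σ i j - (1 : Matrix (Fin 2) (Fin 2) (Univ D.sl)) i j)
      ∈ maximalIdeal A ^ (n + 1)
    have h1 := hL' σ hσ i j
    rw [map_sub, classify_tautU]
    convert h1 using 1
    rw [Matrix.sub_apply]
    congr 1
    by_cases hij : i = j
    · subst hij; simp
    · simp [Matrix.one_apply_ne hij]
  refine ⟨hK_le, hfinK, ⟨n + 1, hpow⟩, htriv, ?_⟩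
  intro hloc hcK
  -- the target `A ⧸ 𝔪 ^ (n + 1)` is an Artinian test algebra
  have hBloc : IsLocalRing (A ⧸ maximalIdeal A ^ (n + 1)) :=
    isLocalRing_quot (maximalIdeal A) hpowle (le_refl _)
  have hq_surj : Function.Surjective (Ideal.Quotient.mkₐ 𝒪 (maximalIdeal A ^ (n + 1))) :=
    Ideal.Quotient.mkₐ_surjective 𝒪 _
  have hq_loc : IsLocalHom ((Ideal.Quotient.mkₐ 𝒪 (maximalIdeal A ^ (n + 1)) :
      A →ₐ[𝒪] A ⧸ maximalIdeal A ^ (n + 1)) : A →+* A ⧸ maximalIdeal A ^ (n + 1)) :=
    isLocalHom_of_surjective _ hq_surj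
  have hB : GaloisRep.IsArtinianTestAlgebra 𝒪 (A ⧸ maximalIdeal A ^ (n + 1)) :=
    { isLocalHom := by
        refine ((IsLocalRing.local_hom_TFAE (algebraMap 𝒪 (A ⧸ maximalIdeal A ^ (n + 1)))).out
          0 3).mpr ?_
        intro c hc
        rw [Ideal.mem_comap]
        have h1 : algebraMap 𝒪 A c ∈ maximalIdeal A := map_nonunit (algebraMap 𝒪 A) c hc
        exact (mk_mem_maximalIdeal_quot_iff (maximalIdeal A) hpowle _).mpr h1
      residue_surjective := by
        intro x
        obtain ⟨b, rfl⟩ := IsLocalRing.residue_surjective x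
        obtain ⟨a, rfl⟩ := Ideal.Quotient.mk_surjective b
        obtain ⟨o, ho⟩ := hsurj (residue A a)
        refine ⟨o, ?_⟩
        rw [Function.comp_apply] at ho ⊢
        rw [← sub_eq_zero, ← map_sub, residue_eq_zero_iff] at ho ⊢
        exact (mk_mem_maximalIdeal_quot_iff (maximalIdeal A) hpowle _).mpr ho
      isArtinian := inferInstance }
  have hqr : MatCont (A ⧸ maximalIdeal A ^ (n + 1))
      (mapMat ((Ideal.Quotient.mkₐ 𝒪 (maximalIdeal A ^ (n + 1)) :
        A →ₐ[𝒪] A ⧸ maximalIdeal A ^ (n + 1)) : A →+* A ⧸ maximalIdeal A ^ (n + 1)) r) :=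
    hr.map _ hq_loc
  have h1 : 𝒟 ((matRep A r hr).baseChangeAlong
      ((Ideal.Quotient.mkₐ 𝒪 (maximalIdeal A ^ (n + 1)) :
        A →ₐ[𝒪] A ⧸ maximalIdeal A ^ (n + 1)) : A →+* A ⧸ maximalIdeal A ^ (n + 1)) hq_loc) :=
    (h𝒟.iff_forall_surjective inferInstance hsurj (matRep A r hr)).mp h hB
      (Ideal.Quotient.mkₐ 𝒪 (maximalIdeal A ^ (n + 1))) hq_loc hq_surj
  have h2 : 𝒟 (matRep (A ⧸ maximalIdeal A ^ (n + 1)) _ hqr) :=
    h𝒟.of_isEquiv hB (matRep_baseChangeAlong A _ _ hq_loc r hr) h1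
  -- `ι` is local
  have hι_loc : IsLocalHom (ι : (Univ D.sl ⧸
      (maximalIdeal A ^ (n + 1)).comap (classify D.sl A r hs).toRingHom)
        →+* (A ⧸ maximalIdeal A ^ (n + 1))) := by
    refine ⟨fun x hx => ?_⟩
    by_contra hnu
    have hx_mem : x ∈ maximalIdeal (Univ D.sl ⧸
        (maximalIdeal A ^ (n + 1)).comap (classify D.sl A r hs).toRingHom) := hnu
    obtain ⟨u, rfl⟩ := Ideal.Quotient.mk_surjective x
    rw [mk_mem_maximalIdeal_quot_iff (mChi D) hK_le] at hx_mem
    have h3 : Ideal.Quotient.mk (maximalIdeal A ^ (n + 1)) (classify D.sl A r hs u)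
        ∈ maximalIdeal (A ⧸ maximalIdeal A ^ (n + 1)) :=
      (mk_mem_maximalIdeal_quot_iff (maximalIdeal A) hpowle _).mpr ((hmem u).mpr hx_mem)
    exact h3 hx
  refine D_of_map_injective 𝒟 h𝒟 (isArtinianTestAlgebra_quot D hK_le) hB ι hι_loc hι_inj hcK hqr
    ?_ h2
  ext σ i j
  rw [mapMat_apply, tautJ_apply, mapMat_apply]
  show ι (Ideal.Quotient.mk _ (tautU D.sl σ i j))
    = Ideal.Quotient.mk (maximalIdeal A ^ (n + 1)) (r σ i j)
  rw [hι_mk, classify_tautU]

end IntF

end Fermat.Agent.S53Lib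

end
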