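import Mathlib

/-!
# Completeness of `MvPowerSeries σ O` with respect to its maximal ideal

For a local ring `O` which is complete for its maximal ideal and a finite index type `σ`,
the ring `MvPowerSeries σ O` is complete for its maximal ideal.
-/

set_option autoImplicit false

namespace Fermat.Agent.S53Lib.T1

open IsLocalRing MvPowerSeries

section General

variable {R : Type*} [CommRing R] {σ : Type*}

/-- The monomial `X^α` lies in the `|α|`-th power of the ideal generated by the variables. -/
theorem monomial_one_mem_span_X_pow (α : σ →₀ ℕ) :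
    (monomial α (1 : R) : MvPowerSeries σ R) ∈
      (Ideal.span (Set.range (X : σ → MvPowerSeries σ R))) ^ (Finsupp.degree α) := by
  classical
  induction α using Finsupp.induction with
  | zero =>
    simp
  | single_add a b f _ _ ih =>
    have h1 : (monomial (Finsupp.single a b + f) (1 : R) : MvPowerSeries σ R) =
        X a ^ b * monomial f 1 := by
      rw [X_pow_eq, monomial_mul_monomial, one_mul]
    rw [h1, map_add, Finsupp.degree_single, pow_add]
    exact Ideal.mul_mem_mul (Ideal.pow_mem_pow (Ideal.subset_span (Set.mem_range_self a)) b) ih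

/-- A power series all of whose coefficients in total degree `< n` vanish lies in the `n`-th
power of the ideal generated by the variables. -/
theorem mem_span_X_pow_of_coeff_eq_zero [Finite σ] (n : ℕ) (f : MvPowerSeries σ R)
    (hf : ∀ α : σ →₀ ℕ, Finsupp.degree α < n → coeff α f = 0) :
    f ∈ (Ideal.span (Set.range (X : σ → MvPowerSeries σ R))) ^ n := by
  classical
  have := Fintype.ofFinite σ
  induction n generalizing f with
  | zero => simp
  | succ n ih =>
    -- the predicate "`i` is the chosen element of the support of `α`"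
    let P : (σ →₀ ℕ) → σ → Prop := fun α i => ∃ h : α.support.Nonempty, h.choose = i
    let g : σ → MvPowerSeries σ R := fun i β =>
      if P (β + Finsupp.single i 1) i then coeff (β + Finsupp.single i 1) f else 0
    have hg : ∀ i, g i ∈ (Ideal.span (Set.range (X : σ → MvPowerSeries σ R))) ^ n := by
      intro i
      refine ih (g i) fun β hβ => ?_
      show (if P (β + Finsupp.single i 1) i then coeff (β + Finsupp.single i 1) f else 0) = 0
      rw [hf (β + Finsupp.single i 1) (by rw [map_add, Finsupp.degree_single]; omega)]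
      simp
    have hsum : f = ∑ i, X i * g i := by
      ext α
      rw [map_sum]
      have hterm : ∀ i, coeff α (X i * g i) = if P α i then coeff α f else 0 := by
        intro i
        rw [X_def, coeff_monomial_mul, one_mul]
        by_cases hle : Finsupp.single i 1 ≤ α
        · rw [if_pos hle]
          show (if P (α - Finsupp.single i 1 + Finsupp.single i 1) i then
            coeff (α - Finsupp.single i 1 + Finsupp.single i 1) f else 0) = _
          rw [tsub_add_cancel_of_le hle]
        · rw [if_neg hle, if_neg]
          rintro ⟨h, hi⟩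
          apply hle
          have hmem : i ∈ α.support := hi ▸ h.choose_spec
          rw [Finsupp.single_le_iff]
          exact Nat.one_le_iff_ne_zero.mpr (Finsupp.mem_support_iff.mp hmem)
      simp only [hterm]
      by_cases h0 : α.support.Nonempty
      · rw [Finset.sum_eq_single h0.choose]
        · rw [if_pos ⟨h0, rfl⟩]
        · intro i _ hi
          rw [if_neg]
          rintro ⟨_, h⟩
          exact hi h.symm
        · intro h; exact absurd (Finset.mem_univ _) h
      · have hα : α = 0 := by
          rw [Finset.not_nonempty_iff_eq_empty, Finsupp.support_eq_empty] at h0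
          exact h0
        rw [Finset.sum_eq_zero]
        · rw [hα]; exact hf 0 (by simp)
        · intro i _
          rw [if_neg]
          rintro ⟨h, _⟩
          exact h0 h
    rw [hsum, pow_succ']
    exact Ideal.sum_mem _ fun i _ =>
      Ideal.mul_mem_mul (Ideal.subset_span (Set.mem_range_self i)) (hg i)

end General

section Local

variable {O : Type*} [CommRing O] [IsLocalRing O] {σ : Type*}

/-- A power series over a local ring lies in the maximal ideal iff its constant coefficient
does. -/
theorem mvPowerSeries_mem_maximalIdeal_iff (f : MvPowerSeries σ O) :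
    f ∈ maximalIdeal (MvPowerSeries σ O) ↔ constantCoeff f ∈ maximalIdeal O := by
  rw [mem_maximalIdeal, mem_maximalIdeal, mem_nonunits_iff, mem_nonunits_iff,
    MvPowerSeries.isUnit_iff_constantCoeff]

theorem X_mem_maximalIdeal (i : σ) :
    (X i : MvPowerSeries σ O) ∈ maximalIdeal (MvPowerSeries σ O) := by
  rw [mvPowerSeries_mem_maximalIdeal_iff, constantCoeff_X]
  exact zero_mem _

theorem C_mem_maximalIdeal {a : O} (ha : a ∈ maximalIdeal O) :
    (C a : MvPowerSeries σ O) ∈ maximalIdeal (MvPowerSeries σ O) := by
  rw [mvPowerSeries_mem_maximalIdeal_iff, constantCoeff_C]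
  exact ha

theorem span_X_le_maximalIdeal :
    Ideal.span (Set.range (X : σ → MvPowerSeries σ O)) ≤ maximalIdeal (MvPowerSeries σ O) := by
  rw [Ideal.span_le]
  rintro _ ⟨i, rfl⟩
  exact X_mem_maximalIdeal i

theorem C_mem_maximalIdeal_pow {a : O} {n : ℕ} (ha : a ∈ maximalIdeal O ^ n) :
    (C a : MvPowerSeries σ O) ∈ maximalIdeal (MvPowerSeries σ O) ^ n := by
  have h : (maximalIdeal O).map (C : O →+* MvPowerSeries σ O) ≤
      maximalIdeal (MvPowerSeries σ O) := by
    rw [Ideal.map_le_iff_le_comap]
    intro x hx
    exact C_mem_maximalIdeal hx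
  have h2 : (maximalIdeal O ^ n).map (C : O →+* MvPowerSeries σ O) ≤
      maximalIdeal (MvPowerSeries σ O) ^ n := by
    rw [Ideal.map_pow]
    exact Ideal.pow_right_mono h n
  exact h2 (Ideal.mem_map_of_mem _ ha)

/-- The coefficientwise filtration: `f` such that the coefficient of `X^α` lies in
`𝔪 ^ (n - |α|)`. -/
def coeffFiltration (O : Type*) [CommRing O] [IsLocalRing O] (σ : Type*) (n : ℕ) :
    Ideal (MvPowerSeries σ O) where
  carrier := {f | ∀ α : σ →₀ ℕ, coeff α f ∈ maximalIdeal O ^ (n - Finsupp.degree α)}
  add_mem' := fun {f g} hf hg α => by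
    rw [map_add]
    exact Ideal.add_mem _ (hf α) (hg α)
  zero_mem' := fun α => by
    rw [map_zero]
    exact zero_mem _
  smul_mem' := fun g f hf α => by
    classical
    rw [smul_eq_mul, coeff_mul]
    refine Ideal.sum_mem _ fun p hp => ?_
    rw [Finset.HasAntidiagonal.mem_antidiagonal] at hp
    have hdeg : Finsupp.degree p.2 ≤ Finsupp.degree α := by
      rw [← hp, map_add]
      exact Nat.le_add_left _ _
    exact Ideal.mul_mem_left _ _ (Ideal.pow_le_pow_right (by omega) (hf p.2))

theorem mem_coeffFiltration_iff {n : ℕ} {f : MvPowerSeries σ O} :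
    f ∈ coeffFiltration O σ n ↔
      ∀ α : σ →₀ ℕ, coeff α f ∈ maximalIdeal O ^ (n - Finsupp.degree α) :=
  Iff.rfl

theorem maximalIdeal_pow_le_coeffFiltration (n : ℕ) :
    maximalIdeal (MvPowerSeries σ O) ^ n ≤ coeffFiltration O σ n := by
  classical
  induction n with
  | zero =>
    intro f _ α
    simp
  | succ n ih =>
    rw [pow_succ', Ideal.mul_le]
    intro g hg f hf α
    have hf' := ih hf
    rw [coeff_mul]
    refine Ideal.sum_mem _ fun p hp => ?_
    rw [Finset.HasAntidiagonal.mem_antidiagonal] at hp
    by_cases h0 : p.1 = 0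
    · have hp2 : p.2 = α := by rw [← hp, h0, zero_add]
      have hg0 : coeff p.1 g ∈ maximalIdeal O := by
        rw [h0, coeff_zero_eq_constantCoeff_apply]
        exact (mvPowerSeries_mem_maximalIdeal_iff g).mp hg
      have hmul : coeff p.1 g * coeff p.2 f ∈
          maximalIdeal O ^ (n - Finsupp.degree α + 1) := by
        rw [pow_succ']
        exact Ideal.mul_mem_mul hg0 (hp2 ▸ hf' p.2)
      exact Ideal.pow_le_pow_right (by omega) hmul
    · have hdeg1 : 1 ≤ Finsupp.degree p.1 := by
        rw [Nat.one_le_iff_ne_zero, Ne, Finsupp.degree_eq_zero_iff]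
        exact h0
      have hdeg : Finsupp.degree p.2 + 1 ≤ Finsupp.degree α := by
        rw [← hp, map_add]
        omega
      exact Ideal.mul_mem_left _ _ (Ideal.pow_le_pow_right (by omega) (hf' p.2))

theorem coeffFiltration_le_maximalIdeal_pow [Finite σ] (n : ℕ) :
    coeffFiltration O σ n ≤ maximalIdeal (MvPowerSeries σ O) ^ n := by
  classical
  intro f hf
  rw [mem_coeffFiltration_iff] at hf
  -- split off the truncation
  have hsplit : f = ((truncTotal n f : MvPolynomial σ O) : MvPowerSeries σ O) +
      (f - ((truncTotal n f : MvPolynomial σ O) : MvPowerSeries σ O)) := by ring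
  rw [hsplit]
  refine Ideal.add_mem _ ?_ ?_
  · -- the polynomial part
    rw [MvPolynomial.as_sum (truncTotal n f)]
    rw [← MvPolynomial.coeToMvPowerSeries.ringHom_apply, map_sum]
    refine Ideal.sum_mem _ fun α hα => ?_
    rw [MvPolynomial.coeToMvPowerSeries.ringHom_apply, MvPolynomial.coe_monomial,
      coeff_truncTotal_eq_ite]
    by_cases hlt : Finsupp.degree α < n
    · rw [if_pos hlt]
      have h1 : (monomial α (coeff α f) : MvPowerSeries σ O) = C (coeff α f) * monomial α 1 := by
        rw [← monomial_zero_eq_C_apply, monomial_mul_monomial, zero_add, mul_one]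
      rw [h1]
      have h2 : (C (coeff α f) : MvPowerSeries σ O) ∈
          maximalIdeal (MvPowerSeries σ O) ^ (n - Finsupp.degree α) :=
        C_mem_maximalIdeal_pow (hf α)
      have h3 : (monomial α (1 : O) : MvPowerSeries σ O) ∈
          maximalIdeal (MvPowerSeries σ O) ^ (Finsupp.degree α) :=
        Ideal.pow_right_mono span_X_le_maximalIdeal _ (monomial_one_mem_span_X_pow α)
      have h4 := Ideal.mul_mem_mul h2 h3
      rw [← pow_add] at h4
      have h5 : n - Finsupp.degree α + Finsupp.degree α = n := by omega
      rwa [h5] at h4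
    · rw [if_neg hlt, map_zero]
      exact zero_mem _
  · -- the tail
    refine Ideal.pow_right_mono span_X_le_maximalIdeal n
      (mem_span_X_pow_of_coeff_eq_zero n _ fun α hα => ?_)
    rw [map_sub, MvPolynomial.coeff_coe, coeff_truncTotal _ hα, sub_self]

theorem maximalIdeal_pow_eq_coeffFiltration [Finite σ] (n : ℕ) :
    maximalIdeal (MvPowerSeries σ O) ^ n = coeffFiltration O σ n :=
  le_antisymm (maximalIdeal_pow_le_coeffFiltration n) (coeffFiltration_le_maximalIdeal_pow n)

theorem mem_maximalIdeal_pow_iff [Finite σ] {n : ℕ} {f : MvPowerSeries σ O} :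
    f ∈ maximalIdeal (MvPowerSeries σ O) ^ n ↔
      ∀ α : σ →₀ ℕ, coeff α f ∈ maximalIdeal O ^ (n - Finsupp.degree α) := by
  rw [maximalIdeal_pow_eq_coeffFiltration, mem_coeffFiltration_iff]

theorem isHausdorff_mvPowerSeries [IsHausdorff (maximalIdeal O) O] :
    IsHausdorff (maximalIdeal (MvPowerSeries σ O)) (MvPowerSeries σ O) := by
  refine ⟨fun f hf => ?_⟩
  ext α
  rw [map_zero]
  refine IsHausdorff.haus ‹IsHausdorff (maximalIdeal O) O› _ fun n => ?_
  have h := hf (n + Finsupp.degree α)
  rw [SModEq.sub_mem, sub_zero, smul_eq_mul, Ideal.mul_top] at h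
  have h2 := maximalIdeal_pow_le_coeffFiltration _ h α
  rw [Nat.add_sub_cancel] at h2
  rw [SModEq.sub_mem, sub_zero, smul_eq_mul, Ideal.mul_top]
  exact h2

theorem isPrecomplete_mvPowerSeries [Finite σ] [IsPrecomplete (maximalIdeal O) O] :
    IsPrecomplete (maximalIdeal (MvPowerSeries σ O)) (MvPowerSeries σ O) := by
  refine ⟨fun f hf => ?_⟩
  -- coefficientwise limits
  have hcoeff : ∀ α : σ →₀ ℕ, ∃ L : O, ∀ n : ℕ,
      coeff α (f (n + Finsupp.degree α)) ≡ L [SMOD (maximalIdeal O ^ n • ⊤ : Submodule O O)] := by
    intro α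
    refine IsPrecomplete.prec ‹IsPrecomplete (maximalIdeal O) O› fun {m n} hmn => ?_
    have h := hf (show m + Finsupp.degree α ≤ n + Finsupp.degree α by omega)
    rw [SModEq.sub_mem, smul_eq_mul, Ideal.mul_top] at h
    have h2 := maximalIdeal_pow_le_coeffFiltration _ h α
    rw [Nat.add_sub_cancel, map_sub] at h2
    rw [SModEq.sub_mem, smul_eq_mul, Ideal.mul_top]
    exact h2
  choose L hL using hcoeff
  have hexists : ∃ Lps : MvPowerSeries σ O, ∀ α, coeff α Lps = L α := ⟨fun α => L α, fun _ => rfl⟩
  obtain ⟨Lps, hLps⟩ := hexists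
  refine ⟨Lps, fun n => ?_⟩
  rw [SModEq.sub_mem, smul_eq_mul, Ideal.mul_top, mem_maximalIdeal_pow_iff]
  intro α
  by_cases hle : Finsupp.degree α ≤ n
  · have h := hL α (n - Finsupp.degree α)
    rw [SModEq.sub_mem, smul_eq_mul, Ideal.mul_top, Nat.sub_add_cancel hle] at h
    rw [map_sub, hLps]
    exact h
  · have h0 : n - Finsupp.degree α = 0 := by omega
    rw [h0, pow_zero, Ideal.one_eq_top]
    trivial

/-- **Completeness of the power series ring**: if `O` is a local ring, complete with respect
to its maximal ideal, then so is `MvPowerSeries σ O` for finite `σ`. -/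
theorem isAdicComplete_mvPowerSeries [Finite σ] [IsAdicComplete (maximalIdeal O) O] :
    IsAdicComplete (maximalIdeal (MvPowerSeries σ O)) (MvPowerSeries σ O) :=
  { isHausdorff_mvPowerSeries, isPrecomplete_mvPowerSeries with }

end Local

end Fermat.Agent.S53Lib.T1

namespace Fermat.Agent.S53Lib

/-- T1: power series over a complete Noetherian local ring are complete for the
maximal-ideal-adic topology.  (Mathlib only has completeness w.r.t. the ideal of variables.) -/
theorem mvPowerSeries_isAdicComplete (𝒪 : Type) [CommRing 𝒪] [IsLocalRing 𝒪] [IsNoetherianRing 𝒪]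
    [IsAdicComplete (IsLocalRing.maximalIdeal 𝒪) 𝒪] (d : ℕ) :
    IsAdicComplete (IsLocalRing.maximalIdeal (MvPowerSeries (Fin d) 𝒪))
      (MvPowerSeries (Fin d) 𝒪) :=
  T1.isAdicComplete_mvPowerSeries

end Fermat.Agent.S53Lib
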