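/-
S53 sub-task T2, part 1 (helper9): uniform generators.
-/
import Mathlib

set_option autoImplicit false

namespace Fermat.Agent.S53Lib.T2

/-- An ideal consisting of nilpotent elements lies in the Jacobson radical. -/
theorem le_jacobson_bot_of_forall_isNilpotent {V : Type*} [CommRing V] (I : Ideal V)
    (h : ∀ x ∈ I, IsNilpotent x) : I ≤ (⊥ : Ideal V).jacobson := by
  intro x hx
  rw [Ideal.mem_jacobson_bot]
  intro y
  exact ((Commute.all x y).isNilpotent_mul_right (h x hx)).isUnit_add_one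

/-- Nilpotent Nakayama for subalgebras: a subalgebra `B` of a finite ring `V` which surjects
onto `V / 𝔫` for a nilpotent ideal `𝔫` generated modulo `𝔫²` by elements of `B` is everything. -/
theorem subalgebra_eq_top_of_nilpotent {𝒪 : Type*} [CommRing 𝒪] {V : Type*} [CommRing V]
    [Algebra 𝒪 V] [Finite V] (𝔫 : Ideal V) (n : ℕ) (h𝔫 : 𝔫 ^ n = ⊥) (B : Subalgebra 𝒪 V)
    (G : Set V) (hGB : ∀ g ∈ G, g ∈ B) (hG𝔫 : ∀ g ∈ G, g ∈ 𝔫)
    (K1 : ∀ x : V, ∃ b ∈ B, x - b ∈ 𝔫)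
    (K2 : 𝔫 ≤ Ideal.span G ⊔ 𝔫 * 𝔫) : B = ⊤ := by
  have hnil : ∀ x ∈ 𝔫, IsNilpotent x := by
    intro x hx
    refine ⟨n, ?_⟩
    have : x ^ n ∈ 𝔫 ^ n := Ideal.pow_mem_pow hx n
    rwa [h𝔫, Ideal.mem_bot] at this
  -- Step 1: `𝔫 ≤ span G`.
  have h1 : 𝔫 ≤ Ideal.span G :=
    Submodule.le_of_le_smul_of_le_jacobson_bot (IsNoetherian.noetherian 𝔫)
      (le_jacobson_bot_of_forall_isNilpotent 𝔫 hnil) (by rwa [smul_eq_mul])
  -- Step 2: Nakayama over `B`.
  let I : Ideal B := 𝔫.comap (algebraMap B V)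
  have hI : I ≤ (⊥ : Ideal B).jacobson := by
    apply le_jacobson_bot_of_forall_isNilpotent
    intro x hx
    obtain ⟨k, hk⟩ := hnil (x : V) hx
    exact ⟨k, Subtype.ext (by simpa using hk)⟩
  have hspan : ∀ y ∈ Ideal.span G, y ∈ (I • (⊤ : Submodule B V)) := by
    intro y hy
    induction hy using Submodule.span_induction with
    | mem g hg =>
      have : g = (⟨g, hGB g hg⟩ : B) • (1 : V) := by
        rw [Subalgebra.smul_def, smul_eq_mul, mul_one]
      rw [this]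
      exact Submodule.smul_mem_smul (show (⟨g, hGB g hg⟩ : B) ∈ I from hG𝔫 g hg) Submodule.mem_top
    | zero => exact Submodule.zero_mem _
    | add x y _ _ hx hy => exact Submodule.add_mem _ hx hy
    | smul c x _ hx =>
      refine Submodule.smul_induction_on hx ?_ ?_
      · intro i hi v _
        have : c • (i • v) = i • (c * v) := by
          rw [Subalgebra.smul_def, Subalgebra.smul_def, smul_eq_mul, smul_eq_mul, smul_eq_mul]
          ring
        rw [this]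
        exact Submodule.smul_mem_smul hi Submodule.mem_top
      · intro x y hx hy
        rw [smul_add]
        exact Submodule.add_mem _ hx hy
  have h2 : (⊤ : Submodule B V) ≤ Submodule.span B {(1 : V)} := by
    refine Submodule.le_of_le_smul_of_le_jacobson_bot (I := I) ?_ hI ?_
    · exact Module.Finite.fg_top
    · intro x _
      obtain ⟨b, hb, hxb⟩ := K1 x
      rw [Submodule.mem_sup]
      refine ⟨b, ?_, x - b, hspan _ (h1 hxb), by ring⟩
      rw [Submodule.mem_span_singleton]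
      exact ⟨⟨b, hb⟩, by rw [Subalgebra.smul_def, smul_eq_mul, mul_one]⟩
  rw [eq_top_iff]
  intro x _
  have hx := h2 (Submodule.mem_top : x ∈ (⊤ : Submodule B V))
  rw [Submodule.mem_span_singleton] at hx
  obtain ⟨b, hb⟩ := hx
  rw [Subalgebra.smul_def, smul_eq_mul, mul_one] at hb
  rw [← hb]
  exact b.2

/-- The image of the maximal ideal of `𝒪` lies in `m`. -/
theorem map_maximalIdeal_le {𝒪 : Type*} [CommRing 𝒪] [IsLocalRing 𝒪] {U : Type*} [CommRing U]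
    [Algebra 𝒪 U] (m : Ideal U) [hm : m.IsMaximal]
    (hres : Function.Surjective ((Ideal.Quotient.mk m).comp (algebraMap 𝒪 U))) :
    (IsLocalRing.maximalIdeal 𝒪).map (algebraMap 𝒪 U) ≤ m := by
  letI := Ideal.Quotient.field m
  have hker : (RingHom.ker ((Ideal.Quotient.mk m).comp (algebraMap 𝒪 U))).IsMaximal :=
    RingHom.ker_isMaximal_of_surjective _ hres
  have heq := IsLocalRing.eq_maximalIdeal hker
  rw [Ideal.map_le_iff_le_comap]
  intro a ha
  rw [← heq, RingHom.mem_ker, RingHom.comp_apply, Ideal.Quotient.eq_zero_iff_mem] at ha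
  exact ha


/-- Surjectivity criterion for the evaluation map onto a quotient `U ⧸ J`. -/
theorem aeval_surjective_of_tangent
    {𝒪 : Type} [CommRing 𝒪] [IsLocalRing 𝒪]
    {U : Type} [CommRing U] [Algebra 𝒪 U] (m : Ideal U) [m.IsMaximal]
    (hres : Function.Surjective ((Ideal.Quotient.mk m).comp (algebraMap 𝒪 U)))
    (J : Ideal U) [Finite (U ⧸ J)] (n : ℕ) (hpow : m ^ n ≤ J)
    {d : ℕ} (t : Fin d → U) (ht : ∀ i, t i ∈ m)
    (hgen : ∀ u ∈ m, ∃ i, u - t i ∈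
      J ⊔ m ^ 2 ⊔ (IsLocalRing.maximalIdeal 𝒪).map (algebraMap 𝒪 U)) :
    Function.Surjective (MvPolynomial.aeval (fun i => Ideal.Quotient.mk J (t i)) :
      MvPolynomial (Fin d) 𝒪 →ₐ[𝒪] U ⧸ J) := by
  set τ : MvPolynomial (Fin d) 𝒪 →ₐ[𝒪] U ⧸ J :=
    MvPolynomial.aeval (fun i => Ideal.Quotient.mk J (t i)) with hτ
  have h𝔪 := map_maximalIdeal_le m hres
  set 𝔫 : Ideal (U ⧸ J) := m.map (Ideal.Quotient.mk J) with h𝔫def
  have h𝔫 : 𝔫 ^ n = ⊥ := by
    rw [h𝔫def, ← Ideal.map_pow, eq_bot_iff]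
    refine (Ideal.map_mono hpow).trans ?_
    rw [Ideal.map_quotient_self]
  let G : Set (U ⧸ J) := Set.range (fun i => Ideal.Quotient.mk J (t i)) ∪
    (fun a => algebraMap 𝒪 (U ⧸ J) a) '' (IsLocalRing.maximalIdeal 𝒪 : Set 𝒪)
  have hGB : ∀ g ∈ G, g ∈ τ.range := by
    rintro g (⟨i, rfl⟩ | ⟨a, -, rfl⟩)
    · exact ⟨MvPolynomial.X i, by simp [hτ]⟩
    · exact Subalgebra.algebraMap_mem _ a
  have hG𝔫 : ∀ g ∈ G, g ∈ 𝔫 := by
    rintro g (⟨i, rfl⟩ | ⟨a, ha, rfl⟩)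
    · exact Ideal.mem_map_of_mem _ (ht i)
    · have : algebraMap 𝒪 U a ∈ m := h𝔪 (Ideal.mem_map_of_mem _ ha)
      exact Ideal.mem_map_of_mem (Ideal.Quotient.mk J) this
  have K1 : ∀ x : U ⧸ J, ∃ b ∈ τ.range, x - b ∈ 𝔫 := by
    intro x
    obtain ⟨u, rfl⟩ := Ideal.Quotient.mk_surjective x
    obtain ⟨a, ha⟩ := hres (Ideal.Quotient.mk m u)
    refine ⟨algebraMap 𝒪 (U ⧸ J) a, Subalgebra.algebraMap_mem _ a, ?_⟩
    have hmem : u - algebraMap 𝒪 U a ∈ m := by
      rw [← Ideal.Quotient.eq_zero_iff_mem, map_sub, sub_eq_zero]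
      exact ha.symm
    have := Ideal.mem_map_of_mem (Ideal.Quotient.mk J) hmem
    rwa [map_sub] at this
  have K2 : 𝔫 ≤ Ideal.span G ⊔ 𝔫 * 𝔫 := by
    intro x hx
    obtain ⟨u, hu, rfl⟩ := (Ideal.mem_map_iff_of_surjective _ Ideal.Quotient.mk_surjective).1 hx
    obtain ⟨i, hi⟩ := hgen u hu
    obtain ⟨y, hy, v, hv, hyv⟩ := Submodule.mem_sup.1 hi
    obtain ⟨j, hj, w, hw, hjw⟩ := Submodule.mem_sup.1 hy
    have hu' : Ideal.Quotient.mk J u = Ideal.Quotient.mk J (t i) + Ideal.Quotient.mk J w +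
        Ideal.Quotient.mk J v := by
      have h0 : Ideal.Quotient.mk J j = 0 := Ideal.Quotient.eq_zero_iff_mem.2 hj
      have : u = t i + (j + w + v) := by rw [hjw, hyv]; ring
      rw [this, map_add, map_add, map_add, h0, zero_add, add_assoc]
    rw [hu']
    have hw' : Ideal.Quotient.mk J w ∈ 𝔫 * 𝔫 := by
      have := Ideal.mem_map_of_mem (Ideal.Quotient.mk J) hw
      rwa [Ideal.map_pow, pow_two] at this
    have hv' : Ideal.Quotient.mk J v ∈ Ideal.span G := by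
      have h1 := Ideal.mem_map_of_mem (Ideal.Quotient.mk J) hv
      rw [Ideal.map_map] at h1
      have h2 : (IsLocalRing.maximalIdeal 𝒪).map ((Ideal.Quotient.mk J).comp (algebraMap 𝒪 U)) ≤
          Ideal.span G := by
        rw [Ideal.map_le_iff_le_comap]
        intro a ha
        exact Ideal.subset_span (Or.inr ⟨a, ha, rfl⟩)
      exact h2 h1
    have ht' : Ideal.Quotient.mk J (t i) ∈ Ideal.span G :=
      Ideal.subset_span (Or.inl ⟨i, rfl⟩)
    exact Submodule.add_mem _ (Submodule.add_mem _ (Ideal.mem_sup_left ht')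
      (Ideal.mem_sup_right hw')) (Ideal.mem_sup_left hv')
  have htop := subalgebra_eq_top_of_nilpotent 𝔫 n h𝔫 τ.range G hGB hG𝔫 K1 K2
  intro x
  have : x ∈ τ.range := by rw [htop]; exact Algebra.mem_top
  exact this

/-- Uniform generators: finitely many elements of `m` whose images generate every `U ⧸ J`,
`J ∈ 𝓘`, as an `𝒪`-algebra. -/
theorem exists_generators
    (𝒪 : Type) [CommRing 𝒪] [IsLocalRing 𝒪]
    (U : Type) [CommRing U] [Algebra 𝒪 U] (m : Ideal U) [m.IsMaximal]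
    (hres : Function.Surjective ((Ideal.Quotient.mk m).comp (algebraMap 𝒪 U)))
    (𝓘 : Set (Ideal U))
    (h_fin : ∀ J ∈ 𝓘, Finite (U ⧸ J))
    (h_pow : ∀ J ∈ 𝓘, ∃ n : ℕ, m ^ n ≤ J)
    (h_tan : ∃ J₂ ∈ 𝓘, ∀ J ∈ 𝓘,
      J₂ ≤ J ⊔ m ^ 2 ⊔ (IsLocalRing.maximalIdeal 𝒪).map (algebraMap 𝒪 U)) :
    ∃ (d : ℕ) (t : Fin d → U), (∀ i, t i ∈ m) ∧ ∀ J ∈ 𝓘,
      Function.Surjective (MvPolynomial.aeval (fun i => Ideal.Quotient.mk J (t i)) :
        MvPolynomial (Fin d) 𝒪 →ₐ[𝒪] U ⧸ J) := by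
  obtain ⟨J₂, hJ₂, htan⟩ := h_tan
  haveI := h_fin J₂ hJ₂
  let A : Set (U ⧸ J₂) := (Ideal.Quotient.mk J₂) '' (m : Set U)
  haveI : Finite A := Set.toFinite A
  let e : A ≃ Fin (Nat.card A) := Finite.equivFin A
  have hA : ∀ a : A, ∃ x, x ∈ m ∧ Ideal.Quotient.mk J₂ x = a := fun a => a.2
  choose rep hrep_mem hrep_eq using hA
  refine ⟨Nat.card A, fun i => rep (e.symm i), fun i => hrep_mem _, fun J hJ => ?_⟩
  haveI := h_fin J hJ
  obtain ⟨n, hn⟩ := h_pow J hJ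
  refine aeval_surjective_of_tangent m hres J n hn _ (fun i => hrep_mem _) ?_
  intro u hu
  refine ⟨e ⟨Ideal.Quotient.mk J₂ u, u, hu, rfl⟩, htan J hJ ?_⟩
  rw [← Ideal.Quotient.eq_zero_iff_mem, map_sub, sub_eq_zero, Equiv.symm_apply_apply, hrep_eq]

end Fermat.Agent.S53Lib.T2
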