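/-
S53 sub-task T2, part 2 (helper9): successive approximation, least ideals, evaluation maps.
-/
import Mathlib
import Fermat.Agent.Lib.S53.S53T2Gen

set_option autoImplicit false

namespace Fermat.Agent.S53Lib.T2

/-- Successive approximation in a precomplete ring: a decreasing chain of ideals `b n` with
`b n ≤ b (n+1) ⊔ I ^ n` satisfies `b n ≤ (⨅ k, b k) ⊔ I ^ n`. -/
theorem le_iInf_sup_pow {S : Type*} [CommRing S] (I : Ideal S) [IsPrecomplete I S]
    (b : ℕ → Ideal S) (hanti : ∀ n, b (n + 1) ≤ b n) (hpow : ∀ n, I ^ n ≤ b n)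
    (hstep : ∀ n, b n ≤ b (n + 1) ⊔ I ^ n) (n : ℕ) :
    b n ≤ (⨅ k, b k) ⊔ I ^ n := by
  intro x hx
  have hanti' : Antitone b := antitone_nat_of_succ_le hanti
  -- the approximating sequence
  have step : ∀ (j : ℕ) (z : S), ∃ z' : S, z ∈ b (n + j) →
      z' ∈ b (n + (j + 1)) ∧ z - z' ∈ I ^ (n + j) := by
    intro j z
    by_cases hz : z ∈ b (n + j)
    · obtain ⟨y, hy, w, hw, hyw⟩ := Submodule.mem_sup.1 (hstep (n + j) hz)
      refine ⟨y, fun _ => ⟨hy, ?_⟩⟩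
      have : z - y = w := by rw [← hyw]; ring
      rw [this]; exact hw
    · exact ⟨0, fun h => absurd h hz⟩
  choose next hnext using step
  let seq : ℕ → S := fun j => Nat.rec x (fun j z => next j z) j
  have hseq_succ : ∀ j, seq (j + 1) = next j (seq j) := fun j => rfl
  have hseq_zero : seq 0 = x := rfl
  have hseq_mem : ∀ j, seq j ∈ b (n + j) := by
    intro j
    induction j with
    | zero => exact hx
    | succ j ih => rw [hseq_succ]; exact (hnext j (seq j) ih).1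
  -- differences
  have hdiff : ∀ j, seq j - seq (j + 1) ∈ I ^ (n + j) := by
    intro j; rw [hseq_succ]; exact (hnext j (seq j) (hseq_mem j)).2
  have hdiff' : ∀ i j, i ≤ j → seq i - seq j ∈ I ^ (n + i) := by
    intro i j hij
    induction j, hij using Nat.le_induction with
    | base => rw [sub_self]; exact Ideal.zero_mem _
    | succ j hij ih =>
      have h1 := hdiff j
      have h2 : I ^ (n + j) ≤ I ^ (n + i) := Ideal.pow_le_pow_right (by omega)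
      have : seq i - seq (j + 1) = (seq i - seq j) + (seq j - seq (j + 1)) := by ring
      rw [this]
      exact Ideal.add_mem _ ih (h2 h1)
  -- the limit
  obtain ⟨L, hL⟩ := IsPrecomplete.prec' (I := I) seq (by
    intro i j hij
    rw [SModEq.sub_mem, smul_eq_mul, Ideal.mul_top]
    exact Ideal.pow_le_pow_right (Nat.le_add_left i n) (hdiff' i j hij))
  have hL' : ∀ j, seq j - L ∈ I ^ j := by
    intro j
    have := hL j
    rwa [SModEq.sub_mem, smul_eq_mul, Ideal.mul_top] at this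
  have hLmem : L ∈ ⨅ k, b k := by
    rw [Ideal.mem_iInf]
    intro k
    have h1 : seq k ∈ b k := hanti' (Nat.le_add_left k n) (hseq_mem k)
    have h2 : seq k - L ∈ b k := hpow k (hL' k)
    have : L = seq k - (seq k - L) := by ring
    rw [this]
    exact Ideal.sub_mem _ h1 h2
  have hxL : x - L ∈ I ^ n := by
    have h1 : x - seq n ∈ I ^ n := by
      have := hdiff' 0 n (Nat.zero_le n)
      rwa [hseq_zero, add_zero] at this
    have h2 := hL' n
    have : x - L = (x - seq n) + (seq n - L) := by ring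
    rw [this]
    exact Ideal.add_mem _ h1 h2
  exact Submodule.mem_sup.2 ⟨L, hLmem, x - L, hxL, by ring⟩


section Psi

variable {𝒪 : Type} [CommRing 𝒪] {U : Type} [CommRing U] [Algebra 𝒪 U] (m : Ideal U)
  {d : ℕ} (t : Fin d → U)

/-- Polynomial evaluation at the `t i` modulo `J`. -/
noncomputable abbrev tau (J : Ideal U) : MvPolynomial (Fin d) 𝒪 →ₐ[𝒪] U ⧸ J :=
  MvPolynomial.aeval (fun i => Ideal.Quotient.mk J (t i))

theorem factor_tau {J J' : Ideal U} (h : J ≤ J') (p : MvPolynomial (Fin d) 𝒪) :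
    Ideal.Quotient.factor h (tau (𝒪 := 𝒪) t J p) = tau t J' p := by
  have := MvPolynomial.comp_aeval_apply (R := 𝒪) (f := fun i => Ideal.Quotient.mk J (t i))
    (Ideal.Quotient.factorₐ 𝒪 h) p
  exact this

variable {m t} in
theorem tau_mem_map_pow (ht : ∀ i, t i ∈ m) (J : Ideal U) (k : ℕ)
    {p : MvPolynomial (Fin d) 𝒪} (hp : p ∈ MvPolynomial.idealOfVars (Fin d) 𝒪 ^ k) :
    tau t J p ∈ (m.map (Ideal.Quotient.mk J)) ^ k := by
  have h1 : (MvPolynomial.idealOfVars (Fin d) 𝒪).map (tau (𝒪 := 𝒪) t J) ≤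
      m.map (Ideal.Quotient.mk J) := by
    rw [MvPolynomial.idealOfVars, Ideal.map_span, Ideal.span_le]
    rintro _ ⟨_, ⟨i, rfl⟩, rfl⟩
    have : tau (𝒪 := 𝒪) t J (MvPolynomial.X i) = Ideal.Quotient.mk J (t i) := by simp [tau]
    rw [this]
    exact Ideal.mem_map_of_mem _ (ht i)
  have h2 := Ideal.mem_map_of_mem (tau (𝒪 := 𝒪) t J) hp
  rw [Ideal.map_pow] at h2
  exact Ideal.pow_right_mono h1 k h2

variable {m t} in
theorem tau_eq_zero (ht : ∀ i, t i ∈ m) (J : Ideal U) (n : ℕ) (hJ : m ^ n ≤ J)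
    {p : MvPolynomial (Fin d) 𝒪} (hp : p ∈ MvPolynomial.idealOfVars (Fin d) 𝒪 ^ n) :
    tau t J p = 0 := by
  have h1 := tau_mem_map_pow ht J n hp
  rw [← Ideal.map_pow] at h1
  have h2 := Ideal.map_mono (f := Ideal.Quotient.mk J) hJ h1
  rwa [Ideal.map_quotient_self, Ideal.mem_bot] at h2

/-- Evaluation of power series at the `t i` modulo an ideal `J` containing `m ^ n`. -/
noncomputable def psi (ht : ∀ i, t i ∈ m) (J : Ideal U) (n : ℕ) (hJ : m ^ n ≤ J) :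
    MvPowerSeries (Fin d) 𝒪 →ₐ[𝒪] U ⧸ J :=
  (Ideal.Quotient.liftₐ (MvPolynomial.idealOfVars (Fin d) 𝒪 ^ n) (tau t J)
      (fun _ hp => tau_eq_zero ht J n hJ hp)).comp
    ((MvPowerSeries.truncTotalAlgHom (Fin d) 𝒪 n).restrictScalars 𝒪)

theorem psi_apply (ht : ∀ i, t i ∈ m) (J : Ideal U) (n : ℕ) (hJ : m ^ n ≤ J)
    (s : MvPowerSeries (Fin d) 𝒪) :
    psi m t ht J n hJ s = tau t J (MvPowerSeries.truncTotal n s) := rfl

theorem psi_coe (ht : ∀ i, t i ∈ m) (J : Ideal U) (n : ℕ) (hJ : m ^ n ≤ J)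
    (p : MvPolynomial (Fin d) 𝒪) :
    psi m t ht J n hJ (p : MvPowerSeries (Fin d) 𝒪) = tau t J p := by
  rw [psi_apply]
  have h : Ideal.Quotient.mk (MvPolynomial.idealOfVars (Fin d) 𝒪 ^ n)
      (MvPowerSeries.truncTotal n (p : MvPowerSeries (Fin d) 𝒪)) = Ideal.Quotient.mk _ p :=
    (MvPowerSeries.truncTotalAlgHom (Fin d) 𝒪 n).commutes p
  have h' := tau_eq_zero ht J n hJ (Ideal.Quotient.eq.1 h)
  rwa [map_sub, sub_eq_zero] at h'

theorem psi_surjective (ht : ∀ i, t i ∈ m) (J : Ideal U) (n : ℕ) (hJ : m ^ n ≤ J)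
    (hsurj : Function.Surjective (tau (𝒪 := 𝒪) t J)) :
    Function.Surjective (psi (𝒪 := 𝒪) m t ht J n hJ) := by
  intro x
  obtain ⟨p, rfl⟩ := hsurj x
  exact ⟨p, psi_coe m t ht J n hJ p⟩

theorem factor_psi (ht : ∀ i, t i ∈ m) {J J' : Ideal U} {n n' : ℕ} (hJ : m ^ n ≤ J)
    (hJ' : m ^ n' ≤ J') (h : J ≤ J') (hn : n' ≤ n) (s : MvPowerSeries (Fin d) 𝒪) :
    Ideal.Quotient.factor h (psi m t ht J n hJ s) = psi m t ht J' n' hJ' s := by
  rw [psi_apply, psi_apply, factor_tau]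
  have hmem := MvPowerSeries.truncTotal_sub_truncTotal_mem_pow_idealOfVars (R := 𝒪)
    (σ := Fin d) (l := n') (m := n) (n := n') hn le_rfl s
  have h0 := tau_eq_zero ht J' n' hJ' hmem
  rw [map_sub, sub_eq_zero] at h0
  exact h0

end Psi

section Least

variable {𝒪 : Type} [CommRing 𝒪] [IsNoetherianRing 𝒪] {U : Type} [CommRing U] [Algebra 𝒪 U]
  (m : Ideal U) [m.IsMaximal] (𝓘 : Set (Ideal U))

/-- For `n ≠ 0` the family `{J ∈ 𝓘 | m ^ n ≤ J}` has a least element. -/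
theorem exists_least
    (h_le : ∀ J ∈ 𝓘, J ≤ m)
    (h_fin : ∀ J ∈ 𝓘, Finite (U ⧸ J))
    (h_inf : ∀ J ∈ 𝓘, ∀ J' ∈ 𝓘, J ⊓ J' ∈ 𝓘)
    (h_top : m ∈ 𝓘)
    {d : ℕ} (t : Fin d → U)
    (hsurj : ∀ J ∈ 𝓘, Function.Surjective (tau (𝒪 := 𝒪) t J))
    (n : ℕ) (hn : n ≠ 0) :
    ∃ J ∈ 𝓘, m ^ n ≤ J ∧ ∀ J' ∈ 𝓘, m ^ n ≤ J' → J ≤ J' := by
  haveI := h_fin m h_top
  let 𝔞 : Ideal (MvPolynomial (Fin d) 𝒪) := RingHom.ker (tau (𝒪 := 𝒪) t m)
  haveI : Finite (MvPolynomial (Fin d) 𝒪 ⧸ 𝔞) :=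
    Finite.of_injective _ (RingHom.kerLift_injective (tau (𝒪 := 𝒪) t m).toRingHom)
  haveI : Finite (MvPolynomial (Fin d) 𝒪 ⧸ 𝔞 ^ n) :=
    Ideal.finite_quotient_pow (IsNoetherian.noetherian 𝔞) n
  have hbound : ∀ J ∈ 𝓘, m ^ n ≤ J →
      Nat.card (U ⧸ J) ≤ Nat.card (MvPolynomial (Fin d) 𝒪 ⧸ 𝔞 ^ n) := by
    intro J hJ hpow
    have hkill : ∀ p ∈ 𝔞 ^ n, (tau (𝒪 := 𝒪) t J).toRingHom p = 0 := by
      intro p hp
      have h1 : 𝔞.map (tau (𝒪 := 𝒪) t J) ≤ m.map (Ideal.Quotient.mk J) := by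
        rw [Ideal.map_le_iff_le_comap]
        intro q hq
        have h2 : Ideal.Quotient.factor (h_le J hJ) (tau t J q) = 0 := by
          rw [factor_tau]; exact hq
        rw [Ideal.mem_comap]
        obtain ⟨u, hu⟩ := Ideal.Quotient.mk_surjective (tau (𝒪 := 𝒪) t J q)
        rw [← hu] at h2 ⊢
        rw [Ideal.Quotient.factor_mk, Ideal.Quotient.eq_zero_iff_mem] at h2
        exact Ideal.mem_map_of_mem _ h2
      have h3 := Ideal.mem_map_of_mem (tau (𝒪 := 𝒪) t J) hp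
      rw [Ideal.map_pow] at h3
      have h4 := Ideal.pow_right_mono h1 n h3
      rw [← Ideal.map_pow] at h4
      have h5 := Ideal.map_mono (f := Ideal.Quotient.mk J) hpow h4
      rwa [Ideal.map_quotient_self, Ideal.mem_bot] at h5
    exact Nat.card_le_card_of_surjective
      (Ideal.Quotient.lift (𝔞 ^ n) (tau (𝒪 := 𝒪) t J).toRingHom hkill)
      (Ideal.Quotient.lift_surjective_of_surjective _ _ (hsurj J hJ))
  let C : Set ℕ := {c | ∃ J ∈ 𝓘, m ^ n ≤ J ∧ Nat.card (U ⧸ J) = c}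
  have hne : C.Nonempty := ⟨_, m, h_top, Ideal.pow_le_self hn, rfl⟩
  have hbdd : BddAbove C :=
    ⟨_, by rintro c ⟨J, hJ, hpow, rfl⟩; exact hbound J hJ hpow⟩
  obtain ⟨J₀, hJ₀, hJ₀pow, hcard⟩ := Nat.sSup_mem hne hbdd
  refine ⟨J₀, hJ₀, hJ₀pow, fun J' hJ' hpow' => ?_⟩
  have hmem : J₀ ⊓ J' ∈ 𝓘 := h_inf J₀ hJ₀ J' hJ'
  haveI := h_fin _ hmem
  have hle : Nat.card (U ⧸ (J₀ ⊓ J')) ≤ Nat.card (U ⧸ J₀) := by
    rw [hcard]; exact le_csSup hbdd ⟨_, hmem, le_inf hJ₀pow hpow', rfl⟩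
  have hbij := (Ideal.Quotient.factor_surjective
    (inf_le_left : J₀ ⊓ J' ≤ J₀)).bijective_of_nat_card_le hle
  intro x hx
  have h1 : Ideal.Quotient.factor (inf_le_left : J₀ ⊓ J' ≤ J₀) (Ideal.Quotient.mk _ x) = 0 := by
    rw [Ideal.Quotient.factor_mk, Ideal.Quotient.eq_zero_iff_mem]; exact hx
  have h2 := hbij.1 (h1.trans (map_zero _).symm)
  rw [Ideal.Quotient.eq_zero_iff_mem] at h2
  exact h2.2

end Least

end Fermat.Agent.S53Lib.T2
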