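/-
S53 sub-task T2, part 3 (helper9): quotients of complete local rings.
-/
import Mathlib
import Fermat.Prelude.Thm_IsLocalRing_isAdicComplete_of_module_finite

set_option autoImplicit false

namespace Fermat.Agent.S53Lib.T2

section Quot

variable {S : Type*} [CommRing S] [IsLocalRing S] (I : Ideal S)

theorem isLocalRing_quotient (hI : I ≠ ⊤) : IsLocalRing (S ⧸ I) :=
  haveI := Ideal.Quotient.nontrivial_iff.2 hI
  IsLocalRing.of_surjective' (Ideal.Quotient.mk I) Ideal.Quotient.mk_surjective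

theorem maximalIdeal_quotient (hI : I ≠ ⊤) :
    haveI := isLocalRing_quotient I hI
    IsLocalRing.maximalIdeal (S ⧸ I) = (IsLocalRing.maximalIdeal S).map (Ideal.Quotient.mk I) := by
  haveI := isLocalRing_quotient I hI
  have hle : I ≤ IsLocalRing.maximalIdeal S := IsLocalRing.le_maximalIdeal hI
  have hmax : ((IsLocalRing.maximalIdeal S).map (Ideal.Quotient.mk I)).IsMaximal := by
    rcases Ideal.map_eq_top_or_isMaximal_of_surjective (Ideal.Quotient.mk I)
      Ideal.Quotient.mk_surjective (IsLocalRing.maximalIdeal.isMaximal S) with h | h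
    · exfalso
      have h1 := Ideal.comap_map_of_surjective (Ideal.Quotient.mk I) Ideal.Quotient.mk_surjective
        (IsLocalRing.maximalIdeal S)
      rw [h, Ideal.comap_top, ← RingHom.ker_eq_comap_bot, Ideal.mk_ker, sup_eq_left.2 hle] at h1
      exact (IsLocalRing.maximalIdeal.isMaximal S).ne_top h1.symm
    · exact h
  exact (IsLocalRing.eq_maximalIdeal hmax).symm

theorem isLocalHom_mk (hI : I ≠ ⊤) : IsLocalHom (Ideal.Quotient.mk I) := by
  haveI := isLocalRing_quotient I hI
  refine ⟨fun a ha => ?_⟩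
  by_contra hna
  have h1 : a ∈ IsLocalRing.maximalIdeal S := (IsLocalRing.mem_maximalIdeal a).2 hna
  have h2 : Ideal.Quotient.mk I a ∈ IsLocalRing.maximalIdeal (S ⧸ I) := by
    rw [maximalIdeal_quotient I hI]
    exact Ideal.mem_map_of_mem _ h1
  exact (IsLocalRing.mem_maximalIdeal _).1 h2 ha

theorem comap_maximalIdeal_pow_quotient (hI : I ≠ ⊤) (n : ℕ) :
    haveI := isLocalRing_quotient I hI
    (IsLocalRing.maximalIdeal (S ⧸ I) ^ n).comap (Ideal.Quotient.mk I) =
      IsLocalRing.maximalIdeal S ^ n ⊔ I := by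
  haveI := isLocalRing_quotient I hI
  rw [maximalIdeal_quotient I hI, ← Ideal.map_pow,
    Ideal.comap_map_of_surjective (Ideal.Quotient.mk I) Ideal.Quotient.mk_surjective,
    ← RingHom.ker_eq_comap_bot, Ideal.mk_ker]

theorem isAdicComplete_quotient [IsNoetherianRing S]
    [IsAdicComplete (IsLocalRing.maximalIdeal S) S] (hI : I ≠ ⊤) :
    haveI := isLocalRing_quotient I hI
    IsAdicComplete (IsLocalRing.maximalIdeal (S ⧸ I)) (S ⧸ I) := by
  haveI := isLocalRing_quotient I hI
  haveI : IsLocalHom (algebraMap S (S ⧸ I)) := isLocalHom_mk I hI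
  exact IsLocalRing.isAdicComplete_of_module_finite (𝒪 := S) (T := S ⧸ I)

variable {𝒪 : Type*} [CommRing 𝒪] [Algebra 𝒪 S]

theorem isLocalHom_algebraMap_quotient [IsLocalHom (algebraMap 𝒪 S)] (hI : I ≠ ⊤) :
    IsLocalHom (algebraMap 𝒪 (S ⧸ I)) := by
  haveI := isLocalHom_mk I hI
  have : algebraMap 𝒪 (S ⧸ I) = (Ideal.Quotient.mk I).comp (algebraMap 𝒪 S) := rfl
  rw [this]
  exact RingHom.isLocalHom_comp _ _

theorem residue_surjective_quotient
    (hS : Function.Surjective (IsLocalRing.residue S ∘ algebraMap 𝒪 S)) (hI : I ≠ ⊤) :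
    haveI := isLocalRing_quotient I hI
    Function.Surjective (IsLocalRing.residue (S ⧸ I) ∘ algebraMap 𝒪 (S ⧸ I)) := by
  haveI := isLocalRing_quotient I hI
  intro x
  obtain ⟨r, rfl⟩ := IsLocalRing.residue_surjective x
  obtain ⟨s, rfl⟩ := Ideal.Quotient.mk_surjective r
  obtain ⟨a, ha⟩ := hS (IsLocalRing.residue S s)
  refine ⟨a, ?_⟩
  have h1 : algebraMap 𝒪 S a - s ∈ IsLocalRing.maximalIdeal S := by
    rw [← IsLocalRing.residue_eq_zero_iff, map_sub, sub_eq_zero]
    exact ha
  have h2 : Ideal.Quotient.mk I (algebraMap 𝒪 S a - s) ∈ IsLocalRing.maximalIdeal (S ⧸ I) := by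
    rw [maximalIdeal_quotient I hI]
    exact Ideal.mem_map_of_mem _ h1
  rw [← IsLocalRing.residue_eq_zero_iff, map_sub, map_sub, sub_eq_zero] at h2
  exact h2

end Quot

section PowerSeries

variable (𝒪 : Type*) [CommRing 𝒪] [IsLocalRing 𝒪] (d : ℕ)

theorem constantCoeff_algebraMap (a : 𝒪) :
    MvPowerSeries.constantCoeff (algebraMap 𝒪 (MvPowerSeries (Fin d) 𝒪) a) = a := by
  rw [MvPowerSeries.algebraMap_apply, MvPowerSeries.constantCoeff_C]
  rfl

theorem isLocalHom_algebraMap_mvPowerSeries :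
    IsLocalHom (algebraMap 𝒪 (MvPowerSeries (Fin d) 𝒪)) := by
  refine ⟨fun a ha => ?_⟩
  have := (MvPowerSeries.isUnit_iff_constantCoeff).1 ha
  rwa [constantCoeff_algebraMap] at this

theorem residue_surjective_mvPowerSeries :
    Function.Surjective (IsLocalRing.residue (MvPowerSeries (Fin d) 𝒪) ∘
      algebraMap 𝒪 (MvPowerSeries (Fin d) 𝒪)) := by
  intro x
  obtain ⟨s, rfl⟩ := IsLocalRing.residue_surjective x
  refine ⟨MvPowerSeries.constantCoeff s, ?_⟩
  show IsLocalRing.residue _ (algebraMap 𝒪 (MvPowerSeries (Fin d) 𝒪) _) = _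
  rw [← sub_eq_zero, ← map_sub, IsLocalRing.residue_eq_zero_iff, IsLocalRing.mem_maximalIdeal,
    mem_nonunits_iff, MvPowerSeries.isUnit_iff_constantCoeff, map_sub, constantCoeff_algebraMap,
    sub_self]
  exact not_isUnit_zero

end PowerSeries

end Fermat.Agent.S53Lib.T2
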