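/-
S53 sub-task T2 (helper9): abstract pro-representability.  Proves `nonempty_proRepData`
with the statement of the interface file `Lib/H7/S53IfaceT2.lean`.
-/
import Mathlib
import Fermat.Agent.Lib.H7.S53ProRepDefs
import Fermat.Agent.Lib.S53.S53T1
import Fermat.Agent.Lib.S53.S53T2Gen
import Fermat.Agent.Lib.S53.S53T2Psi
import Fermat.Agent.Lib.S53.S53T2Quot

set_option autoImplicit false

namespace Fermat.Agent.S53Lib

namespace T2

/-- Abstract construction of the dense map `Θ : U → R` out of compatible evaluation maps. -/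
theorem exists_theta
    {𝒪 : Type} [CommRing 𝒪] {U : Type} [CommRing U] [Algebra 𝒪 U]
    {R : Type} [CommRing R] [Algebra 𝒪 R] (M : Ideal R) [IsAdicComplete M R]
    {S : Type} [CommRing S] [Algebra 𝒪 S]
    (J : ℕ → Ideal U) (hJanti : Antitone J)
    (ψ : ∀ n, S →ₐ[𝒪] U ⧸ J n) (hψ : ∀ n, Function.Surjective (ψ n))
    (hψc : ∀ (a b : ℕ) (hab : a ≤ b) (s : S),
      Ideal.Quotient.factor (hJanti hab) (ψ b s) = ψ a s)
    (π : S →ₐ[𝒪] R) (hπ : Function.Surjective π)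
    (hker : ∀ n, RingHom.ker (ψ n) = (M ^ n).comap π) :
    ∃ Θ : U →ₐ[𝒪] R, (∀ n, (M ^ n).comap Θ.toRingHom = J n) ∧
      ∀ (n : ℕ) (r : R), ∃ u : U, r - Θ u ∈ M ^ n := by
  -- the projections `S → R ⧸ M ^ n`
  let π' : ∀ n, S →ₐ[𝒪] R ⧸ M ^ n := fun n => (Ideal.Quotient.mkₐ 𝒪 (M ^ n)).comp π
  have hπ'ker : ∀ n s, π' n s = 0 ↔ ψ n s = 0 := by
    intro n s
    have h1 : π' n s = 0 ↔ π s ∈ M ^ n := Ideal.Quotient.eq_zero_iff_mem
    have h2 : ψ n s = 0 ↔ s ∈ (M ^ n).comap π := by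
      rw [← hker n, RingHom.mem_ker]
    rw [h1, h2, Ideal.mem_comap]
  have H : ∀ n, RingHom.ker (ψ n).toRingHom ≤ RingHom.ker (π' n).toRingHom := by
    intro n s hs
    rw [RingHom.mem_ker] at hs ⊢
    exact (hπ'ker n s).2 hs
  let g : ∀ n, U ⧸ J n →ₐ[𝒪] R ⧸ M ^ n := fun n =>
    AlgHom.liftOfSurjective (ψ n) (hψ n) (π' n) (H n)
  have hg : ∀ n s, g n (ψ n s) = π' n s := fun n s =>
    AlgHom.liftOfSurjective_apply (ψ n) (hψ n) (π' n) (H n) s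
  let f : ∀ n, U →ₐ[𝒪] R ⧸ M ^ n := fun n => (g n).comp (Ideal.Quotient.mkₐ 𝒪 (J n))
  have hfspec : ∀ n (u : U) (s : S), ψ n s = Ideal.Quotient.mk (J n) u → f n u = π' n s := by
    intro n u s hs
    show g n (Ideal.Quotient.mk (J n) u) = π' n s
    rw [← hs, hg]
  have hf : ∀ {a b : ℕ} (hle : a ≤ b),
      (Ideal.Quotient.factorₐ 𝒪 (Ideal.pow_le_pow_right hle)).comp (f b) = f a := by
    intro a b hle
    ext u
    obtain ⟨s, hs⟩ := hψ b (Ideal.Quotient.mk _ u)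
    have hs' : ψ a s = Ideal.Quotient.mk (J a) u := by
      rw [← hψc a b hle s, hs, Ideal.Quotient.factor_mk]
    show Ideal.Quotient.factor (Ideal.pow_le_pow_right hle) (f b u) = f a u
    rw [hfspec _ u s hs, hfspec _ u s hs']
    show Ideal.Quotient.factor _ (Ideal.Quotient.mk _ (π s)) = Ideal.Quotient.mk _ (π s)
    rw [Ideal.Quotient.factor_mk]
  let Θ : U →ₐ[𝒪] R := IsAdicComplete.liftAlgHom M f hf
  have hΘ : ∀ n u, Ideal.Quotient.mk (M ^ n) (Θ u) = f n u := fun n u =>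
    IsAdicComplete.mk_liftAlgHom M f hf n u
  refine ⟨Θ, fun n => ?_, fun n r => ?_⟩
  · ext u
    rw [Ideal.mem_comap]
    show Θ u ∈ M ^ n ↔ u ∈ J n
    rw [← Ideal.Quotient.eq_zero_iff_mem, hΘ]
    obtain ⟨s, hs⟩ := hψ n (Ideal.Quotient.mk _ u)
    rw [hfspec n u s hs, hπ'ker, hs, Ideal.Quotient.eq_zero_iff_mem]
  · obtain ⟨s, rfl⟩ := hπ r
    obtain ⟨u, hu⟩ := Ideal.Quotient.mk_surjective (ψ n s)
    refine ⟨u, ?_⟩
    rw [← Ideal.Quotient.eq_zero_iff_mem, map_sub, hΘ, hfspec n u s hu.symm, sub_eq_zero]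
    rfl

/-- The pro-representing ring built from a chain of least ideals. -/
theorem proRepData_of_chain
    (𝒪 : Type) [CommRing 𝒪] [IsLocalRing 𝒪] [IsNoetherianRing 𝒪]
    [IsAdicComplete (IsLocalRing.maximalIdeal 𝒪) 𝒪]
    (U : Type) [CommRing U] [Algebra 𝒪 U] (m : Ideal U) [m.IsMaximal]
    (𝓘 : Set (Ideal U))
    (h_le : ∀ J ∈ 𝓘, J ≤ m)
    (h_pow : ∀ J ∈ 𝓘, ∃ n : ℕ, m ^ n ≤ J)
    (h_up : ∀ J ∈ 𝓘, ∀ J' : Ideal U, J ≤ J' → J' ≤ m → J' ∈ 𝓘)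
    {d : ℕ} (t : Fin d → U) (ht : ∀ i, t i ∈ m)
    (hsurj : ∀ J ∈ 𝓘, Function.Surjective (tau (𝒪 := 𝒪) t J))
    (J : ℕ → Ideal U) (hJpow : ∀ n, m ^ n ≤ J n) (hJmem : ∀ n, n ≠ 0 → J n ∈ 𝓘)
    (hJleast : ∀ n, ∀ J' ∈ 𝓘, m ^ n ≤ J' → J n ≤ J') :
    Nonempty (ProRepData 𝒪 U 𝓘) := by
  haveI : IsAdicComplete (IsLocalRing.maximalIdeal (MvPowerSeries (Fin d) 𝒪))
      (MvPowerSeries (Fin d) 𝒪) := mvPowerSeries_isAdicComplete 𝒪 d
  haveI : IsLocalHom (algebraMap 𝒪 (MvPowerSeries (Fin d) 𝒪)) :=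
    isLocalHom_algebraMap_mvPowerSeries 𝒪 d
  have hJ0 : J 0 = ⊤ := top_le_iff.1 (by simpa using hJpow 0)
  have hJanti : ∀ n, J (n + 1) ≤ J n := by
    intro n
    by_cases hn : n = 0
    · subst hn; rw [hJ0]; exact le_top
    · exact hJleast (n + 1) (J n) (hJmem n hn)
        ((Ideal.pow_le_pow_right (Nat.le_succ n)).trans (hJpow n))
  have hJanti' : Antitone J := antitone_nat_of_succ_le hJanti
  have hJstep : ∀ n, J n ≤ J (n + 1) ⊔ m ^ n := by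
    intro n
    by_cases hn : n = 0
    · subst hn; simp
    · refine hJleast n _ (h_up (J (n + 1)) (hJmem (n + 1) (Nat.succ_ne_zero n)) _ le_sup_left
        (sup_le (h_le _ (hJmem (n + 1) (Nat.succ_ne_zero n))) (Ideal.pow_le_self hn))) le_sup_right
  -- the evaluation maps
  let ψ : ∀ n, MvPowerSeries (Fin d) 𝒪 →ₐ[𝒪] U ⧸ J n := fun n =>
    psi m t ht (J n) n (hJpow n)
  have hψc : ∀ (a b : ℕ) (hab : a ≤ b) (s : MvPowerSeries (Fin d) 𝒪),
      Ideal.Quotient.factor (hJanti' hab) (ψ b s) = ψ a s :=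
    fun a b hab s => factor_psi m t ht (hJpow b) (hJpow a) (hJanti' hab) hab s
  have hψsurj : ∀ n, Function.Surjective (ψ n) := by
    intro n
    by_cases hn : n = 0
    · subst hn
      intro x
      haveI : Subsingleton (U ⧸ J 0) := Ideal.Quotient.subsingleton_iff.2 hJ0
      exact ⟨0, Subsingleton.elim _ _⟩
    · exact psi_surjective m t ht (J n) n (hJpow n) (hsurj (J n) (hJmem n hn))
  -- image of the maximal ideal
  have hmap : ∀ n, n ≠ 0 →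
      Ideal.map (ψ n) (IsLocalRing.maximalIdeal (MvPowerSeries (Fin d) 𝒪)) =
        m.map (Ideal.Quotient.mk (J n)) := by
    intro n hn
    have hle : J n ≤ m := h_le _ (hJmem n hn)
    have hmax : (m.map (Ideal.Quotient.mk (J n))).IsMaximal := by
      rcases Ideal.map_eq_top_or_isMaximal_of_surjective (Ideal.Quotient.mk (J n))
        Ideal.Quotient.mk_surjective (inferInstance : m.IsMaximal) with h | h
      · exfalso
        have h1 := Ideal.comap_map_of_surjective (Ideal.Quotient.mk (J n))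
          Ideal.Quotient.mk_surjective m
        rw [h, Ideal.comap_top, ← RingHom.ker_eq_comap_bot, Ideal.mk_ker, sup_eq_left.2 hle] at h1
        exact (inferInstance : m.IsMaximal).ne_top h1.symm
      · exact h
    haveI := hmax
    have hcm : ((m.map (Ideal.Quotient.mk (J n))).comap (ψ n)).IsMaximal :=
      Ideal.comap_isMaximal_of_surjective (ψ n) (hψsurj n)
    rw [← IsLocalRing.eq_maximalIdeal hcm, Ideal.map_comap_of_surjective (ψ n) (hψsurj n)]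
  -- the kernels
  obtain ⟨b, hb⟩ : ∃ b : ℕ → Ideal (MvPowerSeries (Fin d) 𝒪), ∀ n, b n = RingHom.ker (ψ n) :=
    ⟨fun n => RingHom.ker (ψ n), fun _ => rfl⟩
  have hb_mem : ∀ n s, s ∈ b n ↔ ψ n s = 0 := by
    intro n s; rw [hb, RingHom.mem_ker]
  have hb0 : b 0 = ⊤ := by
    rw [Ideal.eq_top_iff_one, hb_mem]
    haveI : Subsingleton (U ⧸ J 0) := Ideal.Quotient.subsingleton_iff.2 hJ0
    exact Subsingleton.elim _ _
  have hb_anti : ∀ n, b (n + 1) ≤ b n := by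
    intro n s hs
    rw [hb_mem] at hs ⊢
    rw [← hψc n (n + 1) (Nat.le_succ n) s, hs, map_zero]
  have hb_pow : ∀ n, IsLocalRing.maximalIdeal (MvPowerSeries (Fin d) 𝒪) ^ n ≤ b n := by
    intro n
    by_cases hn : n = 0
    · subst hn; rw [hb0]; exact le_top
    · intro s hs
      rw [hb_mem]
      have h1 := Ideal.mem_map_of_mem (ψ n) hs
      rw [Ideal.map_pow, hmap n hn, ← Ideal.map_pow] at h1
      have h2 := Ideal.map_mono (f := Ideal.Quotient.mk (J n)) (hJpow n) h1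
      rwa [Ideal.map_quotient_self, Ideal.mem_bot] at h2
  have hb_step : ∀ n, b n ≤ b (n + 1) ⊔
      IsLocalRing.maximalIdeal (MvPowerSeries (Fin d) 𝒪) ^ n := by
    intro n
    by_cases hn : n = 0
    · subst hn; simp
    · intro s hs
      rw [hb_mem] at hs
      obtain ⟨u, hu⟩ := Ideal.Quotient.mk_surjective (ψ (n + 1) s)
      have h1 : u ∈ J n := by
        rw [← Ideal.Quotient.eq_zero_iff_mem, ← hs, ← hψc n (n + 1) (Nat.le_succ n) s, ← hu,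
          Ideal.Quotient.factor_mk]
      obtain ⟨j, hj, w, hw, hjw⟩ := Submodule.mem_sup.1 (hJstep n h1)
      have h2 : ψ (n + 1) s = Ideal.Quotient.mk (J (n + 1)) w := by
        rw [← hu, ← hjw, map_add, Ideal.Quotient.eq_zero_iff_mem.2 hj, zero_add]
      have h3 : ψ (n + 1) s ∈ Ideal.map (ψ (n + 1))
          (IsLocalRing.maximalIdeal (MvPowerSeries (Fin d) 𝒪) ^ n) := by
        rw [Ideal.map_pow, hmap (n + 1) (Nat.succ_ne_zero n), ← Ideal.map_pow, h2]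
        exact Ideal.mem_map_of_mem _ hw
      obtain ⟨s', hs', hs'eq⟩ := (Ideal.mem_map_iff_of_surjective (ψ (n + 1))
        (hψsurj (n + 1))).1 h3
      refine Submodule.mem_sup.2 ⟨s - s', ?_, s', hs', by ring⟩
      rw [hb_mem, map_sub, hs'eq, sub_self]
  have hb_le := le_iInf_sup_pow (IsLocalRing.maximalIdeal (MvPowerSeries (Fin d) 𝒪)) b
    hb_anti hb_pow hb_step
  obtain ⟨I, hI⟩ : ∃ I : Ideal (MvPowerSeries (Fin d) 𝒪), I = ⨅ k, b k := ⟨_, rfl⟩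
  rw [← hI] at hb_le
  have hIb : ∀ n, I ≤ b n := fun n => hI ▸ iInf_le b n
  have hkey : ∀ n, b n = IsLocalRing.maximalIdeal (MvPowerSeries (Fin d) 𝒪) ^ n ⊔ I := by
    intro n
    refine le_antisymm ?_ (sup_le (hb_pow n) (hIb n))
    rw [sup_comm]; exact hb_le n
  have hItop : I ≠ ⊤ := by
    intro h
    have h1 : (1 : MvPowerSeries (Fin d) 𝒪) ∈ b 1 := hIb 1 (h ▸ Submodule.mem_top)
    rw [hb_mem, map_one] at h1
    have h2 : J 1 ≠ ⊤ := fun h' =>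
      (inferInstance : m.IsMaximal).ne_top (top_le_iff.1 (h' ▸ h_le _ (hJmem 1 one_ne_zero)))
    haveI := Ideal.Quotient.nontrivial_iff.2 h2
    exact one_ne_zero h1
  -- the ring
  haveI := isLocalRing_quotient I hItop
  haveI := isAdicComplete_quotient I hItop
  haveI : IsLocalHom (algebraMap 𝒪 (MvPowerSeries (Fin d) 𝒪 ⧸ I)) :=
    isLocalHom_algebraMap_quotient (𝒪 := 𝒪) I hItop
  have hker : ∀ n, RingHom.ker (ψ n) =
      (IsLocalRing.maximalIdeal (MvPowerSeries (Fin d) 𝒪 ⧸ I) ^ n).comap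
        (Ideal.Quotient.mkₐ 𝒪 I) := by
    intro n
    rw [← hb n, hkey n, ← comap_maximalIdeal_pow_quotient I hItop n]
    rfl
  obtain ⟨Θ, hΘ, hdense⟩ := exists_theta
    (IsLocalRing.maximalIdeal (MvPowerSeries (Fin d) 𝒪 ⧸ I)) J hJanti' ψ hψsurj hψc
    (Ideal.Quotient.mkₐ 𝒪 I) (Ideal.Quotient.mkₐ_surjective 𝒪 I) hker
  exact ⟨{
    R := MvPowerSeries (Fin d) 𝒪 ⧸ I
    residue_surjective :=
      residue_surjective_quotient I (residue_surjective_mvPowerSeries 𝒪 d) hItop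
    Θ := Θ
    comap_mem := fun n => by rw [hΘ]; exact hJmem (n + 1) (Nat.succ_ne_zero n)
    dense := hdense
    cofinal := fun J' hJ' => by
      obtain ⟨n, hn⟩ := h_pow J' hJ'
      exact ⟨n, by rw [hΘ]; exact hJleast n J' hJ' hn⟩ }⟩

end T2

/-- T2: abstract pro-representability. -/
theorem nonempty_proRepData
    (𝒪 : Type) [CommRing 𝒪] [IsLocalRing 𝒪] [IsNoetherianRing 𝒪]
    [IsAdicComplete (IsLocalRing.maximalIdeal 𝒪) 𝒪] [Finite (IsLocalRing.ResidueField 𝒪)]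
    (U : Type) [CommRing U] [Algebra 𝒪 U] (m : Ideal U) [m.IsMaximal]
    (hres : Function.Surjective ((Ideal.Quotient.mk m).comp (algebraMap 𝒪 U)))
    (𝓘 : Set (Ideal U))
    (h_le : ∀ J ∈ 𝓘, J ≤ m)
    (h_fin : ∀ J ∈ 𝓘, Finite (U ⧸ J))
    (h_pow : ∀ J ∈ 𝓘, ∃ n : ℕ, m ^ n ≤ J)
    (h_inf : ∀ J ∈ 𝓘, ∀ J' ∈ 𝓘, J ⊓ J' ∈ 𝓘)
    (h_up : ∀ J ∈ 𝓘, ∀ J' : Ideal U, J ≤ J' → J' ≤ m → J' ∈ 𝓘)
    (h_top : m ∈ 𝓘)
    (h_tan : ∃ J₂ ∈ 𝓘, ∀ J ∈ 𝓘,
      J₂ ≤ J ⊔ m ^ 2 ⊔ (IsLocalRing.maximalIdeal 𝒪).map (algebraMap 𝒪 U)) :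
    Nonempty (ProRepData 𝒪 U 𝓘) := by
  obtain ⟨d, t, ht, hsurj⟩ := T2.exists_generators 𝒪 U m hres 𝓘 h_fin h_pow h_tan
  have hleast : ∀ n : ℕ, ∃ J : Ideal U, m ^ n ≤ J ∧ (n ≠ 0 → J ∈ 𝓘) ∧
      ∀ J' ∈ 𝓘, m ^ n ≤ J' → J ≤ J' := by
    intro n
    by_cases hn : n = 0
    · subst hn
      refine ⟨⊤, le_top, fun h => absurd rfl h, fun J' _ hJ' => ?_⟩
      simpa using hJ'
    · obtain ⟨J, hJ, hJpow, hJl⟩ := T2.exists_least (𝒪 := 𝒪) m 𝓘 h_le h_fin h_inf h_top t hsurj n hn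
      exact ⟨J, hJpow, fun _ => hJ, hJl⟩
  choose J hJpow hJmem hJleast using hleast
  exact T2.proRepData_of_chain 𝒪 U m 𝓘 h_le h_pow h_up t ht hsurj J hJpow hJmem hJleast

end Fermat.Agent.S53Lib
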