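import Mathlib

/-!
# Slice lemmas for 2x2 matrix representations over local rings (S53 library)

Pure matrix statements: `EI` (entries in an ideal), the 3x3 linear system attached to three
commutator entries, Newton iteration (existence of a slice representative) and uniqueness.
-/

namespace Fermat.Agent.LibS53

open Matrix IsLocalRing

local notation "M2" => Matrix (Fin 2) (Fin 2)

section EI

variable {A : Type*} [CommRing A]

/-- All entries of a 2x2 matrix lie in the ideal `I`. -/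
def EI (I : Ideal A) (M : M2 A) : Prop := ∀ i j, M i j ∈ I

theorem EI.zero (I : Ideal A) : EI I (0 : M2 A) := fun _ _ => I.zero_mem

theorem EI.add {I : Ideal A} {M N : M2 A} (hM : EI I M) (hN : EI I N) : EI I (M + N) :=
  fun i j => I.add_mem (hM i j) (hN i j)

theorem EI.sub {I : Ideal A} {M N : M2 A} (hM : EI I M) (hN : EI I N) : EI I (M - N) :=
  fun i j => I.sub_mem (hM i j) (hN i j)

theorem EI.neg {I : Ideal A} {M : M2 A} (hM : EI I M) : EI I (-M) :=
  fun i j => I.neg_mem (hM i j)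

theorem EI.mono {I J : Ideal A} (h : I ≤ J) {M : M2 A} (hM : EI I M) : EI J M :=
  fun i j => h (hM i j)

theorem EI.mul_left {I : Ideal A} {M : M2 A} (hM : EI I M) (N : M2 A) : EI I (N * M) := by
  intro i j
  rw [Matrix.mul_apply]
  exact I.sum_mem fun l _ => I.mul_mem_left _ (hM l j)

theorem EI.mul_right {I : Ideal A} {M : M2 A} (hM : EI I M) (N : M2 A) : EI I (M * N) := by
  intro i j
  rw [Matrix.mul_apply]
  exact I.sum_mem fun l _ => I.mul_mem_right _ (hM i l)

theorem EI.mul {I J : Ideal A} {M N : M2 A} (hM : EI I M) (hN : EI J N) : EI (I * J) (M * N) := by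
  intro i j
  rw [Matrix.mul_apply]
  exact (I * J).sum_mem fun l _ => Ideal.mul_mem_mul (hM i l) (hN l j)

theorem EI.smul {I : Ideal A} {M : M2 A} (hM : EI I M) (a : A) : EI I (a • M) := by
  intro i j
  rw [Matrix.smul_apply, smul_eq_mul]
  exact I.mul_mem_left _ (hM i j)

end EI

section Lam

variable {A : Type*} [CommRing A]

/-- The matrix `!![0, x 0; x 1, x 2]`: a complement of the scalar matrices. -/
def offMat (x : Fin 3 → A) : M2 A := !![0, x 0; x 1, x 2]

theorem EI_offMat {I : Ideal A} {x : Fin 3 → A} (hx : ∀ c, x c ∈ I) : EI I (offMat x) := by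
  intro i j
  fin_cases i <;> fin_cases j <;> simp [offMat, hx]

/-- The three commutator entries `(X * N j - N j * X) (ab j).1 (ab j).2`. -/
def commVec (N : Fin 3 → M2 A) (ab : Fin 3 → Fin 2 × Fin 2) (X : M2 A) : Fin 3 → A :=
  fun j => (X * N j - N j * X) (ab j).1 (ab j).2

/-- The 3x3 matrix of the linear map `x ↦ commVec N ab (offMat x)`. -/
def slLam (N : Fin 3 → M2 A) (ab : Fin 3 → Fin 2 × Fin 2) : Matrix (Fin 3) (Fin 3) A :=
  Matrix.of fun j c => commVec N ab (offMat (Pi.single c 1)) j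

theorem offMat_eq_sum (x : Fin 3 → A) :
    offMat x = x 0 • offMat (Pi.single 0 1) + x 1 • offMat (Pi.single 1 1)
      + x 2 • offMat (Pi.single 2 1) := by
  ext i j
  fin_cases i <;> fin_cases j <;> simp [offMat]

theorem commVec_add (N : Fin 3 → M2 A) (ab : Fin 3 → Fin 2 × Fin 2) (X Y : M2 A) :
    commVec N ab (X + Y) = commVec N ab X + commVec N ab Y := by
  funext j
  simp only [commVec, Pi.add_apply, add_mul, mul_add, Matrix.sub_apply, Matrix.add_apply]
  ring

theorem commVec_smul (N : Fin 3 → M2 A) (ab : Fin 3 → Fin 2 × Fin 2) (a : A) (X : M2 A) :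
    commVec N ab (a • X) = a • commVec N ab X := by
  funext j
  simp only [commVec, Pi.smul_apply, Matrix.smul_mul, Matrix.mul_smul, Matrix.sub_apply,
    Matrix.smul_apply, smul_eq_mul]
  ring

theorem commVec_one (N : Fin 3 → M2 A) (ab : Fin 3 → Fin 2 × Fin 2) :
    commVec N ab 1 = 0 := by
  funext j
  simp [commVec]

theorem commVec_offMat (N : Fin 3 → M2 A) (ab : Fin 3 → Fin 2 × Fin 2) (x : Fin 3 → A) :
    commVec N ab (offMat x) = (slLam N ab).mulVec x := by
  rw [offMat_eq_sum, commVec_add, commVec_add, commVec_smul, commVec_smul, commVec_smul]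
  funext j
  simp only [Pi.add_apply, Pi.smul_apply, smul_eq_mul, Matrix.mulVec, dotProduct,
    Fin.sum_univ_three, slLam, Matrix.of_apply]
  ring

/-- Decomposition of a matrix into scalar part and `offMat` part. -/
theorem eq_smul_one_add_offMat (U : M2 A) :
    U = U 0 0 • (1 : M2 A) + offMat ![U 0 1, U 1 0, U 1 1 - U 0 0] := by
  ext i j
  fin_cases i <;> fin_cases j <;> simp [offMat]

theorem commVec_eq_offMat (N : Fin 3 → M2 A) (ab : Fin 3 → Fin 2 × Fin 2) (U : M2 A) :
    commVec N ab U = (slLam N ab).mulVec ![U 0 1, U 1 0, U 1 1 - U 0 0] := by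
  conv_lhs => rw [eq_smul_one_add_offMat U]
  rw [commVec_add, commVec_smul, commVec_one, smul_zero, zero_add, commVec_offMat]

theorem mulVec_mem_of_mem {n : Type*} [Fintype n] {I : Ideal A} (L : Matrix n n A) {x : n → A}
    (hx : ∀ c, x c ∈ I) (j : n) : L.mulVec x j ∈ I := by
  simp only [Matrix.mulVec, dotProduct]
  exact I.sum_mem fun c _ => I.mul_mem_left _ (hx c)

/-- If `det L` is a unit and `L x ∈ I^3` then `x ∈ I^3`. -/
theorem mem_of_mulVec_mem {n : Type*} [Fintype n] [DecidableEq n] {I : Ideal A}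
    {L : Matrix n n A} (hL : IsUnit L.det) {x : n → A}
    (hx : ∀ j, L.mulVec x j ∈ I) (c : n) : x c ∈ I := by
  have h : x = L⁻¹.mulVec (L.mulVec x) := by
    rw [Matrix.mulVec_mulVec, Matrix.nonsing_inv_mul _ hL, Matrix.one_mulVec]
  rw [h]
  exact mulVec_mem_of_mem _ hx c

/-- Solve `L x = v` with `x ∈ I^3` when `v ∈ I^3` and `det L` is a unit. -/
theorem exists_mulVec_eq {n : Type*} [Fintype n] [DecidableEq n] {I : Ideal A}
    {L : Matrix n n A} (hL : IsUnit L.det) {v : n → A} (hv : ∀ j, v j ∈ I) :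
    ∃ x : n → A, (∀ c, x c ∈ I) ∧ L.mulVec x = v :=
  ⟨L⁻¹.mulVec v, fun c => mulVec_mem_of_mem _ hv c, by
    rw [Matrix.mulVec_mulVec, Matrix.mul_nonsing_inv _ hL, Matrix.one_mulVec]⟩

theorem offMat_map {B : Type*} [CommRing B] (φ : A →+* B) (x : Fin 3 → A) :
    (offMat x).map φ = offMat (fun c => φ (x c)) := by
  ext i j
  fin_cases i <;> fin_cases j <;> simp [offMat]

theorem slLam_map {B : Type*} [CommRing B] (φ : A →+* B) (N : Fin 3 → M2 A)
    (ab : Fin 3 → Fin 2 × Fin 2) :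
    slLam (fun j => (N j).map φ) ab = (slLam N ab).map φ := by
  ext j c
  have h1 : offMat (Pi.single c (1 : B)) = (offMat (Pi.single c (1 : A))).map φ := by
    rw [offMat_map]
    congr 1
    funext c'
    by_cases h : c' = c
    · subst h; simp
    · simp [h]
  simp only [slLam, Matrix.of_apply, commVec, Matrix.map_apply, h1]
  rw [← Matrix.map_mul, ← Matrix.map_mul, Matrix.sub_apply, Matrix.sub_apply, Matrix.map_apply,
    Matrix.map_apply, map_sub]

end Lam

section Local

variable {A : Type*} [CommRing A] [IsLocalRing A]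

theorem map_residue_eq_of_EI {M M' : M2 A} (h : EI (maximalIdeal A) (M - M')) :
    M.map (residue A) = M'.map (residue A) := by
  ext i j
  simp only [Matrix.map_apply]
  have := h i j
  rw [Matrix.sub_apply, ← residue_eq_zero_iff, map_sub, sub_eq_zero] at this
  exact this

theorem isUnit_det_slLam_congr {N N' : Fin 3 → M2 A} (ab : Fin 3 → Fin 2 × Fin 2)
    (h : ∀ j, EI (maximalIdeal A) (N j - N' j)) (hN : IsUnit (slLam N ab).det) :
    IsUnit (slLam N' ab).det := by
  have e : (fun j => (N j).map (residue A)) = fun j => (N' j).map (residue A) :=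
    funext fun j => map_residue_eq_of_EI (h j)
  have h1 : residue A (slLam N ab).det = residue A (slLam N' ab).det := by
    rw [RingHom.map_det, RingHom.map_det, RingHom.mapMatrix_apply, RingHom.mapMatrix_apply,
      ← slLam_map, ← slLam_map, e]
  rw [← residue_ne_zero_iff_isUnit] at hN ⊢
  rwa [← h1]

/-- A 2x2 matrix congruent to `1` modulo the maximal ideal is invertible. -/
theorem isUnit_of_EI_sub_one {U : M2 A} (h : EI (maximalIdeal A) (U - 1)) : IsUnit U := by
  rw [Matrix.isUnit_iff_isUnit_det, ← residue_ne_zero_iff_isUnit, RingHom.map_det,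
    RingHom.mapMatrix_apply, map_residue_eq_of_EI h]
  simp

end Local

section Unique

variable {A : Type*} [CommRing A] [IsLocalRing A] {G : Type*} [Group G]

/-- **Slice uniqueness.** Two representations in the same slice which are congruent modulo the
maximal ideal and conjugate are equal. -/
theorem slice_unique [IsHausdorff (maximalIdeal A) A]
    (r r' : G →* M2 A) (g : Fin 3 → G) (ab : Fin 3 → Fin 2 × Fin 2)
    (hΛ : IsUnit (slLam (fun j => r (g j)) ab).det)
    (hslice : ∀ j, r (g j) (ab j).1 (ab j).2 = r' (g j) (ab j).1 (ab j).2)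
    (hcong : ∀ σ, EI (maximalIdeal A) (r' σ - r σ))
    (U : M2 A) (hU : IsUnit U) (hUr : ∀ σ, U * r σ = r' σ * U) : r = r' := by
  obtain ⟨Uu, hUu⟩ := hU
  set x : Fin 3 → A := ![U 0 1, U 1 0, U 1 1 - U 0 0] with hx
  have hdec : U = U 0 0 • (1 : M2 A) + offMat x := eq_smul_one_add_offMat U
  have hcomm : ∀ σ, U * r σ - r σ * U = (r' σ - r σ) * U := fun σ => by rw [sub_mul, hUr σ]
  have hcomm' : ∀ σ, U * r σ - r σ * U = offMat x * r σ - r σ * offMat x := by
    intro σ
    conv_lhs => rw [hdec]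
    rw [add_mul, mul_add, Matrix.smul_mul, Matrix.mul_smul, one_mul, mul_one]
    abel
  have hv : ∀ j, (slLam (fun j => r (g j)) ab).mulVec x j
      = ((r' (g j) - r (g j)) * U) (ab j).1 (ab j).2 := by
    intro j
    rw [← commVec_eq_offMat]
    simp only [commVec]
    rw [hcomm]
  have key : ∀ n : ℕ, 1 ≤ n →
      (∀ σ, EI (maximalIdeal A ^ n) (r' σ - r σ)) ∧ ∀ c, x c ∈ maximalIdeal A ^ n := by
    intro n hn
    induction n, hn using Nat.le_induction with
    | base =>
      refine ⟨fun σ => by simpa using hcong σ, ?_⟩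
      refine mem_of_mulVec_mem hΛ (fun j => ?_)
      rw [hv j, pow_one]
      exact (hcong (g j)).mul_right U _ _
    | succ n hn ih =>
      obtain ⟨hD, hxn⟩ := ih
      have hle : maximalIdeal A ^ n * maximalIdeal A ^ n ≤ maximalIdeal A ^ (n + 1) := by
        rw [← pow_add]; exact Ideal.pow_le_pow_right (by omega)
      have hx' : ∀ c, x c ∈ maximalIdeal A ^ (n + 1) := by
        refine mem_of_mulVec_mem hΛ (fun j => ?_)
        rw [hv j]
        have h1 : ((r' (g j) - r (g j)) * U) (ab j).1 (ab j).2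
            = ((r' (g j) - r (g j)) * offMat x) (ab j).1 (ab j).2 := by
          conv_lhs => rw [hdec]
          rw [mul_add, Matrix.add_apply, Matrix.mul_smul, mul_one, Matrix.smul_apply,
            Matrix.sub_apply, hslice j, sub_self, smul_zero, zero_add]
        rw [h1]
        exact hle ((hD (g j)).mul (EI_offMat hxn) _ _)
      refine ⟨fun σ => ?_, hx'⟩
      have hEI : EI (maximalIdeal A ^ (n + 1)) (offMat x * r σ - r σ * offMat x) :=
        ((EI_offMat hx').mul_right _).sub ((EI_offMat hx').mul_left _)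
      have h2 : r' σ - r σ = (offMat x * r σ - r σ * offMat x) * ((Uu⁻¹ : (M2 A)ˣ) : M2 A) := by
        rw [← hcomm' σ, hcomm σ, ← hUu, mul_assoc, Units.mul_inv, mul_one]
      rw [h2]
      exact hEI.mul_right _
  apply MonoidHom.ext
  intro σ
  ext i j
  have h0 : r' σ i j - r σ i j = 0 := by
    apply IsHausdorff.haus ‹IsHausdorff (maximalIdeal A) A›
    intro n
    rw [SModEq.zero, smul_eq_mul, Ideal.mul_top]
    rcases Nat.eq_zero_or_pos n with rfl | hn
    · simp
    · exact (key n hn).1 σ i j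
  exact (sub_eq_zero.mp h0).symm

end Unique

section Exists

variable {A : Type*} [CommRing A] [IsLocalRing A]

/-- One Newton step: if the slice error lies in `I`, conjugating by a suitable `V ≡ 1 mod I`
puts the error into `I * I`. -/
theorem newton_step (N : Fin 3 → M2 A) (ab : Fin 3 → Fin 2 × Fin 2) (γ : Fin 3 → A)
    (I : Ideal A) (hI : I ≤ maximalIdeal A)
    (hΛ : IsUnit (slLam N ab).det) (herr : ∀ j, N j (ab j).1 (ab j).2 - γ j ∈ I) :
    ∃ V : (M2 A)ˣ, EI I ((V : M2 A) - 1) ∧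
      ∀ j, ((V : M2 A) * N j * ((V⁻¹ : (M2 A)ˣ) : M2 A)) (ab j).1 (ab j).2 - γ j ∈ I * I := by
  obtain ⟨x, hxI, hx⟩ := exists_mulVec_eq hΛ (v := fun j => -(N j (ab j).1 (ab j).2 - γ j))
    (fun j => I.neg_mem (herr j))
  have hX : EI I (offMat x) := EI_offMat hxI
  have hV1 : EI (maximalIdeal A) ((1 + offMat x) - 1) := by
    rw [add_sub_cancel_left]; exact hX.mono hI
  obtain ⟨V, hV⟩ := isUnit_of_EI_sub_one hV1
  refine ⟨V, by rw [hV, add_sub_cancel_left]; exact hX, fun j => ?_⟩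
  have hid : (V : M2 A) * N j * ((V⁻¹ : (M2 A)ˣ) : M2 A)
      = N j + (offMat x * N j - N j * offMat x)
        - (offMat x * N j - N j * offMat x) * offMat x * ((V⁻¹ : (M2 A)ˣ) : M2 A) := by
    have h1 : (V : M2 A) * N j
        = (N j + (offMat x * N j - N j * offMat x)
          - (offMat x * N j - N j * offMat x) * offMat x * ((V⁻¹ : (M2 A)ˣ) : M2 A)) * V := by
      rw [sub_mul, mul_assoc _ ((V⁻¹ : (M2 A)ˣ) : M2 A) (V : M2 A), Units.inv_mul, mul_one, hV]
      noncomm_ring
    rw [h1, mul_assoc, Units.mul_inv, mul_one]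
  rw [hid, Matrix.sub_apply, Matrix.add_apply]
  have h3 : (offMat x * N j - N j * offMat x) (ab j).1 (ab j).2
      = -(N j (ab j).1 (ab j).2 - γ j) := by
    have := congrFun (commVec_offMat N ab x) j
    rw [hx] at this
    exact this
  rw [h3]
  have h4 : EI (I * I) ((offMat x * N j - N j * offMat x) * offMat x
      * ((V⁻¹ : (M2 A)ˣ) : M2 A)) :=
    (((hX.mul_right _).sub (hX.mul_left _)).mul hX).mul_right _
  have h5 := (I * I).neg_mem (h4 (ab j).1 (ab j).2)
  convert h5 using 1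
  ring

omit [IsLocalRing A] in
theorem inv_sub_inv_eq (U U' : (M2 A)ˣ) :
    ((U⁻¹ : (M2 A)ˣ) : M2 A) - ((U'⁻¹ : (M2 A)ˣ) : M2 A)
      = ((U⁻¹ : (M2 A)ˣ) : M2 A) * ((U' : M2 A) - U) * ((U'⁻¹ : (M2 A)ˣ) : M2 A) := by
  rw [mul_sub, sub_mul, Units.inv_mul, one_mul, mul_assoc, Units.mul_inv, mul_one]

omit [IsLocalRing A] in
/-- Conjugation respects congruences. -/
theorem EI_conj_sub_conj {I : Ideal A} (U U' : (M2 A)ˣ) (h : EI I ((U : M2 A) - U')) (N : M2 A) :
    EI I ((U : M2 A) * N * ((U⁻¹ : (M2 A)ˣ) : M2 A)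
      - (U' : M2 A) * N * ((U'⁻¹ : (M2 A)ˣ) : M2 A)) := by
  have e : (U : M2 A) * N * ((U⁻¹ : (M2 A)ˣ) : M2 A)
      - (U' : M2 A) * N * ((U'⁻¹ : (M2 A)ˣ) : M2 A)
      = ((U : M2 A) - U') * N * ((U⁻¹ : (M2 A)ˣ) : M2 A)
        + (U' : M2 A) * N * (((U⁻¹ : (M2 A)ˣ) : M2 A) - ((U'⁻¹ : (M2 A)ˣ) : M2 A)) := by
    noncomm_ring
  rw [e, inv_sub_inv_eq]
  refine ((h.mul_right _).mul_right _).add (EI.mul_left ?_ _)
  have h' : EI I ((U' : M2 A) - U) := by
    have := h.neg
    rwa [neg_sub] at this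
  exact (h'.mul_left _).mul_right _

variable {G : Type*} [Group G]

omit [IsLocalRing A] in
theorem EI_conj_sub_self (U : (M2 A)ˣ) {I : Ideal A} (h : EI I ((U : M2 A) - 1)) (N : M2 A) :
    EI I ((U : M2 A) * N * ((U⁻¹ : (M2 A)ˣ) : M2 A) - N) := by
  have := EI_conj_sub_conj U 1 (by simpa using h) N
  simpa using this

theorem newton_iter_step_mat (N : Fin 3 → M2 A) (ab : Fin 3 → Fin 2 × Fin 2)
    (γ : Fin 3 → A) (hΛ : IsUnit (slLam N ab).det) (n : ℕ)
    (U : (M2 A)ˣ) (hU1 : EI (maximalIdeal A) ((U : M2 A) - 1))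
    (herr : ∀ j, ((U : M2 A) * N j * ((U⁻¹ : (M2 A)ˣ) : M2 A)) (ab j).1 (ab j).2 - γ j
      ∈ maximalIdeal A ^ (n + 1)) :
    ∃ U' : (M2 A)ˣ, EI (maximalIdeal A) ((U' : M2 A) - 1) ∧
      EI (maximalIdeal A ^ (n + 1)) ((U' : M2 A) - U) ∧
      ∀ j, ((U' : M2 A) * N j * ((U'⁻¹ : (M2 A)ˣ) : M2 A)) (ab j).1 (ab j).2 - γ j
        ∈ maximalIdeal A ^ (n + 2) := by
  have hle : maximalIdeal A ^ (n + 1) ≤ maximalIdeal A := Ideal.pow_le_self (by omega)
  have hΛ' : IsUnit (slLam (fun j => (U : M2 A) * N j * ((U⁻¹ : (M2 A)ˣ) : M2 A)) ab).det := by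
    refine isUnit_det_slLam_congr ab (fun j => ?_) hΛ
    have := (EI_conj_sub_self U hU1 (N j)).neg
    rwa [neg_sub] at this
  obtain ⟨V, hV1, hVerr⟩ := newton_step _ ab γ (maximalIdeal A ^ (n + 1)) hle hΛ' herr
  refine ⟨V * U, ?_, ?_, fun j => ?_⟩
  · have e : ((V * U : (M2 A)ˣ) : M2 A) - 1 = ((V : M2 A) - 1) * U + ((U : M2 A) - 1) := by
      rw [Units.val_mul]; noncomm_ring
    rw [e]
    exact ((hV1.mono hle).mul_right _).add hU1
  · have e : ((V * U : (M2 A)ˣ) : M2 A) - U = ((V : M2 A) - 1) * U := by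
      rw [Units.val_mul]; noncomm_ring
    rw [e]
    exact hV1.mul_right _
  · have e : ((V * U : (M2 A)ˣ) : M2 A) * N j * (((V * U)⁻¹ : (M2 A)ˣ) : M2 A)
        = (V : M2 A) * ((U : M2 A) * N j * ((U⁻¹ : (M2 A)ˣ) : M2 A))
          * ((V⁻¹ : (M2 A)ˣ) : M2 A) := by
      rw [_root_.mul_inv_rev, Units.val_mul, Units.val_mul]; noncomm_ring
    rw [e]
    have hle2 : maximalIdeal A ^ (n + 1) * maximalIdeal A ^ (n + 1) ≤ maximalIdeal A ^ (n + 2) := by
      rw [← pow_add]; exact Ideal.pow_le_pow_right (by omega)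
    exact hle2 (hVerr j)

/-- **Slice existence (matrix form).** Over a complete local ring, a triple of matrices whose
slice entries are congruent to the prescribed values modulo the maximal ideal can be conjugated
(by a matrix congruent to `1`) into the slice. -/
theorem slice_exists_mat [IsAdicComplete (maximalIdeal A) A]
    (N : Fin 3 → M2 A) (ab : Fin 3 → Fin 2 × Fin 2) (γ : Fin 3 → A)
    (hΛ : IsUnit (slLam N ab).det)
    (herr : ∀ j, N j (ab j).1 (ab j).2 - γ j ∈ maximalIdeal A) :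
    ∃ U : (M2 A)ˣ, EI (maximalIdeal A) ((U : M2 A) - 1) ∧
      ∀ j, ((U : M2 A) * N j * ((U⁻¹ : (M2 A)ˣ) : M2 A)) (ab j).1 (ab j).2 = γ j := by
  classical
  let P : ℕ → (M2 A)ˣ → Prop := fun n U => EI (maximalIdeal A) ((U : M2 A) - 1) ∧
    ∀ j, ((U : M2 A) * N j * ((U⁻¹ : (M2 A)ˣ) : M2 A)) (ab j).1 (ab j).2 - γ j
      ∈ maximalIdeal A ^ (n + 1)
  have hP0 : P 0 1 := by
    refine ⟨by simpa using EI.zero _, fun j => ?_⟩
    simpa using herr j
  have hstep : ∀ n (U : {U // P n U}), ∃ U' : (M2 A)ˣ, P (n + 1) U' ∧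
      EI (maximalIdeal A ^ (n + 1)) ((U' : M2 A) - U.1) := by
    intro n U
    obtain ⟨U', h1, h2, h3⟩ := newton_iter_step_mat N ab γ hΛ n U.1 U.2.1 U.2.2
    exact ⟨U', ⟨h1, h3⟩, h2⟩
  let seq : ∀ n, {U // P n U} := fun n =>
    Nat.rec ⟨1, hP0⟩ (fun n U => ⟨(hstep n U).choose, (hstep n U).choose_spec.1⟩) n
  have hseq : ∀ n, EI (maximalIdeal A ^ (n + 1))
      (((seq (n + 1)).1 : M2 A) - ((seq n).1 : M2 A)) := fun n => (hstep n (seq n)).choose_spec.2
  have hcauchy : ∀ m n, m ≤ n → EI (maximalIdeal A ^ m)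
      (((seq n).1 : M2 A) - ((seq m).1 : M2 A)) := by
    intro m n hmn
    induction n, hmn using Nat.le_induction with
    | base => rw [sub_self]; exact EI.zero _
    | succ n hmn ih =>
      have e : ((seq (n + 1)).1 : M2 A) - ((seq m).1 : M2 A)
          = (((seq (n + 1)).1 : M2 A) - ((seq n).1 : M2 A))
            + (((seq n).1 : M2 A) - ((seq m).1 : M2 A)) := by abel
      rw [e]
      exact ((hseq n).mono (Ideal.pow_le_pow_right (by omega))).add ih
  have hlim : ∀ i j, ∃ L : A, ∀ n, ((seq n).1 : M2 A) i j - L ∈ maximalIdeal A ^ n := by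
    intro i j
    obtain ⟨L, hL⟩ := IsPrecomplete.prec (IsAdicComplete.toIsPrecomplete (I := maximalIdeal A)
      (M := A)) (f := fun n => ((seq n).1 : M2 A) i j) (by
        intro m n hmn
        rw [SModEq.sub_mem, smul_eq_mul, Ideal.mul_top]
        have := (hcauchy m n hmn).neg i j
        simpa using this)
    refine ⟨L, fun n => ?_⟩
    have := hL n
    rwa [SModEq.sub_mem, smul_eq_mul, Ideal.mul_top] at this
  choose L hL using hlim
  let Uinf : M2 A := Matrix.of L
  have hUinf : ∀ n, EI (maximalIdeal A ^ n) (((seq n).1 : M2 A) - Uinf) := fun n i j => hL i j n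
  have hU1 : EI (maximalIdeal A) (Uinf - 1) := by
    have e : Uinf - 1 = -(((seq 1).1 : M2 A) - Uinf) + (((seq 1).1 : M2 A) - 1) := by abel
    rw [e]
    exact (by simpa using (hUinf 1).neg : EI (maximalIdeal A) (-(((seq 1).1 : M2 A) - Uinf))).add
      (seq 1).2.1
  obtain ⟨U, hU⟩ := isUnit_of_EI_sub_one hU1
  refine ⟨U, by rw [hU]; exact hU1, fun j => ?_⟩
  have h0 : ((U : M2 A) * N j * ((U⁻¹ : (M2 A)ˣ) : M2 A)) (ab j).1 (ab j).2 - γ j = 0 := by
    apply IsHausdorff.haus (IsAdicComplete.toIsHausdorff (I := maximalIdeal A) (M := A))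
    intro n
    rw [SModEq.zero, smul_eq_mul, Ideal.mul_top]
    have h1 : EI (maximalIdeal A ^ n) ((U : M2 A) - ((seq n).1 : M2 A)) := by
      have := (hUinf n).neg
      rwa [neg_sub, ← hU] at this
    have h2 := EI_conj_sub_conj U (seq n).1 h1 (N j) (ab j).1 (ab j).2
    have h3 : (((seq n).1 : M2 A) * N j * (((seq n).1⁻¹ : (M2 A)ˣ) : M2 A)) (ab j).1 (ab j).2
        - γ j ∈ maximalIdeal A ^ n :=
      Ideal.pow_le_pow_right (by omega) ((seq n).2.2 j)
    have := (maximalIdeal A ^ n).add_mem h2 h3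
    rw [Matrix.sub_apply] at this
    convert this using 1
    ring
  exact sub_eq_zero.mp h0

/-- **Slice existence.** Over a complete local ring, a representation whose slice entries are
congruent to the prescribed values modulo the maximal ideal can be conjugated (by a matrix
congruent to `1`) into the slice. -/
theorem slice_exists [IsAdicComplete (maximalIdeal A) A]
    (r : G →* M2 A) (g : Fin 3 → G) (ab : Fin 3 → Fin 2 × Fin 2) (γ : Fin 3 → A)
    (hΛ : IsUnit (slLam (fun j => r (g j)) ab).det)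
    (herr : ∀ j, r (g j) (ab j).1 (ab j).2 - γ j ∈ maximalIdeal A) :
    ∃ U : (M2 A)ˣ, EI (maximalIdeal A) ((U : M2 A) - 1) ∧
      ∀ j, ((U : M2 A) * r (g j) * ((U⁻¹ : (M2 A)ˣ) : M2 A)) (ab j).1 (ab j).2 = γ j :=
  slice_exists_mat (fun j => r (g j)) ab γ hΛ herr

end Exists

end Fermat.Agent.LibS53
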