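/-
S53 sub-task T3 (helper3): rigidification ("slice") for lifts of an absolutely irreducible
2-dimensional residual representation.  Companion normal form: after a change of basis the
residual matrix of some `g` has first column `(0, 1)ᵀ`, and some entry `(i, j)` of the commutator
of the residual matrices of `h` and `g` is nonzero; the slice prescribes the entries `(0, 0)` and
`(1, 0)` of `r g` and the entry `(i, j)` of `r h`.  Existence uses the general three-entry Newton
iteration of `Slice.lean`; uniqueness is a direct computation.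
-/
import Mathlib
import Fermat.Agent.Lib.H7.S53Defs
import Fermat.Agent.Lib.S53.Slice
import Fermat.Agent.Lib.S53.S53T4

set_option autoImplicit false

open IsLocalRing

namespace Fermat.Agent.S53Lib

namespace T3

open TensorProduct in
/-- T3a (Schur): a matrix commuting with an absolutely irreducible matrix representation is
scalar. -/
theorem schur_resMatRep (k : Type) [Field k] (r : GQ →* Matrix (Fin 2) (Fin 2) k)
    (hr : ResMatCont k r) (habs : (resMatRep k r hr).IsAbsolutelyIrreducible)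
    (M : Matrix (Fin 2) (Fin 2) k) (hM : ∀ σ : GQ, M * r σ = r σ * M) :
    ∃ c : k, M = c • (1 : Matrix (Fin 2) (Fin 2) k) := by
  classical
  obtain ⟨μ, hμ⟩ := Module.End.exists_eigenvalue
    ((Matrix.toLin' M).baseChange (AlgebraicClosure k))
  have hstab : ∀ σ : GQ, ∀ x ∈ Module.End.eigenspace
      ((Matrix.toLin' M).baseChange (AlgebraicClosure k)) μ,
      ((Matrix.toLin' (r σ)).baseChange (AlgebraicClosure k)) x ∈ Module.End.eigenspace
        ((Matrix.toLin' M).baseChange (AlgebraicClosure k)) μ := by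
    intro σ x hx
    rw [Module.End.mem_eigenspace_iff] at hx ⊢
    have hcomm : (Matrix.toLin' M).baseChange (AlgebraicClosure k) ∘ₗ
          (Matrix.toLin' (r σ)).baseChange (AlgebraicClosure k)
        = (Matrix.toLin' (r σ)).baseChange (AlgebraicClosure k) ∘ₗ
          (Matrix.toLin' M).baseChange (AlgebraicClosure k) := by
      rw [← LinearMap.baseChange_comp, ← LinearMap.baseChange_comp, ← Matrix.toLin'_mul,
        ← Matrix.toLin'_mul, hM σ]
    have h2 := LinearMap.congr_fun hcomm x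
    simp only [LinearMap.comp_apply] at h2
    rw [h2, hx, map_smul]
  have habs' : Module.End.eigenspace ((Matrix.toLin' M).baseChange (AlgebraicClosure k)) μ = ⊥ ∨
      Module.End.eigenspace ((Matrix.toLin' M).baseChange (AlgebraicClosure k)) μ = ⊤ :=
    habs _ hstab
  rcases habs' with h | h
  · exact absurd h hμ
  · have key : ∀ i j : Fin 2, algebraMap k (AlgebraicClosure k) (M i j)
        = μ * algebraMap k (AlgebraicClosure k) (if i = j then 1 else 0) := by
      intro i j
      have h3 : ((1 : AlgebraicClosure k) ⊗ₜ[k] (Pi.single j 1 : Fin 2 → k)) ∈ Module.End.eigenspace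
          ((Matrix.toLin' M).baseChange (AlgebraicClosure k)) μ := by
        rw [h]; exact Submodule.mem_top
      rw [Module.End.mem_eigenspace_iff] at h3
      simp only [LinearMap.baseChange_tmul, Matrix.toLin'_apply, TensorProduct.smul_tmul',
        smul_eq_mul, mul_one] at h3
      have h4 := congrArg (fun x => (Algebra.TensorProduct.basis (AlgebraicClosure k)
        (Pi.basisFun k (Fin 2))).repr x i) h3
      simp only [Algebra.TensorProduct.basis_repr_tmul] at h4
      simpa [Pi.single_apply] using h4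
    have h01 : M 0 1 = 0 := by
      have := key 0 1
      simpa using this
    have h10 : M 1 0 = 0 := by
      have := key 1 0
      simpa using this
    have h11 : M 1 1 = M 0 0 := by
      apply (algebraMap k (AlgebraicClosure k)).injective
      rw [key 1 1, key 0 0]
      simp
    refine ⟨M 0 0, ?_⟩
    ext i j
    fin_cases i <;> fin_cases j <;> simp [h01, h10, h11]

/-- If the first column of `G * Q` is the second column of `Q`, then `Q⁻¹ * G * Q` has first
column `(0, 1)ᵀ`. -/
theorem conj_col {k : Type} [Field k] (G Q : Matrix (Fin 2) (Fin 2) k) (hQ : IsUnit Q.det)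
    (hcol : ∀ a, (G * Q) a 0 = Q a 1) :
    (Q⁻¹ * G * Q) 0 0 = 0 ∧ (Q⁻¹ * G * Q) 1 0 = 1 := by
  have h : ∀ i, (Q⁻¹ * G * Q) i 0 = (1 : Matrix (Fin 2) (Fin 2) k) i 1 := by
    intro i
    rw [← Matrix.nonsing_inv_mul Q hQ, Matrix.mul_assoc, Matrix.mul_apply, Matrix.mul_apply]
    exact Finset.sum_congr rfl fun a _ => by rw [hcol a]
  exact ⟨by rw [h 0]; simp, by rw [h 1]; simp⟩

/-- A non-scalar `2 × 2` matrix has a cyclic vector. -/
theorem exists_cyclic {k : Type} [Field k] (G : Matrix (Fin 2) (Fin 2) k)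
    (hG : ¬ ∃ c : k, G = c • (1 : Matrix (Fin 2) (Fin 2) k)) :
    ∃ Q : Matrix (Fin 2) (Fin 2) k, IsUnit Q.det ∧ ∀ a, (G * Q) a 0 = Q a 1 := by
  by_cases h10 : G 1 0 = 0
  · by_cases h01 : G 0 1 = 0
    · refine ⟨!![1, G 0 0 + G 0 1; 1, G 1 0 + G 1 1], ?_, ?_⟩
      · rw [Matrix.det_fin_two_of, isUnit_iff_ne_zero]
        intro h
        apply hG
        refine ⟨G 0 0, ?_⟩
        ext i j
        fin_cases i <;> fin_cases j <;> simp [h10, h01]
        rw [h10, h01] at h
        linear_combination h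
      · intro a
        fin_cases a <;> simp [Matrix.mul_apply, Fin.sum_univ_two]
    · refine ⟨!![0, G 0 1; 1, G 1 1], ?_, ?_⟩
      · rw [Matrix.det_fin_two_of, isUnit_iff_ne_zero]
        simpa using h01
      · intro a
        fin_cases a <;> simp [Matrix.mul_apply, Fin.sum_univ_two]
  · refine ⟨!![1, G 0 0; 0, G 1 0], ?_, ?_⟩
    · rw [Matrix.det_fin_two_of, isUnit_iff_ne_zero]
      simpa using h10
    · intro a
      fin_cases a <;> simp [Matrix.mul_apply, Fin.sum_univ_two]

/-- T3b: for an absolutely irreducible matrix representation there are `g, h ∈ G_ℚ`, a change of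
basis `P` and an entry `(i, j)` such that, after conjugating by `P`, the matrix of `g` has first
column `(0, 1)ᵀ` and the commutator of the matrices of `h` and `g` has nonzero `(i, j)` entry. -/
theorem exists_normalizing (k : Type) [Field k] (r : GQ →* Matrix (Fin 2) (Fin 2) k)
    (hr : ResMatCont k r) (habs : (resMatRep k r hr).IsAbsolutelyIrreducible) :
    ∃ (P : Matrix (Fin 2) (Fin 2) k) (g h : GQ) (i j : Fin 2), IsUnit P ∧
      (P * r g * P⁻¹) 0 0 = 0 ∧ (P * r g * P⁻¹) 1 0 = 1 ∧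
      ((P * r h * P⁻¹) * (P * r g * P⁻¹) - (P * r g * P⁻¹) * (P * r h * P⁻¹)) i j ≠ 0 := by
  -- the image is not commutative
  have hnc : ∃ g h : GQ, r h * r g ≠ r g * r h := by
    by_contra hcon
    simp only [not_exists, ne_eq, not_not] at hcon
    have hsc : ∀ g : GQ, ∃ c : k, r g = c • (1 : Matrix (Fin 2) (Fin 2) k) :=
      fun g => schur_resMatRep k r hr habs (r g) (fun σ => hcon σ g)
    obtain ⟨c, hc⟩ := schur_resMatRep k r hr habs !![0, 1; 0, 0] (fun σ => by
      obtain ⟨d, hd⟩ := hsc σ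
      rw [hd]; simp)
    have := congrFun (congrFun hc 0) 1
    simp at this
  obtain ⟨g, h, hgh⟩ := hnc
  have hG : ¬ ∃ c : k, r g = c • (1 : Matrix (Fin 2) (Fin 2) k) := by
    rintro ⟨c, hc⟩
    apply hgh
    rw [hc]; simp
  obtain ⟨Q, hQ, hcol⟩ := exists_cyclic (r g) hG
  have hQ' : IsUnit Q⁻¹.det := by
    rw [Matrix.det_nonsing_inv]; simpa using hQ
  have hinv : Q⁻¹⁻¹ = Q := Matrix.nonsing_inv_nonsing_inv Q hQ
  have hcomm : (Q⁻¹ * r h * Q) * (Q⁻¹ * r g * Q) - (Q⁻¹ * r g * Q) * (Q⁻¹ * r h * Q)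
      = Q⁻¹ * (r h * r g - r g * r h) * Q := by
    have e1 : (Q⁻¹ * r h * Q) * (Q⁻¹ * r g * Q) = Q⁻¹ * r h * (Q * Q⁻¹) * r g * Q := by
      simp only [Matrix.mul_assoc]
    have e2 : (Q⁻¹ * r g * Q) * (Q⁻¹ * r h * Q) = Q⁻¹ * r g * (Q * Q⁻¹) * r h * Q := by
      simp only [Matrix.mul_assoc]
    rw [e1, e2, Matrix.mul_nonsing_inv Q hQ]
    simp only [Matrix.mul_one, Matrix.mul_sub, Matrix.sub_mul, Matrix.mul_assoc]
  have hne : Q⁻¹ * (r h * r g - r g * r h) * Q ≠ 0 := by
    intro h0
    apply hgh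
    have : Q * (Q⁻¹ * (r h * r g - r g * r h) * Q) * Q⁻¹ = 0 := by rw [h0]; simp
    rw [← Matrix.mul_assoc, ← Matrix.mul_assoc, Matrix.mul_nonsing_inv Q hQ, Matrix.one_mul,
      Matrix.mul_assoc, Matrix.mul_nonsing_inv Q hQ, Matrix.mul_one] at this
    exact sub_eq_zero.mp this
  have hex : ∃ i j : Fin 2, (Q⁻¹ * (r h * r g - r g * r h) * Q) i j ≠ 0 := by
    by_contra hcon
    simp only [not_exists, ne_eq, not_not] at hcon
    exact hne (by ext i j; exact hcon i j)
  obtain ⟨i, j, hij⟩ := hex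
  obtain ⟨c0, c1⟩ := conj_col (r g) Q hQ hcol
  refine ⟨Q⁻¹, g, h, i, j, (Matrix.isUnit_iff_isUnit_det _).mpr hQ', ?_, ?_, ?_⟩
  · rw [hinv]; exact c0
  · rw [hinv]; exact c1
  · rw [hinv, hcomm]; exact hij

open Fermat.Agent.LibS53 in
/-- The slice determinant of a normalised pair is the commutator entry. -/
theorem det_slLam_normal {F : Type*} [CommRing F] (M N : Matrix (Fin 2) (Fin 2) F) (i j : Fin 2)
    (h00 : M 0 0 = 0) (h10 : M 1 0 = 1) :
    (slLam ![M, M, N] ![(0, 0), (1, 0), (i, j)]).det = (N * M - M * N) i j := by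
  obtain ⟨b, d, rfl⟩ : ∃ b d, M = !![0, b; 1, d] :=
    ⟨M 0 1, M 1 1, by ext x y; fin_cases x <;> fin_cases y <;> simp [h00, h10]⟩
  obtain ⟨n00, n01, n10, n11, rfl⟩ : ∃ n00 n01 n10 n11, N = !![n00, n01; n10, n11] :=
    ⟨N 0 0, N 0 1, N 1 0, N 1 1, Matrix.eta_fin_two N⟩
  rw [Matrix.det_fin_three]
  fin_cases i <;> fin_cases j <;>
  · simp [slLam, commVec, offMat, Pi.single_apply]
    ring

open Fermat.Agent.LibS53 in
/-- T3c (existence of the normal form): over a complete local ring, a pair `(M, N)` which is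
residually normalised (`M` has first column `≡ (0,1)ᵀ`, the `(i,j)` entry of `[N, M]` is a unit,
`N i j ≡ a₀`) can be conjugated by a matrix `P ≡ 1` to an exactly normalised pair. -/
theorem exists_normal_form (A : Type) [CommRing A] [IsLocalRing A]
    [IsAdicComplete (maximalIdeal A) A]
    (M N : Matrix (Fin 2) (Fin 2) A) (i j : Fin 2) (a₀ : A)
    (h00 : M 0 0 ∈ maximalIdeal A) (h10 : M 1 0 - 1 ∈ maximalIdeal A)
    (hu : IsUnit ((N * M - M * N) i j)) (ha : N i j - a₀ ∈ maximalIdeal A) :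
    ∃ P : Matrix (Fin 2) (Fin 2) A, IsUnit P ∧ (∀ a b, (P - 1) a b ∈ maximalIdeal A) ∧
      (P * M * P⁻¹) 0 0 = 0 ∧ (P * M * P⁻¹) 1 0 = 1 ∧ (P * N * P⁻¹) i j = a₀ := by
  have hΛ : IsUnit (slLam ![M, M, N] ![(0, 0), (1, 0), (i, j)]).det := by
    rw [← residue_ne_zero_iff_isUnit, RingHom.map_det, RingHom.mapMatrix_apply, ← slLam_map]
    have e : (fun c => (![M, M, N] c).map (residue A))
        = ![M.map (residue A), M.map (residue A), N.map (residue A)] := by
      funext c; fin_cases c <;> rfl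
    rw [e, det_slLam_normal]
    · rw [← Matrix.map_mul, ← Matrix.map_mul, Matrix.sub_apply, Matrix.map_apply,
        Matrix.map_apply, ← map_sub, ← Matrix.sub_apply, residue_ne_zero_iff_isUnit]
      exact hu
    · rw [Matrix.map_apply, residue_eq_zero_iff]; exact h00
    · rw [Matrix.map_apply]
      have := (residue_eq_zero_iff _).mpr h10
      rw [map_sub, map_one, sub_eq_zero] at this
      exact this
  have herr : ∀ c : Fin 3, (![M, M, N] c) ((![(0, 0), (1, 0), (i, j)] : Fin 3 → Fin 2 × Fin 2) c).1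
      ((![(0, 0), (1, 0), (i, j)] : Fin 3 → Fin 2 × Fin 2) c).2 - (![0, 1, a₀] : Fin 3 → A) c
        ∈ maximalIdeal A := by
    intro c
    fin_cases c
    · show M 0 0 - 0 ∈ maximalIdeal A
      rw [sub_zero]; exact h00
    · exact h10
    · exact ha
  obtain ⟨U, hU1, hU⟩ := slice_exists_mat ![M, M, N] ![(0, 0), (1, 0), (i, j)] ![0, 1, a₀] hΛ herr
  refine ⟨U, U.isUnit, hU1, ?_, ?_, ?_⟩
  · have := hU 0
    rw [Matrix.coe_units_inv] at this
    exact this
  · have := hU 1
    rw [Matrix.coe_units_inv] at this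
    exact this
  · have := hU 2
    rw [Matrix.coe_units_inv] at this
    exact this

/-- T3d (rigidity of the normal form): if `P` conjugates a normalised pair `(M, N)` to a
normalised pair `(M', N')` with `N' ≡ N` modulo the maximal ideal, then `P` is a scalar
matrix. -/
theorem normal_form_rigid (A : Type) [CommRing A] [IsLocalRing A]
    (M N M' N' : Matrix (Fin 2) (Fin 2) A) (i j : Fin 2) (a₀ : A)
    (h00 : M 0 0 = 0) (h10 : M 1 0 = 1) (hN : N i j = a₀)
    (h00' : M' 0 0 = 0) (h10' : M' 1 0 = 1) (hN' : N' i j = a₀)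
    (hu : IsUnit ((N * M - M * N) i j))
    (P : Matrix (Fin 2) (Fin 2) A) (hP : IsUnit P)
    (hNN' : ∀ a b, (N' - N) a b ∈ maximalIdeal A)
    (hPM : P * M = M' * P) (hPN : P * N = N' * P) :
    ∃ e : A, IsUnit e ∧ P = e • (1 : Matrix (Fin 2) (Fin 2) A) := by
  -- `P = a + b M'`
  have e00 := congrFun (congrFun hPM 0) 0
  have e10 := congrFun (congrFun hPM 1) 0
  simp only [Matrix.mul_apply, Fin.sum_univ_two, h00, h10, h00', h10', mul_zero, mul_one,
    zero_add, zero_mul, one_mul] at e00 e10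
  have hPd' : P = P 0 0 • (1 : Matrix (Fin 2) (Fin 2) A) + P 1 0 • M' := by
    ext x y
    fin_cases x <;> fin_cases y
    · simp [h00']
    · simp only [Fin.zero_eta, Fin.mk_one, Matrix.add_apply, Matrix.smul_apply, smul_eq_mul,
        Matrix.one_apply_ne (zero_ne_one' (Fin 2)), mul_zero, zero_add]
      linear_combination e00
    · simp [h10']
    · simp only [Fin.mk_one, Matrix.add_apply, Matrix.smul_apply, smul_eq_mul,
        Matrix.one_apply_eq, mul_one]
      linear_combination e10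
  -- hence `M' = M`
  have hcomm : P * M' = M' * P := by
    rw [hPd']
    simp only [add_mul, mul_add, Matrix.smul_mul, Matrix.mul_smul, Matrix.one_mul, Matrix.mul_one]
  have hMM : M' = M := hP.mul_left_cancel (hcomm.trans hPM.symm)
  subst hMM
  -- the `(i, j)` entry of `P * N = N' * P`
  have hPN' : (P 0 0 • (1 : Matrix (Fin 2) (Fin 2) A) + P 1 0 • M') * N
      = N' * (P 0 0 • (1 : Matrix (Fin 2) (Fin 2) A) + P 1 0 • M') := by
    rw [← hPd']; exact hPN
  have hij := congrFun (congrFun hPN' i) j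
  simp only [add_mul, mul_add, Matrix.smul_mul, Matrix.mul_smul, Matrix.one_mul, Matrix.mul_one,
    Matrix.add_apply, Matrix.smul_apply, smul_eq_mul, hN, hN'] at hij
  have hunit : IsUnit ((M' * N) i j - (N' * M') i j) := by
    by_contra hnu
    have h2 : (M' * N) i j - (N' * M') i j ∈ maximalIdeal A := (mem_maximalIdeal _).mpr hnu
    have h3 : ((N' - N) * M') i j ∈ maximalIdeal A := by
      rw [Matrix.mul_apply]
      exact Ideal.sum_mem _ fun c _ => Ideal.mul_mem_right _ _ (hNN' i c)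
    have h4 : (N * M' - M' * N) i j ∈ maximalIdeal A := by
      have := (maximalIdeal A).neg_mem ((maximalIdeal A).add_mem h2 h3)
      convert this using 1
      simp only [Matrix.sub_apply, Matrix.sub_mul]
      ring
    exact ((mem_maximalIdeal _).mp h4) hu
  have hb0 : P 1 0 = 0 := by
    have : P 1 0 * ((M' * N) i j - (N' * M') i j) = 0 := by linear_combination hij
    exact (hunit.mul_left_eq_zero).mp this
  rw [hb0, zero_smul, add_zero] at hPd'
  refine ⟨P 0 0, ?_, hPd'⟩
  have hdet : IsUnit P.det := (Matrix.isUnit_iff_isUnit_det P).mp hP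
  rw [hPd', Matrix.det_smul, Matrix.det_one, mul_one, Fintype.card_fin] at hdet
  exact (isUnit_pow_iff two_ne_zero).mp hdet

/-- Conjugation of a matrix valued homomorphism by an invertible matrix. -/
noncomputable def conjHom {A : Type} [CommRing A] (P : (Matrix (Fin 2) (Fin 2) A)ˣ)
    (r : GQ →* Matrix (Fin 2) (Fin 2) A) : GQ →* Matrix (Fin 2) (Fin 2) A where
  toFun σ := (P : Matrix (Fin 2) (Fin 2) A) * r σ
    * ((P⁻¹ : (Matrix (Fin 2) (Fin 2) A)ˣ) : Matrix (Fin 2) (Fin 2) A)
  map_one' := by rw [map_one, mul_one, Units.mul_inv]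
  map_mul' σ τ := by simp only [map_mul, mul_assoc, Units.inv_mul_cancel_left]

theorem conjHom_apply {A : Type} [CommRing A] (P : (Matrix (Fin 2) (Fin 2) A)ˣ)
    (r : GQ →* Matrix (Fin 2) (Fin 2) A) (σ : GQ) :
    conjHom P r σ = (P : Matrix (Fin 2) (Fin 2) A) * r σ
      * ((P⁻¹ : (Matrix (Fin 2) (Fin 2) A)ˣ) : Matrix (Fin 2) (Fin 2) A) := rfl

open Fermat.Agent.LibS53 in
/-- Entrywise congruences are compatible with products. -/
theorem EI_mul_sub_mul {A : Type} [CommRing A] {I : Ideal A}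
    {X X' Y Y' : Matrix (Fin 2) (Fin 2) A} (hX : EI I (X - X')) (hY : EI I (Y - Y')) :
    EI I (X * Y - X' * Y') := by
  have e : X * Y - X' * Y' = (X - X') * Y + X' * (Y - Y') := by noncomm_ring
  rw [e]
  exact (hX.mul_right _).add (hY.mul_left _)

open Fermat.Agent.LibS53 in
/-- The `(i, j)` entry of the commutator of two lifted matrices is a unit if it is nonzero
residually. -/
theorem isUnit_comm_of_isLift {𝒪 : Type} [CommRing 𝒪] [IsLocalRing 𝒪]
    (rb : GQ →* Matrix (Fin 2) (Fin 2) (ResidueField 𝒪)) (rt : GQ → Matrix (Fin 2) (Fin 2) 𝒪)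
    (hrt : ∀ (σ : GQ) (i j : Fin 2), IsLocalRing.residue 𝒪 (rt σ i j) = rb σ i j)
    (g h : GQ) (i j : Fin 2) (hne : (rb h * rb g - rb g * rb h) i j ≠ 0)
    (A : Type) [CommRing A] [IsLocalRing A] [Algebra 𝒪 A]
    (r : GQ →* Matrix (Fin 2) (Fin 2) A) (hr : IsLift rt A r) :
    IsUnit ((r h * r g - r g * r h) i j) := by
  have hmap : ∀ σ, (rt σ).map (residue 𝒪) = rb σ := fun σ => by
    ext a b; exact hrt σ a b
  have hu0 : IsUnit ((rt h * rt g - rt g * rt h) i j) := by
    rw [← residue_ne_zero_iff_isUnit]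
    have : residue 𝒪 ((rt h * rt g - rt g * rt h) i j) = (rb h * rb g - rb g * rb h) i j := by
      rw [← hmap h, ← hmap g, ← Matrix.map_mul, ← Matrix.map_mul, Matrix.sub_apply,
        Matrix.sub_apply, Matrix.map_apply, Matrix.map_apply, ← map_sub]
    rw [this]; exact hne
  have hcong : ∀ σ, EI (maximalIdeal A) (r σ - (rt σ).map (algebraMap 𝒪 A)) :=
    fun σ a b => hr σ a b
  have h1 := (EI_mul_sub_mul (hcong h) (hcong g)).sub (EI_mul_sub_mul (hcong g) (hcong h))
  have h2 := h1 i j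
  have h3 : algebraMap 𝒪 A ((rt h * rt g - rt g * rt h) i j)
      = ((rt h).map (algebraMap 𝒪 A) * (rt g).map (algebraMap 𝒪 A)
        - (rt g).map (algebraMap 𝒪 A) * (rt h).map (algebraMap 𝒪 A)) i j := by
    rw [← Matrix.map_mul, ← Matrix.map_mul, Matrix.sub_apply, Matrix.sub_apply,
      Matrix.map_apply, Matrix.map_apply, ← map_sub]
  by_contra hnu
  have h4 : (r h * r g - r g * r h) i j ∈ maximalIdeal A := (mem_maximalIdeal _).mpr hnu
  have h5 : algebraMap 𝒪 A ((rt h * rt g - rt g * rt h) i j) ∈ maximalIdeal A := by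
    have := (maximalIdeal A).sub_mem h4 h2
    rw [h3]
    convert this using 1
    simp only [Matrix.sub_apply]
    ring
  exact ((mem_maximalIdeal _).mp h5) (hu0.map (algebraMap 𝒪 A))

open Fermat.Agent.LibS53 in
/-- T3 (strong form, no residue-field hypothesis in the uniqueness clause): existence of a
rigidification.  There are a matrix form `rb` of `ρbar`, a set-theoretic
lift `rt` of `rb` to `𝒪` and slice data `sl` such that over every complete local `𝒪`-algebra
(i) every lift is conjugate to a lift in the slice and (ii) two conjugate lifts in the slice are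
equal. -/
theorem exists_rigidification_strong (𝒪 : Type) [CommRing 𝒪] [IsLocalRing 𝒪]
    (ρbar : ResidualGaloisRep (ResidueField 𝒪)) (habs : ρbar.IsAbsolutelyIrreducible) :
    ∃ (rb : GQ →* Matrix (Fin 2) (Fin 2) (ResidueField 𝒪))
      (hrb : ResMatCont (ResidueField 𝒪) rb)
      (rt : GQ → Matrix (Fin 2) (Fin 2) 𝒪) (sl : Slice 𝒪),
      ρbar.IsEquiv (resMatRep (ResidueField 𝒪) rb hrb) ∧
      (∀ (σ : GQ) (i j : Fin 2), IsLocalRing.residue 𝒪 (rt σ i j) = rb σ i j) ∧
      (∀ s : Fin 3, sl.v s = rt (sl.g s) (sl.a s) (sl.b s)) ∧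
      (∀ (A : Type) [CommRing A] [IsLocalRing A] [Algebra 𝒪 A]
          [IsAdicComplete (maximalIdeal A) A] (_ : IsLocalHom (algebraMap 𝒪 A))
          (r : GQ →* Matrix (Fin 2) (Fin 2) A), IsLift rt A r →
          ∃ r' : GQ →* Matrix (Fin 2) (Fin 2) A, IsLift rt A r' ∧ InSlice sl A r' ∧
            ∃ P : Matrix (Fin 2) (Fin 2) A, IsUnit P ∧ ∀ σ : GQ, P * r σ = r' σ * P) ∧
      (∀ (A : Type) [CommRing A] [IsLocalRing A] [Algebra 𝒪 A]
          [IsAdicComplete (maximalIdeal A) A] (_ : IsLocalHom (algebraMap 𝒪 A))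
          (r r' : GQ →* Matrix (Fin 2) (Fin 2) A), IsLift rt A r → IsLift rt A r' →
          InSlice sl A r → InSlice sl A r' →
          (∃ P : Matrix (Fin 2) (Fin 2) A, IsUnit P ∧ ∀ σ : GQ, P * r σ = r' σ * P) →
          r = r') := by
  classical
  obtain ⟨r0, hr0, he0⟩ := exists_resMatRep_equiv (ResidueField 𝒪) ρbar
  have habs0 := isAbsolutelyIrreducible_of_isEquiv he0 habs
  obtain ⟨P0, g, h, i, j, hP0, c00, c10, hcomm⟩ :=
    exists_normalizing (ResidueField 𝒪) r0 hr0 habs0
  obtain ⟨P0u, hP0u⟩ := hP0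
  subst hP0u
  rw [← Matrix.coe_units_inv] at c00 c10 hcomm
  obtain ⟨rb, hrbapp⟩ : ∃ rb : GQ →* Matrix (Fin 2) (Fin 2) (ResidueField 𝒪), ∀ σ, rb σ
      = (P0u : Matrix (Fin 2) (Fin 2) (ResidueField 𝒪)) * r0 σ
        * ((P0u⁻¹ : (Matrix (Fin 2) (Fin 2) (ResidueField 𝒪))ˣ) :
          Matrix (Fin 2) (Fin 2) (ResidueField 𝒪)) :=
    ⟨conjHom P0u r0, fun σ => rfl⟩
  rw [← hrbapp g] at c00 c10
  rw [← hrbapp g, ← hrbapp h] at hcomm
  have hrb : ResMatCont (ResidueField 𝒪) rb := by
    obtain ⟨L, hL, h1⟩ := hr0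
    exact ⟨L, hL, fun σ hσ => by rw [hrbapp, h1 σ hσ, mul_one, Units.mul_inv]⟩
  have he : ρbar.IsEquiv (resMatRep (ResidueField 𝒪) rb hrb) := by
    have h1 : (resMatRep _ r0 hr0).IsEquiv (resMatRep _ rb hrb) :=
      (resMatRep_isEquiv_iff _ r0 rb hr0 hrb).mpr ⟨P0u, P0u.isUnit, fun σ => by
        rw [hrbapp, mul_assoc, Units.inv_mul, mul_one]⟩
    exact ⟨he0.some.trans h1.some⟩
  -- the set-theoretic lift
  have hsurj := IsLocalRing.residue_surjective (R := 𝒪)
  let lift0 : GQ → Matrix (Fin 2) (Fin 2) 𝒪 := fun σ =>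
    Matrix.of fun a b => (hsurj (rb σ a b)).choose
  have hlift0 : ∀ σ a b, residue 𝒪 (lift0 σ a b) = rb σ a b :=
    fun σ a b => (hsurj (rb σ a b)).choose_spec
  let rt : GQ → Matrix (Fin 2) (Fin 2) 𝒪 :=
    Function.update lift0 g !![0, lift0 g 0 1; 1, lift0 g 1 1]
  have hrtg : rt g = !![0, lift0 g 0 1; 1, lift0 g 1 1] := Function.update_self ..
  have hg00 : rt g 0 0 = 0 := by rw [hrtg]; rfl
  have hg10 : rt g 1 0 = 1 := by rw [hrtg]; rfl
  have hrt : ∀ (σ : GQ) (a b : Fin 2), residue 𝒪 (rt σ a b) = rb σ a b := by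
    intro σ a b
    by_cases hσ : σ = g
    · subst hσ
      rw [hrtg]
      fin_cases a <;> fin_cases b
      · simpa using c00.symm
      · simpa using hlift0 σ 0 1
      · simpa using c10.symm
      · simpa using hlift0 σ 1 1
    · have : rt σ = lift0 σ := Function.update_of_ne hσ ..
      rw [this]; exact hlift0 σ a b
  refine ⟨rb, hrb, rt, ⟨![g, g, h], ![0, 1, i], ![0, 0, j], ![rt g 0 0, rt g 1 0, rt h i j]⟩,
    he, hrt, ?_, ?_, ?_⟩
  · intro s
    fin_cases s <;> rfl
  · -- existence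
    intro A _ _ _ _ _ r hr
    have h00 : r g 0 0 ∈ maximalIdeal A := by
      have := hr g 0 0
      rwa [hg00, map_zero, sub_zero] at this
    have h10 : r g 1 0 - 1 ∈ maximalIdeal A := by
      have := hr g 1 0
      rwa [hg10, map_one] at this
    have hu := isUnit_comm_of_isLift rb rt hrt g h i j hcomm A r hr
    obtain ⟨P, hP, hP1, e00, e10, eN⟩ := exists_normal_form A (r g) (r h) i j
      (algebraMap 𝒪 A (rt h i j)) h00 h10 hu (hr h i j)
    obtain ⟨Pu, hPu⟩ := hP
    subst hPu
    rw [← Matrix.coe_units_inv] at e00 e10 eN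
    refine ⟨conjHom Pu r, ?_, ?_, (Pu : Matrix (Fin 2) (Fin 2) A), Pu.isUnit, fun σ => ?_⟩
    · intro σ a b
      have h1 := EI_conj_sub_self Pu (I := maximalIdeal A) hP1 (r σ) a b
      have h2 := hr σ a b
      have := (maximalIdeal A).add_mem h1 h2
      convert this using 1
      simp only [conjHom_apply, Matrix.sub_apply]
      ring
    · intro s
      fin_cases s
      · show ((Pu : Matrix (Fin 2) (Fin 2) A) * r g
          * ((Pu⁻¹ : (Matrix (Fin 2) (Fin 2) A)ˣ) : Matrix (Fin 2) (Fin 2) A)) 0 0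
            = algebraMap 𝒪 A (rt g 0 0)
        rw [e00, hg00, map_zero]
      · show ((Pu : Matrix (Fin 2) (Fin 2) A) * r g
          * ((Pu⁻¹ : (Matrix (Fin 2) (Fin 2) A)ˣ) : Matrix (Fin 2) (Fin 2) A)) 1 0
            = algebraMap 𝒪 A (rt g 1 0)
        rw [e10, hg10, map_one]
      · exact eN
    · rw [conjHom_apply, mul_assoc, Units.inv_mul, mul_one]
  · -- uniqueness
    intro A _ _ _ _ _ r r' hl hl' hs hs' hconj
    obtain ⟨P, hP, hPr⟩ := hconj
    have e00 : r g 0 0 = 0 := by
      have h0 := hs 0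
      change r g 0 0 = algebraMap 𝒪 A (rt g 0 0) at h0
      rw [h0, hg00, map_zero]
    have e10 : r g 1 0 = 1 := by
      have h0 := hs 1
      change r g 1 0 = algebraMap 𝒪 A (rt g 1 0) at h0
      rw [h0, hg10, map_one]
    have eN : r h i j = algebraMap 𝒪 A (rt h i j) := hs 2
    have e00' : r' g 0 0 = 0 := by
      have h0 := hs' 0
      change r' g 0 0 = algebraMap 𝒪 A (rt g 0 0) at h0
      rw [h0, hg00, map_zero]
    have e10' : r' g 1 0 = 1 := by
      have h0 := hs' 1
      change r' g 1 0 = algebraMap 𝒪 A (rt g 1 0) at h0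
      rw [h0, hg10, map_one]
    have eN' : r' h i j = algebraMap 𝒪 A (rt h i j) := hs' 2
    have hu := isUnit_comm_of_isLift rb rt hrt g h i j hcomm A r hl
    have hNN' : ∀ a b, (r' h - r h) a b ∈ maximalIdeal A := fun a b => by
      have := (maximalIdeal A).sub_mem (hl' h a b) (hl h a b)
      convert this using 1
      simp only [Matrix.sub_apply]
      ring
    obtain ⟨e, he', hPe⟩ := normal_form_rigid A (r g) (r h) (r' g) (r' h) i j _
      e00 e10 eN e00' e10' eN' hu P hP hNN' (hPr g) (hPr h)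
    ext1 σ
    have h1 := hPr σ
    rw [hPe, Matrix.smul_mul, Matrix.mul_smul, Matrix.one_mul, Matrix.mul_one] at h1
    exact he'.smul_left_cancel.mp h1

end T3

end Fermat.Agent.S53Lib
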