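/-
S53 sub-task T3 (helper3): the rigidification theorem in the form of the T3 interface (v3).
-/
import Mathlib
import Fermat.Agent.Lib.H7.S53Defs
import Fermat.Agent.Lib.S53.S53T3

set_option autoImplicit false

open IsLocalRing

namespace Fermat.Agent.S53Lib

/-- T3: existence of a rigidification.  There are a matrix form `rb` of `ρbar`, a set-theoretic
lift `rt` of `rb` to `𝒪` and slice data `sl` such that over every complete local `𝒪`-algebra
(i) every lift is conjugate to a lift in the slice and (ii) two conjugate lifts in the slice are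
equal (v3: (ii) only for `A` with residue field `k`, so Schur over `k` suffices). -/
theorem exists_rigidification (𝒪 : Type) [CommRing 𝒪] [IsLocalRing 𝒪]
    (ρbar : ResidualGaloisRep (ResidueField 𝒪)) (habs : ρbar.IsAbsolutelyIrreducible) :
    ∃ (rb : GQ →* Matrix (Fin 2) (Fin 2) (ResidueField 𝒪))
      (hrb : ResMatCont (ResidueField 𝒪) rb)
      (rt : GQ → Matrix (Fin 2) (Fin 2) 𝒪) (sl : Slice 𝒪),
      ρbar.IsEquiv (resMatRep (ResidueField 𝒪) rb hrb) ∧
      (∀ (σ : GQ) (i j : Fin 2), IsLocalRing.residue 𝒪 (rt σ i j) = rb σ i j) ∧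
      (∀ s : Fin 3, sl.v s = rt (sl.g s) (sl.a s) (sl.b s)) ∧
      (∀ (A : Type) [CommRing A] [IsLocalRing A] [Algebra 𝒪 A]
          [IsAdicComplete (maximalIdeal A) A] (_ : IsLocalHom (algebraMap 𝒪 A))
          (r : GQ →* Matrix (Fin 2) (Fin 2) A), IsLift rt A r →
          ∃ r' : GQ →* Matrix (Fin 2) (Fin 2) A, IsLift rt A r' ∧ InSlice sl A r' ∧
            ∃ P : Matrix (Fin 2) (Fin 2) A, IsUnit P ∧ ∀ σ : GQ, P * r σ = r' σ * P) ∧
      (∀ (A : Type) [CommRing A] [IsLocalRing A] [Algebra 𝒪 A]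
          [IsAdicComplete (maximalIdeal A) A] (_ : IsLocalHom (algebraMap 𝒪 A))
          (_ : Function.Surjective (IsLocalRing.residue A ∘ algebraMap 𝒪 A))
          (r r' : GQ →* Matrix (Fin 2) (Fin 2) A), IsLift rt A r → IsLift rt A r' →
          InSlice sl A r → InSlice sl A r' →
          (∃ P : Matrix (Fin 2) (Fin 2) A, IsUnit P ∧ ∀ σ : GQ, P * r σ = r' σ * P) →
          r = r') := by
  obtain ⟨rb, hrb, rt, sl, h1, h2, h3, h4, h5⟩ := T3.exists_rigidification_strong 𝒪 ρbar habs
  exact ⟨rb, hrb, rt, sl, h1, h2, h3, h4, fun A _ _ _ _ hloc _ r r' => h5 A hloc r r'⟩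

end Fermat.Agent.S53Lib
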